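import Fermat.Agent.Duality.Coh.ShaPairing

/-!
# Duality of finite groups killed by a prime
-/

set_option autoImplicit false

noncomputable section

namespace Fermat.Agent.Duality

variable {p : ℕ} [Fact p.Prime] {V X : Type} [AddCommGroup V] [AddCommGroup X]

/-- Representing a functional on a subgroup vanishing where all the given functionals vanish. -/
lemma exists_eq_on_of_ker [Finite V] (hV : ∀ v : V, p • v = 0) (W : AddSubgroup V)
    (θ : X →+ V →+ ZMod p) (f : V →+ ZMod p) (h : ∀ w ∈ W, (∀ x, θ x w = 0) → f w = 0) :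
    ∃ x, ∀ w ∈ W, θ x w = f w := by
  let K : AddSubgroup W :=
    { carrier := {w | ∀ x, θ x (w : V) = 0}
      zero_mem' := fun x => map_zero (θ x)
      add_mem' := fun {v w} hv hw x => by rw [AddSubgroup.coe_add, map_add, hv x, hw x, add_zero]
      neg_mem' := fun {v} hv x => by rw [AddSubgroup.coe_neg, map_neg, hv x, neg_zero] }
  let r : X →+ (W ⧸ K) →+ ZMod p :=
    AddMonoidHom.mk' (fun x => QuotientAddGroup.lift K ((θ x).comp W.subtype) fun w hw => hw x)
      fun x y => AddMonoidHom.ext fun q => by
        obtain ⟨w, rfl⟩ := QuotientAddGroup.mk'_surjective K q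
        show θ (x + y) (w : V) = θ x (w : V) + θ y (w : V)
        rw [map_add, AddMonoidHom.add_apply]
  have : Finite (W ⧸ K) := inferInstance
  have hpq : ∀ q : W ⧸ K, p • q = 0 := fun q => by
    obtain ⟨w, rfl⟩ := QuotientAddGroup.mk'_surjective K q
    rw [← map_nsmul, show p • w = 0 from Subtype.ext (hV w), map_zero]
  obtain ⟨x, hx⟩ := Coh.surjective_of_separates hpq r (fun q hq => by
    obtain ⟨w, rfl⟩ := QuotientAddGroup.mk'_surjective K q
    by_contra hn
    push Not at hn
    exact hq ((QuotientAddGroup.eq_zero_iff w).mpr hn))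
    (QuotientAddGroup.lift K (f.comp W.subtype) fun w hw => h w w.2 hw)
  exact ⟨x, fun w hw => DFunLike.congr_fun hx (QuotientAddGroup.mk' K ⟨w, hw⟩)⟩

private lemma card_dual_aux [Module (ZMod p) V] [Finite V] :
    Nat.card (V →+ ZMod p) = Nat.card V := by
  have : Module.Finite (ZMod p) V := Module.Finite.of_finite
  let b := Module.finBasis (ZMod p) V
  let e : (V →+ ZMod p) ≃ Module.Dual (ZMod p) V :=
    { toFun := fun f => f.toZModLinearMap p
      invFun := fun f => f.toAddMonoidHom
      left_inv := fun _ => rfl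
      right_inv := fun _ => rfl }
  exact Nat.card_congr (e.trans b.toDualEquiv.symm.toEquiv)

/-- A finite group killed by `p` has as many characters as elements. -/
lemma card_dual [Finite V] (hV : ∀ v : V, p • v = 0) : Nat.card (V →+ ZMod p) = Nat.card V := by
  let : Module (ZMod p) V := AddCommGroup.zmodModule hV
  exact card_dual_aux

/-- Non-degeneracy on one side gives it on the other. -/
lemma eq_zero_of_left [Finite V] (hV : ∀ v : V, p • v = 0) (B : V →+ V →+ ZMod p)
    (h : ∀ y : V, y ≠ 0 → ∃ x, B x y ≠ 0) {x : V} (hx : ∀ y, B x y = 0) : x = 0 := by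
  have hs : Function.Surjective B := Coh.surjective_of_separates hV B h
  have : Finite (V →+ ZMod p) := Finite.of_surjective _ hs
  have hb : Function.Bijective B :=
    (Nat.bijective_iff_surjective_and_card _).mpr ⟨hs, (card_dual hV).symm⟩
  exact hb.1 ((AddMonoidHom.ext hx : B x = 0).trans (map_zero B).symm)

/-- A non-degenerate pairing represents all functionals on the left. -/
lemma exists_eq_left [Finite V] (hV : ∀ v : V, p • v = 0) (B : V →+ V →+ ZMod p)
    (h : ∀ y : V, y ≠ 0 → ∃ x, B x y ≠ 0) (f : V →+ ZMod p) : ∃ x, ∀ y, B x y = f y := by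
  obtain ⟨x, hx⟩ := Coh.surjective_of_separates hV B h f
  exact ⟨x, DFunLike.congr_fun hx⟩

/-- A non-degenerate pairing represents all functionals on the right. -/
lemma exists_eq_right [Finite V] (hV : ∀ v : V, p • v = 0) (B : V →+ V →+ ZMod p)
    (h : ∀ y : V, y ≠ 0 → ∃ x, B x y ≠ 0) (f : V →+ ZMod p) : ∃ y, ∀ x, B x y = f x := by
  obtain ⟨y, hy⟩ := exists_eq_left hV B.flip (fun x hx => by
    by_contra hn
    push Not at hn
    exact hx (eq_zero_of_left hV B h hn)) f
  exact ⟨y, hy⟩

end Fermat.Agent.Duality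

end
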