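import Fermat.Agent.Duality.Base.Unramified
import Fermat.Agent.Duality.Base.LinAlg

/-!
# The global classes for any finite set of primes are their own orthogonal complement
-/

set_option autoImplicit false

noncomputable section

namespace Fermat.Agent.Duality

variable {p : ℕ} [Fact p.Prime] {H : Subgroup GalQ}
  (hμ : ∀ (h : H) (z : Mu p Qbar), h • z = z) {z₀ : Mu p Qbar} (hz : z₀ ≠ 0)

/-- The cup product with values in roots of unity is skew symmetric when the action is trivial. -/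
theorem cup_muPair_swap {F Ω : Type} [Field F] [Field Ω] [Algebra F Ω] [Normal F Ω]
    {U : Subgroup (Ω ≃ₐ[F] Ω)} (hU : ∀ (g : U) (z : Mu p Ω), g • z = z) {z₁ : Mu p Ω}
    (hz₁ : z₁ ≠ 0) (hs : Coh.IsSmooth ((galLevels F Ω).restrict U) (Mu p Ω)) (x y : H1μ p U) :
    Coh.cup₁₁ (isPairing_muPair hz₁ hU) hs x y = -Coh.cup₁₁ (isPairing_muPair hz₁ hU) hs y x := by
  obtain ⟨a, rfl⟩ := Coh.H1.mk_surjective x
  obtain ⟨b, rfl⟩ := Coh.H1.mk_surjective y
  rw [Coh.cup₁₁_mk, Coh.cup₁₁_mk, ← map_neg]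
  refine Coh.H2.mk_eq_mk.mpr ⟨fun g => -muPair hz₁ ((a : U → Mu p Ω) g) ((b : U → Mu p Ω) g),
    (a.2.1.comp₂ b.2.1 fun u v => -muPair hz₁ u v), funext fun g => funext fun h => ?_⟩
  rw [Pi.add_apply, Pi.add_apply]
  show _ = -(Coh.Z1.cup (isPairing_muPair hz₁ hU) hs b a : U → U → Mu p Ω) g h + _
  rw [Coh.d₁_apply, Coh.Z1.cup_apply, Coh.Z1.cup_apply, hU, hU, hU,
    (Coh.mem_Z1.mp a.2).2 g h, (Coh.mem_Z1.mp b.2).2 g h, hU, hU,
    muPair_comm hz₁ ((b : U → Mu p Ω) g) ((a : U → Mu p Ω) h)]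
  simp only [map_add, AddMonoidHom.add_apply]
  abel

section Places

variable {S : Finset Nat.Primes} (hH : (galLevels ℚ Qbar).ok H) (I : InvFam p)

attribute [local instance] placePrime

lemma placePair_swap (i : PlaceIdx S H hH) (x y : H1μ p (placeGroup hH i)) :
    placePair hH hμ hz I i x y = -placePair hH hμ hz I i y x := by
  refine (congrArg (invPlace hH I i) (cup_muPair_swap (smul_muLoc hH hμ i)
    (placeZeta_ne_zero hH hz i) (isSmooth_restrict isSmooth_Mu (placeGroup hH i)) x y)).trans ?_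
  exact AddMonoidHom.map_neg (invPlace hH I i) _

lemma placePair_eq_zero_comm (i : PlaceIdx S H hH) (x y : H1μ p (placeGroup hH i))
    (h : placePair hH hμ hz I i x y = 0) : placePair hH hμ hz I i y x = 0 := by
  rw [placePair_swap, h, neg_zero]

lemma sumPair_apply (x y : LocV p hH (S := S)) :
    sumPair hH hμ hz I x y = ∑ i, placePair hH hμ hz I i (x i) (y i) := rfl

lemma sumPair_single [DecidableEq (PlaceIdx S H hH)] (x : LocV p hH (S := S))
    (i : PlaceIdx S H hH) (u : H1μ p (placeGroup hH i)) :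
    sumPair hH hμ hz I x (Pi.single i u) = placePair hH hμ hz I i (x i) u := by
  refine (sumPair_apply hμ hz hH I x _).trans ((Finset.sum_eq_single i (fun j _ hj => ?_)
    (fun h => absurd (Finset.mem_univ i) h)).trans ?_)
  · refine (congrArg (placePair hH hμ hz I j (x j)) ?_).trans (AddMonoidHom.map_zero _)
    exact Pi.single_eq_of_ne hj _
  · refine congrArg (placePair hH hμ hz I i (x i)) ?_
    exact Pi.single_eq_same i _

include hμ hz in
lemma finite_locV : Finite (LocV p hH (S := S)) := by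
  have : ∀ i : PlaceIdx S H hH, Finite (H1μ p (placeGroup hH i)) := fun i =>
    finite_H1μ_loc _ (ok_placeGroup hH i) (smul_muLoc hH hμ i) (placeZeta_ne_zero hH hz i)
  infer_instance

omit [Fact (Nat.Prime p)] in
lemma mem_globalImage_iff (x : LocV p hH (S := S)) :
    x ∈ globalImage p S hH ↔
      ∃ a : Coh.H1 ((galLevelsS S).restrict H) (Mu p Qbar), ∀ i, x i = locS₁ p hH i a := by
  constructor
  · rintro ⟨a, rfl⟩
    exact ⟨a, fun i => locμ₁_inflS₁ p hH i a⟩
  · rintro ⟨a, ha⟩
    exact ⟨a, funext fun i => (locμ₁_inflS₁ p hH i a).trans (ha i).symm⟩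

end Places

section Small

variable {S : Finset Nat.Primes} (hH : (galLevelsS S).ok H)

attribute [local instance] placePrime

/-- A place over a smaller set of primes as a place over a larger one. -/
def inclPlace {S' : Finset Nat.Primes} (hSS : S ⊆ S') (i : PlaceIdx S H (okAll hH)) :
    PlaceIdx S' H (okAll hH) := ⟨⟨i.1.1, hSS i.1.2⟩, i.2⟩

lemma inclPlace_injective {S' : Finset Nat.Primes} (hSS : S ⊆ S') :
    Function.Injective (inclPlace hH hSS) := by
  rintro ⟨⟨q, hq⟩, j⟩ ⟨⟨q', hq'⟩, j'⟩ h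
  obtain ⟨h1, h2⟩ := Sigma.mk.inj_iff.mp h
  obtain rfl : q = q' := congrArg Subtype.val h1
  rw [heq_eq_eq] at h2
  subst h2
  rfl

lemma inclPlace_surj {S' : Finset Nat.Primes} (hSS : S ⊆ S') (i : PlaceIdx S' H (okAll hH))
    (hi : i.1.1 ∈ S) : ∃ j, inclPlace hH hSS j = i :=
  ⟨⟨⟨i.1.1, hi⟩, i.2⟩, rfl⟩

lemma placePair_inclPlace {S' : Finset Nat.Primes} (hSS : S ⊆ S') (I : InvFam p)
    (j : PlaceIdx S H (okAll hH)) (x y : H1μ p (placeGroup (okAll hH) j)) :
    placePair (okAll hH) hμ hz I (inclPlace hH hSS j) x y = placePair (okAll hH) hμ hz I j x y :=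
  rfl

seal placePair in
include hz in
/-- **The global classes for `S`-levels contain their orthogonal complement.** -/
theorem mem_globalImage_of_orthogonal (hpS : (⟨p, Fact.out⟩ : Nat.Primes) ∈ S) {I : InvFam p}
    (hd : IsLocalDual I) (hL : HasLagrangians I) (y : LocV p (okAll hH) (S := S))
    (hy : ∀ x ∈ globalImage p S (okAll hH), sumPair (okAll hH) hμ hz I x y = 0) :
    y ∈ globalImage p S (okAll hH) := by
  classical
  obtain ⟨S₁, hS₁, hlag⟩ := hL H (okAll hH) hμ z₀ hz S
  have hlag1 := hlag S₁ subset_rfl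
  have := finite_locV (S := S₁) hμ hz (okAll hH)
  set e := inclPlace hH hS₁
  have hT : ∀ i : PlaceIdx S₁ H (okAll hH), i.1.1 ∉ S → placeP (okAll hH) i ≠ p := fun i hi h =>
    hi (by rw [show i.1.1 = (⟨p, Fact.out⟩ : Nat.Primes) from Subtype.ext h]; exact hpS)
  let yext : LocV p (okAll hH) (S := S₁) := fun i =>
    if h : i.1.1 ∈ S then y ⟨⟨i.1.1, h⟩, i.2⟩ else 0
  have hyin : ∀ j, yext (e j) = y j := fun j => dif_pos j.1.2
  have hyout : ∀ i : PlaceIdx S₁ H (okAll hH), i.1.1 ∉ S → yext i = 0 := fun i hi => dif_neg hi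
  let A : AddSubgroup (LocV p (okAll hH) (S := S₁)) :=
    { carrier := {x | ∀ i : PlaceIdx S₁ H (okAll hH), (i.1.1 ∈ S → x i = 0) ∧
        (i.1.1 ∉ S → x i ∈ unrClass (placeP (okAll hH) i) (placeGroup (okAll hH) i))}
      zero_mem' := fun i => ⟨fun _ => rfl, fun _ => zero_mem _⟩
      add_mem' := fun {x x'} hx hx' i => ⟨fun h => by
        rw [Pi.add_apply, (hx i).1 h, (hx' i).1 h, add_zero], fun h =>
          add_mem ((hx i).2 h) ((hx' i).2 h)⟩
      neg_mem' := fun {x} hx i => ⟨fun h => by rw [Pi.neg_apply, (hx i).1 h, neg_zero],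
        fun h => neg_mem ((hx i).2 h)⟩ }
  let θ : A →+ LocV p (okAll hH) (S := S₁) →+ ZMod p :=
    (sumPair (okAll hH) hμ hz I).flip.comp A.subtype
  obtain ⟨z, hzW⟩ := exists_eq_on_of_ker (p := p)
    (fun v => funext fun i => Coh.H1.torsion torsion_Mu (v i))
    (globalImage p S₁ (okAll hH)) θ ((sumPair (okAll hH) hμ hz I).flip yext) (fun w hw hker => by
      -- classes orthogonal to the unramified ones descend
      have hunr : ∀ i : PlaceIdx S₁ H (okAll hH), i.1.1 ∉ S →
          w i ∈ unrClass (placeP (okAll hH) i) (placeGroup (okAll hH) i) := fun i hi => by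
        refine (hd.unr _ (hT i hi) _ (ok_placeGroup (okAll hH) i) (smul_muLoc (okAll hH) hμ i)
          (placeZeta_ne_zero (okAll hH) hz i) (w i)).mpr fun u hu => ?_
        refine (placePair_apply (okAll hH) hμ hz I i u (w i)).symm.trans
          (placePair_eq_zero_comm hμ hz (okAll hH) I i _ _ ?_)
        rw [← sumPair_single hμ hz (okAll hH) I w i u]
        refine hker ⟨Pi.single i u, fun j => ?_⟩
        rcases eq_or_ne j i with rfl | hj
        · exact ⟨fun h => absurd h hi, fun _ => by rwa [Pi.single_eq_same]⟩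
        · refine ⟨fun _ => ?_, fun _ => by
            rw [Pi.single_eq_of_ne hj]; exact zero_mem _⟩
          exact Pi.single_eq_of_ne hj _
      obtain ⟨a, ha⟩ := (mem_globalImage_iff (okAll hH) w).mp hw
      obtain ⟨b, hb⟩ := exists_inflS₁_eq hH hS₁ hμ a fun i hi => ha i ▸ hunr i hi
      have hab : ∀ j, w (e j) = locS₁ p (okAll hH) j b := fun j =>
        ((ha (e j)).trans (locμ₁_inflS₁ p (okAll hH) (e j) a).symm).trans
          ((congrArg _ hb.symm).trans (locμ₁_inflS₁ p (okAll hH) j b))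
      show sumPair (okAll hH) hμ hz I w yext = 0
      refine (sumPair_apply hμ hz (okAll hH) I w yext).trans (Eq.trans ?_
        ((sumPair_apply hμ hz (okAll hH) I _ y).symm.trans (hy (fun j => locS₁ p (okAll hH) j b)
          ((mem_globalImage_iff (okAll hH) _).mpr ⟨b, fun _ => rfl⟩))))
      refine (Fintype.sum_of_injective e (inclPlace_injective hH hS₁) _ _ (fun i hi => ?_)
        fun j => ?_).symm
      · exact (congrArg _ (hyout i fun h => hi (inclPlace_surj hH hS₁ i h))).trans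
          (AddMonoidHom.map_zero _)
      · exact (placePair_inclPlace hμ hz hH hS₁ I j _ _).symm.trans
          (congrArg₂ (fun a b => placePair (okAll hH) hμ hz I (e j) a b) (hab j) (hyin j)).symm)
  have hdiff : yext - z.1 ∈ globalImage p S₁ (okAll hH) := by
    refine (hlag1 _).mpr fun x hx => ?_
    rw [map_sub, sub_eq_zero]
    exact (hzW x hx).symm
  obtain ⟨a, ha⟩ := (mem_globalImage_iff (okAll hH) _).mp hdiff
  obtain ⟨b, hb⟩ := exists_inflS₁_eq hH hS₁ hμ a fun i hi => by
    refine (ha i) ▸ ?_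
    show yext i - z.1 i ∈ _
    rw [hyout i hi, zero_sub]
    exact neg_mem ((z.2 i).2 hi)
  refine (mem_globalImage_iff (okAll hH) y).mpr ⟨b, fun j => ?_⟩
  have h1 : y j = locS₁ p (okAll hH) (e j) a :=
    ((congrArg₂ (fun u v => u - v) (hyin j) ((z.2 (e j)).1 j.1.2)).trans (sub_zero _)).symm.trans
      (ha (e j))
  exact (h1.trans (locμ₁_inflS₁ p (okAll hH) (e j) a).symm).trans
    ((congrArg _ hb.symm).trans (locμ₁_inflS₁ p (okAll hH) j b))

end Small

end Fermat.Agent.Duality

end
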