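import Fermat.Agent.Duality.Base.OrdLevels
import Fermat.Agent.Duality.Base.SmallS
import Fermat.Agent.Duality.Places.LocalPairing
import Fermat.Agent.Duality.Places.BaseClass

/-!
# Cup products that are locally trivial outside `S` descend to `S`-levels

The cup cocycle of the Kummer cocycle of `α` with a character `χ` is changed by a coboundary into
`dψ - carry • α`, where the values of `ψ` are `p`-th roots of `c(g) • α - (g • E - E)` and `E` has
orders chosen so that all these elements have orders divisible by `p` outside `S`.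
-/

set_option autoImplicit false

noncomputable section

namespace Fermat.Agent.Duality

open OrdLevels

variable {p : ℕ} [Fact p.Prime]

section Aux

/-- Finitely many elements of `S`-levels are fixed by a common `S`-level. -/
theorem OrdLevels.exists_fixing_sElts {S : Finset Nat.Primes} {ι : Type} [Finite ι]
    {y : ι → Lx Qbar} (hy : ∀ i, IsSElt S (y i)) :
    ∃ U : Subgroup GalQ, (galLevelsS S).ok U ∧ ∀ i, ∀ s ∈ U, s • y i = y i := by
  classical
  cases nonempty_fintype ι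
  choose U hU hyU using hy
  refine ⟨Finset.univ.inf U, ?_, fun i s hs =>
    hyU i s ((Finset.inf_le (Finset.mem_univ i) : Finset.univ.inf U ≤ U i) hs)⟩
  exact Finset.inf_induction (galLevelsS S).top_ok (fun _ h _ h' => (galLevelsS S).inf_ok h h')
    fun i _ => hU i

/-- A class pairing trivially with a non-zero unit class has divisible order. -/
theorem exists_norm_eq_pow_of_cupMu_eq_zero {q : ℕ} [Fact q.Prime]
    {L : IntermediateField ℚ_[q] (PadicAlgCl q)} [FiniteDimensional ℚ_[q] L]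
    {D : Subgroup (GalLoc q)} (hD : D = L.fixingSubgroup) {z₁ : Mu p (PadicAlgCl q)} (hz₁ : z₁ ≠ 0)
    (hμ : ∀ (d : D) (z : Mu p (PadicAlgCl q)), d • z = z) (hqp : q ≠ p)
    {u b : Coh.inv D (Lx (PadicAlgCl q))}
    (hu : ‖(((u : Lx (PadicAlgCl q)).toMul : (PadicAlgCl q)ˣ) : PadicAlgCl q)‖ = 1)
    (hne : kummer D (Fact.out : p.Prime).pos u ≠ 0)
    (h : Places.cupMu hz₁ hμ (kummer D (Fact.out : p.Prime).pos u)
      (kummer D (Fact.out : p.Prime).pos b) = 0) :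
    ∃ y ∈ L, ‖(((b : Lx (PadicAlgCl q)).toMul : (PadicAlgCl q)ˣ) : PadicAlgCl q)‖ = ‖y‖ ^ p := by
  subst hD
  obtain ⟨u', rfl⟩ := (Local.unitsEquivInv L).surjective u
  obtain ⟨b', rfl⟩ := (Local.unitsEquivInv L).surjective b
  obtain ⟨y, hy⟩ :=
    (Local.symb_unit_eq_zero_iff hz₁ hμ hqp (u := u'.toMul) hu hne b'.toMul).1 h
  exact ⟨y, y.2, hy⟩

/-- The values of a homomorphism on a local group where its class vanishes. -/
theorem apply_twistHom_eq_zero_of_locμ₁ (q : ℕ) [Fact q.Prime] {S : Finset Nat.Primes}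
    {H : Subgroup GalQ} (g : GalQ)
    (hμ : ∀ (d : locGroup q H g) (z : Mu p (PadicAlgCl q)), d • z = z)
    (χ : Coh.Z1 ((galLevelsS S).restrict H) (Mu p Qbar))
    (h : locμ₁ p q H g (inflS₁ S H (Coh.H1.mk χ)) = 0) (d : locGroup q H g) :
    (χ : H → Mu p Qbar) (Coh.twistHom _ g H d) = 0 := by
  have : NeZero p := ⟨(Fact.out : p.Prime).ne_zero⟩
  obtain ⟨c, hc⟩ := Coh.H1.mk_eq_zero.1 h
  have h1 : muEmb q (g • (χ : H → Mu p Qbar) (Coh.twistHom _ g H d)) = d • c - c := hc d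
  rw [hμ d c, sub_self] at h1
  exact (smul_eq_zero_iff_eq g).1 ((muEmb_bijective q).1 (h1.trans (map_zero _).symm))

/-- All levels refine the `S`-levels of a subgroup. -/
theorem compat_restrict_galLevelsS_full (T : Finset Nat.Primes) (H : Subgroup GalQ) :
    ((galLevels ℚ Qbar).restrict H).Compat ((galLevelsS T).restrict H) (MonoidHom.id H) :=
  fun _ ⟨W, hW, hWU⟩ => ⟨W, galLevels_ok_of_galLevelsS hW, hWU⟩

omit [Fact p.Prime] in
/-- Forgetting the levels does not change the cocycle. -/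
theorem inflS₁_mk (T : Finset Nat.Primes) (H : Subgroup GalQ)
    (z : Coh.Z1 ((galLevelsS T).restrict H) (Mu p Qbar)) :
    inflS₁ T H (Coh.H1.mk z) = Coh.H1.mk (Coh.Z1.map (compat_restrict_galLevelsS_full T H)
      (φ := AddMonoidHom.id _) (fun _ _ => rfl) z) := rfl

/-- A cocycle in a Kummer class is the Kummer cocycle when the action is trivial. -/
theorem muVal_eq_of_kummer_eq {T : Finset Nat.Primes} {H : Subgroup GalQ}
    (hμ : ∀ (h : H) (z : Mu p Qbar), h • z = z)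
    (z : Coh.Z1 ((galLevelsS T).restrict H) (Mu p Qbar)) (γ : Coh.inv H (Lx Qbar))
    (h : kummer H (Fact.out : p.Prime).pos γ = inflS₁ T H (Coh.H1.mk z)) (g : H) :
    muVal ((z : H → Mu p Qbar) g) = g • rootP p (γ : Lx Qbar) - rootP p (γ : Lx Qbar) := by
  rw [inflS₁_mk] at h
  obtain ⟨c, hc⟩ := Coh.H1.mk_eq_mk.1 (show
    Coh.H1.mk (kummerFun H (Fact.out : p.Prime).pos γ) = _ from h)
  have h1 : (kummerFun H (Fact.out : p.Prime).pos γ : H → Mu p Qbar) g =
      (z : H → Mu p Qbar) g + (g • c - c) := hc g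
  rw [hμ g c, sub_self, add_zero] at h1
  rw [← muVal_kummerFun H (Fact.out : p.Prime).pos γ g, h1]

/-- The chosen root of a class for `T`-levels lies in `T`-levels. -/
theorem isSElt_rootP_of_kummer_eq {T : Finset Nat.Primes} {H : Subgroup GalQ}
    (hT : (galLevelsS T).ok H) (hμ : ∀ (h : H) (z : Mu p Qbar), h • z = z)
    (z : Coh.Z1 ((galLevelsS T).restrict H) (Mu p Qbar)) (γ : Coh.inv H (Lx Qbar))
    (h : kummer H (Fact.out : p.Prime).pos γ = inflS₁ T H (Coh.H1.mk z)) :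
    IsSElt T (rootP p (γ : Lx Qbar)) := by
  obtain ⟨U, ⟨V, hV, hVU⟩, hzU⟩ := z.2.1
  refine ⟨V ⊓ H, (galLevelsS T).inf_ok hV hT, fun g hg => ?_⟩
  have h1 := muVal_eq_of_kummer_eq hμ z γ h ⟨g, hg.2⟩
  have h2 := hzU 1 ⟨g, hg.2⟩ (hVU hg.1)
  rw [one_mul] at h2
  have h3 : (z : H → Mu p Qbar) 1 = 0 := by
    have h4 := (Coh.mem_Z1.1 z.2).2 1 1
    rw [one_mul, hμ] at h4
    exact left_eq_add.mp h4
  rw [h2, h3, map_zero] at h1
  exact sub_eq_zero.1 h1.symm

end Aux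

section Loc

variable (q : ℕ) [Fact q.Prime] {S : Finset Nat.Primes} {H : Subgroup GalQ} (g : GalQ)
  (hH : (galLevelsS S).ok H) (hμ : ∀ (h : H) (z : Mu p Qbar), h • z = z) {z₀ : Mu p Qbar}
  (hz : z₀ ≠ 0)

include hH in
/-- At a place outside `S` where `α` has order prime to `p` and pairs trivially with `χ`, the
character `χ` vanishes. -/
theorem char_eq_zero_of_not_dvd (hpS : (⟨p, Fact.out⟩ : Nat.Primes) ∈ S)
    (hq : (⟨q, Fact.out⟩ : Nat.Primes) ∉ S)
    (χ : Coh.Z1 ((galLevelsS S).restrict H) (Mu p Qbar)) (β : Coh.inv H (Lx Qbar))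
    (hβ : kummer H (Fact.out : p.Prime).pos β = inflS₁ S H (Coh.H1.mk χ))
    (hs : IsSElt S (rootP p (β : Lx Qbar))) (α : Coh.inv H (Lx Qbar))
    (h0 : Places.cupMu (Places.placeZeta_ne_zero q g hz) (Places.locGroup_smul q g hμ)
      (locμ₁ p q H g (inflS₁ S H (Coh.H1.mk χ)))
      (locμ₁ p q H g (kummer H (Fact.out : p.Prime).pos α)) = 0)
    (hord : ¬ (p : ℤ) ∣ ordAt q g (α : Lx Qbar)) (d : locGroup q H g) :
    (χ : H → Mu p Qbar) (Coh.twistHom _ g H d) = 0 := by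
  have hp : p.Prime := Fact.out
  have hqp : q ≠ p := fun h => hq (by
    rw [show (⟨q, Fact.out⟩ : Nat.Primes) = ⟨p, Fact.out⟩ from Subtype.ext h]; exact hpS)
  by_cases hzero : kummer (locGroup q H g) hp.pos (Places.locInv q g β) = 0
  · rw [← Places.locμ₁_kummer q g β, hβ] at hzero
    exact apply_twistHom_eq_zero_of_locμ₁ q g (Places.locGroup_smul q g hμ) χ hzero d
  refine absurd ?_ hord
  have hβord : ordAt q g (β : Lx Qbar) = p * ordAt q g (rootP p (β : Lx Qbar)) := by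
    conv_lhs => rw [← nsmul_rootP hp.pos (β : Lx Qbar)]
    exact hs.ordAt_nsmul q hq g p
  have hβS : IsSElt S (β : Lx Qbar) := ⟨H, hH, fun h hh => β.2 ⟨h, hh⟩⟩
  set k := ordAt q g (rootP p (β : Lx Qbar))
  set ν := Places.natInv (locGroup q H g) q (Fact.out : q.Prime).ne_zero
  set u : Coh.inv (locGroup q H g) (Lx (PadicAlgCl q)) := Places.locInv q g β - p • (k • ν)
    with hu_def
  have hku : kummer (locGroup q H g) hp.pos u = kummer _ hp.pos (Places.locInv q g β) := by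
    rw [hu_def, map_sub, (kummer_eq_zero_iff hp.pos _ (p • (k • ν))).2 ⟨_, rfl⟩, sub_zero]
  have hu : ‖(((u : Lx (PadicAlgCl q)).toMul : (PadicAlgCl q)ˣ) : PadicAlgCl q)‖ = 1 := by
    rw [hu_def, AddSubgroup.coe_sub, toMul_sub, Units.val_div_eq_div_val, norm_div,
      AddSubgroup.coe_nsmul, toMul_nsmul, Units.val_pow_eq_pow_val, norm_pow,
      AddSubgroup.coe_zsmul, toMul_zsmul, Units.val_zpow_eq_zpow_val, norm_zpow,
      Places.coe_natInv, Places.norm_natCast_self]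
    show nrmAt q g (β : Lx Qbar) / _ = 1
    rw [hβS.nrmAt_eq q hq, hβord, inv_zpow', ← zpow_natCast, ← zpow_mul,
      show -(↑p * k) = -k * ↑p by ring, div_self]
    exact zpow_ne_zero _ (Nat.cast_ne_zero.2 (Fact.out : q.Prime).ne_zero)
  obtain ⟨E, hE, hEH⟩ := exists_eq_fixingSubgroup (galLevels_ok_of_galLevelsS hH)
  have := hE
  have hEu : E.IsUnramifiedOutside S :=
    ⟨hE, fun r hr A hA => hEH ▸ inertia_le_of_ok hH hr hA⟩
  have hD : locGroup q H g = (locField q (Places.twistEmb q E g)).fixingSubgroup :=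
    (congrArg (fun K => Coh.twisted (localGaloisToGlobal q) g K) hEH.symm).trans
      (Places.twisted_eq_fixingSubgroup q E g)
  rw [← hβ, Places.locμ₁_kummer, Places.locμ₁_kummer, ← hku] at h0
  obtain ⟨y, hy, hyn⟩ := exists_norm_eq_pow_of_cupMu_eq_zero hD
    (Places.placeZeta_ne_zero q g hz) (Places.locGroup_smul q g hμ) hqp
    (u := u) (b := Places.locInv q g α) hu (by rw [hku]; exact hzero) h0
  rw [Places.locField_twistEmb] at hy
  change nrmAt q g (α : Lx Qbar) = ‖y‖ ^ p at hyn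
  have hy0 : y ≠ 0 := fun h0 => by
    rw [h0, norm_zero, zero_pow hp.ne_zero] at hyn
    exact (nrmAt_pos q g (α : Lx Qbar)).ne' hyn
  obtain ⟨m, hm⟩ := Places.exists_norm_eq_zpow_of_isUnramifiedOutside q hEu hq g hy hy0
  refine ⟨-m, ordAt_eq ?_⟩
  rw [hyn, hm, ← zpow_natCast, ← zpow_mul]
  ring_nf

end Loc

section Descend

attribute [local instance] placePrime

variable {S S' : Finset Nat.Primes} (hSS' : S ⊆ S') {H : Subgroup GalQ}
  (hH : (galLevelsS S).ok H) (hμ : ∀ (h : H) (z : Mu p Qbar), h • z = z) {z₀ : Mu p Qbar}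
  (hz : z₀ ≠ 0)

/-- An element with the orders required at the places of `S' ∖ S`. -/
theorem exists_ord_char (hpS : (⟨p, Fact.out⟩ : Nat.Primes) ∈ S)
    {N : Subgroup GalQ} (hN : (galLevelsS S).ok N) (hNH : N ≤ H) (C : H → ZMod p)
    (hC : ∀ g h : H, C (g * h) = C g + C h) (hCN : ∀ n (hn : n ∈ N), C ⟨n, hNH hn⟩ = 0)
    {α : Lx Qbar} (hα : ∀ h ∈ H, h • α = α)
    (hkill : ∀ i : PlaceIdx S' H (okAll hH), i.1.1 ∉ S →
      ¬ (p : ℤ) ∣ ordAt (placeP (okAll hH) i) (placeG (okAll hH) i) α →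
      ∀ d : placeGroup (okAll hH) i, C (Coh.twistHom _ (placeG (okAll hH) i) H d) = 0)
    (hα' : ∀ (q : ℕ) [Fact q.Prime], (⟨q, Fact.out⟩ : Nat.Primes) ∉ S' → ∀ σ : GalQ,
      (p : ℤ) ∣ ordAt q σ α) :
    ∃ E : Lx Qbar, IsSElt S E ∧ ∀ (g : H) (q : ℕ) [Fact q.Prime],
      (⟨q, Fact.out⟩ : Nat.Primes) ∉ S → ∀ σ : GalQ,
        (ordAt q (σ * (g : GalQ)) E : ZMod p) - ordAt q σ E = C g * (ordAt q σ α : ZMod p) := by
  classical
  have hαS : IsSElt S α := ⟨H, hH, hα⟩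
  have hC1 : C 1 = 0 := by simpa using hC 1 1
  have hCinv : ∀ g : H, C g⁻¹ = -C g := fun g => by
    have h := hC g⁻¹ g
    rw [inv_mul_cancel, hC1] at h
    exact eq_neg_of_add_eq_zero_left h.symm
  have hordH : ∀ (q : ℕ) [Fact q.Prime] (σ : GalQ) (h : GalQ), h ∈ H →
      ordAt q (σ * h) α = ordAt q σ α := fun q _ σ h hh => by rw [← ordAt_smul, hα h hh]
  -- the prescribed orders
  have hF : ∀ (q : ↥S') (σ : GalQ), ∃ f : ZMod p, (q.1 : Nat.Primes) ∉ S →
      ∀ (j : Fin (placeCount S' H (okAll hH) q)) (d : GalLoc ((q.1 : Nat.Primes) : ℕ)) (h : GalQ)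
        (hh : h ∈ H),
        σ = localGaloisToGlobal ((q.1 : Nat.Primes) : ℕ) d * placeRep S' H (okAll hH) q j * h →
        f = (ordAt ((q.1 : Nat.Primes) : ℕ) (placeRep S' H (okAll hH) q j) α : ZMod p) *
          C ⟨h, hh⟩ := fun q σ => by
    obtain ⟨j₀, d₀, h₀, hh₀, he₀⟩ := exists_place_eq (okAll hH) q σ
    refine ⟨(ordAt ((q.1 : Nat.Primes) : ℕ) (placeRep S' H (okAll hH) q j₀) α : ZMod p) *
      C ⟨h₀, hh₀⟩, fun hq j d h hh he => ?_⟩
    obtain rfl := place_unique (okAll hH) q hh₀ hh (he₀.symm.trans he)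
    set x := placeRep S' H (okAll hH) q j₀
    by_cases hdvd : (p : ℤ) ∣ ordAt ((q.1 : Nat.Primes) : ℕ) x α
    · rw [(ZMod.intCast_zmod_eq_zero_iff_dvd _ p).2 hdvd, zero_mul, zero_mul]
    · congr 1
      set φ := localGaloisToGlobal ((q.1 : Nat.Primes) : ℕ)
      have h1 : x⁻¹ * φ (d⁻¹ * d₀) * x = h * h₀⁻¹ := by
        calc x⁻¹ * φ (d⁻¹ * d₀) * x = x⁻¹ * (φ d)⁻¹ * (φ d₀ * x * h₀) * h₀⁻¹ := by
              rw [map_mul, map_inv]; group
          _ = x⁻¹ * (φ d)⁻¹ * (φ d * x * h) * h₀⁻¹ := by rw [← he₀, he]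
          _ = h * h₀⁻¹ := by group
      have hd : d⁻¹ * d₀ ∈ placeGroup (okAll hH) (⟨q, j₀⟩ : PlaceIdx S' H (okAll hH)) :=
        Coh.mem_twisted.2 (h1 ▸ mul_mem hh (inv_mem hh₀))
      have h2 := hkill ⟨q, j₀⟩ hq hdvd ⟨_, hd⟩
      rw [show Coh.twistHom _ x H ⟨_, hd⟩ = (⟨h, hh⟩ : H) * (⟨h₀, hh₀⟩ : H)⁻¹ from
        Subtype.ext h1, hC, hCinv, ← sub_eq_add_neg, sub_eq_zero] at h2
      exact h2.symm
  choose F hF using hF
  have hFmul : ∀ (q : ↥S'), (q.1 : Nat.Primes) ∉ S → ∀ (σ : GalQ)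
      (d : GalLoc ((q.1 : Nat.Primes) : ℕ)) (g : H),
      F q (localGaloisToGlobal ((q.1 : Nat.Primes) : ℕ) d * σ * g) =
        F q σ + C g * (ordAt ((q.1 : Nat.Primes) : ℕ) σ α : ZMod p) := fun q hq σ d g => by
    obtain ⟨j, e, h, hh, rfl⟩ := exists_place_eq (okAll hH) q σ
    rw [hF q _ hq j e h hh rfl, hF q _ hq j (d * e) (h * g) (mul_mem hh g.2)
      (by rw [map_mul]; group), show (⟨h * g, mul_mem hh g.2⟩ : H) = ⟨h, hh⟩ * g from rfl, hC,
      hordH _ _ _ hh, ordAt_decomp]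
    ring
  -- the field of `N` and the generators at its places
  obtain ⟨E₁, hE₁, hE₁N⟩ := exists_eq_fixingSubgroup (okAll hN)
  have := hE₁
  have : NumberField E₁ := ⟨⟩
  have hE₁u : E₁.IsUnramifiedOutside S := ⟨hE₁, fun r hr A hA => hE₁N ▸ inertia_le_of_ok hN hr hA⟩
  let T : Finset (PlaceIdx S' N (okAll hN)) := Finset.univ.filter fun j => j.1.1 ∉ S
  have hβ : ∀ j : PlaceIdx S' N (okAll hN), ∃ β : Lx Qbar, IsSElt S β ∧ (j.1.1 ∉ S →
      (∀ σ : GalQ, (∃ d : GalLoc (placeP (okAll hN) j), (placeG (okAll hN) j)⁻¹ *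
          localGaloisToGlobal (placeP (okAll hN) j) d * σ ∈ N) →
        (ordAt (placeP (okAll hN) j) σ β : ZMod p) = 1) ∧
      ∀ (q : ℕ) [Fact q.Prime], (⟨q, Fact.out⟩ : Nat.Primes) ∉ S → ∀ σ : GalQ,
        (q = placeP (okAll hN) j → ¬ ∃ d : GalLoc q, (placeG (okAll hN) j)⁻¹ *
          localGaloisToGlobal q d * σ ∈ N) → (ordAt q σ β : ZMod p) = 0) := fun j => by
    by_cases hj : j.1.1 ∈ S
    · exact ⟨0, isSElt_zero, fun h => absurd hj h⟩
    · obtain ⟨β, hβ, h1, h2⟩ := exists_ord_one E₁ hE₁u hpS (placeP (okAll hN) j) hj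
        (placeG (okAll hN) j)
      rw [hE₁N] at h1 h2
      exact ⟨β, hβ, fun _ => ⟨h1, h2⟩⟩
  choose β hβS hβ using hβ
  let E : Lx Qbar := ∑ j ∈ T, (F j.1 (placeG (okAll hN) j)).val • β j
  have hES : IsSElt S E := IsSElt.sum T fun j _ => (hβS j).nsmul _
  have hordE : ∀ (q : ℕ) [Fact q.Prime], (⟨q, Fact.out⟩ : Nat.Primes) ∉ S → ∀ σ : GalQ,
      (ordAt q σ E : ZMod p) =
        ∑ j ∈ T, F j.1 (placeG (okAll hN) j) * (ordAt q σ (β j) : ZMod p) := fun q _ hq σ => by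
    have : NeZero p := ⟨(Fact.out : p.Prime).ne_zero⟩
    rw [ordAt_sum q T (fun j _ => (hβS j).nsmul _) hq, Int.cast_sum]
    refine Finset.sum_congr rfl fun j _ => ?_
    rw [(hβS j).ordAt_nsmul q hq, Int.cast_mul, Int.cast_natCast, ZMod.natCast_zmod_val]
  refine ⟨E, hES, fun g q _ hq σ => ?_⟩
  by_cases hq' : (⟨q, Fact.out⟩ : Nat.Primes) ∈ S'
  · have key : ∀ σ, (ordAt q σ E : ZMod p) = F ⟨⟨q, Fact.out⟩, hq'⟩ σ := fun σ => by
      obtain ⟨j₀, d, n, hn, hjq, -, he⟩ :=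
        exists_placeOfElt_eq (okAll hN) (⟨⟨q, Fact.out⟩, hq'⟩ : ↥S') σ
      obtain ⟨_, j₀⟩ := j₀
      cases hjq
      have hmem : (placeG (okAll hN) ⟨_, j₀⟩)⁻¹ * localGaloisToGlobal q d⁻¹ * σ ∈ N := by
        convert hn using 1
        rw [he, map_inv]; group
      rw [hordE q hq σ, Finset.sum_eq_single_of_mem (⟨_, j₀⟩ : PlaceIdx S' N (okAll hN))
        (Finset.mem_filter.2 ⟨Finset.mem_univ _, hq⟩) fun j hj hne => ?_]
      · rw [(hβ _ hq).1 σ ⟨d⁻¹, hmem⟩, mul_one, he, hFmul _ hq _ d ⟨n, hNH hn⟩, hCN n hn,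
          zero_mul, add_zero]
      · rw [((hβ j (Finset.mem_filter.1 hj).2).2 q hq σ fun hqj => ?_), mul_zero]
        rintro ⟨e, hmem'⟩
        obtain ⟨⟨⟨r, hr⟩, hr'⟩, k⟩ := j
        obtain rfl : q = r := hqj
        refine hne (congrArg (Sigma.mk _) ?_)
        refine place_unique (okAll hN) ⟨⟨q, hr⟩, hr'⟩ (d := e⁻¹) (e := d) hmem' hn ?_
        rw [map_inv, ← he]; group
    rw [key, key]
    have h := hFmul ⟨⟨q, Fact.out⟩, hq'⟩ hq σ 1 g
    rw [map_one, one_mul] at h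
    rw [h, add_sub_cancel_left]
  · have key : ∀ σ, (ordAt q σ E : ZMod p) = 0 := fun σ => by
      rw [hordE q hq σ]
      refine Finset.sum_eq_zero fun j hj => ?_
      rw [((hβ j (Finset.mem_filter.1 hj).2).2 q hq σ fun hqj => ?_), mul_zero]
      refine absurd ?_ hq'
      rw [show (⟨q, Fact.out⟩ : Nat.Primes) = j.1.1 from Subtype.ext hqj]
      exact j.1.2
    rw [key, key, (ZMod.intCast_zmod_eq_zero_iff_dvd _ p).2 (hα' q hq' σ), mul_zero, sub_zero]

/-- Forgetting that a class of degree two is unramified outside `S`. -/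
def inflH2 (S : Finset Nat.Primes) (H : Subgroup GalQ) :
    Coh.H2 ((galLevelsS S).restrict H) (Mu p Qbar) →+ H2μ p H :=
  Coh.H2.map (compat_restrict_galLevelsS_full S H) (φ := AddMonoidHom.id _) (fun _ _ => rfl)

/-- The cup product of the two cocycles comes from the `S`-levels. -/
theorem exists_inflH2_eq_cup (hpS : (⟨p, Fact.out⟩ : Nat.Primes) ∈ S)
    (ã : Coh.Z1 ((galLevelsS S').restrict H) (Mu p Qbar))
    (χ' : Coh.Z1 ((galLevelsS S).restrict H) (Mu p Qbar)) (α : Coh.inv H (Lx Qbar)) {r : Lx Qbar}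
    (hr : p • r = (α : Lx Qbar)) (hrS : IsSElt S' r)
    (ha : ∀ g : H, muVal ((ã : H → Mu p Qbar) g) = g • r - r)
    (hkill : ∀ i : PlaceIdx S' H (okAll hH), i.1.1 ∉ S →
      ¬ (p : ℤ) ∣ ordAt (placeP (okAll hH) i) (placeG (okAll hH) i) (α : Lx Qbar) →
      ∀ d : placeGroup (okAll hH) i,
        (χ' : H → Mu p Qbar) (Coh.twistHom _ (placeG (okAll hH) i) H d) = 0) :
    ∃ x : Coh.H2 ((galLevelsS S).restrict H) (Mu p Qbar), inflH2 S H x =
      Coh.cup₁₁ (isPairing_muPair hz hμ) (isSmooth_restrict isSmooth_Mu H)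
        (inflS₁ S' H (Coh.H1.mk ã)) (inflS₁ S H (Coh.H1.mk χ')) := by
  classical
  have hp : p.Prime := Fact.out
  have : NeZero p := ⟨hp.ne_zero⟩
  have hαfix : ∀ h ∈ H, h • (α : Lx Qbar) = α := fun h hh => α.2 ⟨h, hh⟩
  have hαS : IsSElt S (α : Lx Qbar) := ⟨H, hH, hαfix⟩
  -- the character
  have hχmul : ∀ g h : H, (χ' : H → Mu p Qbar) (g * h) =
      (χ' : H → Mu p Qbar) g + (χ' : H → Mu p Qbar) h := fun g h => by
    rw [(Coh.mem_Z1.1 χ'.2).2 g h, hμ, add_comm]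
  set C : H → ZMod p := fun g => muCoord hz ((χ' : H → Mu p Qbar) g) with hC_def
  set c : H → ℕ := fun g => (C g).val with hc_def
  have hC : ∀ g h : H, C (g * h) = C g + C h := fun g h => by
    show muCoord hz _ = muCoord hz _ + muCoord hz _
    rw [hχmul, map_add]
  obtain ⟨U, ⟨V, hV, hVU⟩, hχU⟩ := χ'.2.1
  have hCU : ∀ (g : H), ∀ s ∈ U, C (g * s) = C g := fun g s hs => by
    show muCoord hz _ = muCoord hz _
    rw [hχU g s hs]
  obtain ⟨E, hES, hEord⟩ := exists_ord_char (S' := S') hH (N := V ⊓ H) hpS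
    ((galLevelsS S).inf_ok hV hH) inf_le_right C hC (fun n hn => by
      have h1 := hCU 1 ⟨n, hn.2⟩ (hVU hn.1)
      rw [one_mul] at h1
      rw [show (⟨n, inf_le_right (a := V) hn⟩ : H) = ⟨n, hn.2⟩ from rfl, h1]
      simpa using hC 1 1)
    (α := (α : Lx Qbar)) hαfix
    (fun i hi hord d => by
      show muCoord hz _ = 0
      rw [hkill i hi hord d, map_zero])
    (fun q _ hq σ => by
      rw [← hr, hrS.ordAt_nsmul q hq]
      exact dvd_mul_right _ _)
  -- the roots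
  set ε := rootP p E with hε_def
  have hε : p • ε = E := nsmul_rootP hp.pos _
  set ψ : H → Lx Qbar := fun g => rootP p (c g • (α : Lx Qbar) - ((g : GalQ) • E - E)) with hψ_def
  have hψ : ∀ g, p • ψ g = c g • (α : Lx Qbar) - ((g : GalQ) • E - E) := fun g =>
    nsmul_rootP hp.pos _
  have hψS : ∀ g, IsSElt S (ψ g) := fun g =>
    isSElt_root hpS ((hαS.nsmul _).sub ((hES.smul _).sub hES)) (hψ g) fun q _ hq σ => by
      refine (ZMod.intCast_zmod_eq_zero_iff_dvd _ p).1 ?_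
      rw [(hαS.nsmul _).ordAt_sub q ((hES.smul _).sub hES) hq, (hES.smul _).ordAt_sub q hES hq,
        ordAt_smul, hαS.ordAt_nsmul q hq, Int.cast_sub, Int.cast_sub, hEord g q hq σ,
        Int.cast_mul, Int.cast_natCast, ZMod.natCast_zmod_val, sub_self]
  let w : H → Mu p Qbar := fun g => muMk (c g • r - ((g : GalQ) • ε - ε) - ψ g) (by
    rw [nsmul_sub, nsmul_sub, nsmul_sub, smul_comm p (c g), hr, nsmul_smul_lx, hε, hψ, sub_self])
  -- the cocycles
  set X : Coh.Z2 ((galLevels ℚ Qbar).restrict H) (Mu p Qbar) :=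
    Coh.Z1.cup (isPairing_muPair hz hμ) (isSmooth_restrict isSmooth_Mu H)
      (Coh.Z1.map (compat_restrict_galLevelsS_full S' H)
        (φ := AddMonoidHom.id _) (fun _ _ => rfl) ã)
      (Coh.Z1.map (compat_restrict_galLevelsS_full S H)
        (φ := AddMonoidHom.id _) (fun _ _ => rfl) χ') with hX_def
  set X' : H → H → Mu p Qbar := (X : H → H → Mu p Qbar) - Coh.d₁ H (Mu p Qbar) w with hX'_def
  have hXv : ∀ g h : H, muVal ((X : H → H → Mu p Qbar) g h) = c h • (g • r - r) := fun g h => by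
    rw [← ha g, ← map_nsmul]
    refine congrArg muVal ?_
    show muPair hz ((ã : H → Mu p Qbar) g) (g • (χ' : H → Mu p Qbar) h) = _
    rw [hμ, muPair_comm, muPair_apply, zpSmul_apply]
    rfl
  have hwv : ∀ g : H, muVal (w g) = c g • r - ((g : GalQ) • ε - ε) - ψ g := fun g => rfl
  have hX'v : ∀ g h : H, muVal (X' g h) =
      (g : GalQ) • ψ h - ψ (g * h) + ψ g - ((c g + c h) / p) • (α : Lx Qbar) := fun g h => by
    have hcarry : c g + c h = c (g * h) + p * ((c g + c h) / p) := by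
      show _ = (C (g * h)).val + _
      rw [hC, ZMod.val_add, Nat.mod_add_div]
    set e := (c g + c h) / p
    rw [hX'_def, Pi.sub_apply, Pi.sub_apply, map_sub, hXv, Coh.d₁_apply, map_add, map_sub]
    show _ - ((g : GalQ) • muVal (w h) - _ + _) = _
    rw [hwv, hwv, hwv, Subgroup.smul_def, Subgroup.coe_mul, mul_smul, ← hr]
    simp only [smul_sub, nsmul_sub, smul_comm (g : GalQ) (c h)]
    have h3 : c g • r + c h • r = c (g * h) • r + e • p • r := by
      rw [← add_nsmul, hcarry, add_nsmul, mul_comm p, mul_nsmul']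
    rw [← sub_eq_zero]
    calc _ = (c (g * h) • r + e • p • r) - (c g • r + c h • r) := by abel
      _ = 0 := by rw [h3, sub_self]
  -- constancy for `S`-levels
  obtain ⟨W, hW, hWE⟩ := hES
  have hψU : ∀ (g : H), ∀ s ∈ U ⊓ W.subgroupOf H, ψ (g * s) = ψ g := fun g s hs => by
    simp only [hψ_def, hc_def, hCU g s hs.1, Subgroup.coe_mul, mul_smul, hWE (s : GalQ) hs.2]
  obtain ⟨U', hU', hU'n, hU'le⟩ := ((galLevelsS S).restrict H).exists_normal
    (((galLevelsS S).restrict H).inf_ok (U := U) (V := W.subgroupOf H) ⟨V, hV, hVU⟩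
      ⟨W, hW, le_rfl⟩)
  have := ((galLevelsS S).restrict H).finiteIndex hU'
  obtain ⟨Y, hY, hYψ⟩ := exists_fixing_sElts (S := S) (y := fun x : H ⧸ U' => ψ x.out)
    fun x => hψS _
  have hψout : ∀ g : H, ∃ x : H ⧸ U', ψ g = ψ x.out := fun g => by
    obtain ⟨s, hs⟩ := QuotientGroup.mk_out_eq_mul U' g
    exact ⟨(g : H ⧸ U'), by rw [hs, hψU g s (hU'le s.2)]⟩
  have hψmul : ∀ g h : H, ∀ s ∈ U', ∀ t ∈ U', ψ (g * s * (h * t)) = ψ (g * h) :=
    fun g h s hs t ht => by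
      rw [show g * s * (h * t) = g * h * (h⁻¹ * s * h⁻¹⁻¹ * t) by group]
      exact hψU _ _ (hU'le (mul_mem (hU'n.conj_mem s hs h⁻¹) ht))
  have hX'S : Coh.IsConst₂ ((galLevelsS S).restrict H) X' := by
    refine ⟨U' ⊓ Y.subgroupOf H,
      ((galLevelsS S).restrict H).inf_ok hU' ⟨Y, hY, le_rfl⟩,
      fun g h s hs t ht => muVal_injective ?_⟩
    obtain ⟨x, hx⟩ := hψout h
    have hcs : c (g * s) = c g := congrArg ZMod.val (hCU g s (hU'le hs.1).1)
    have hct : c (h * t) = c h := congrArg ZMod.val (hCU h t (hU'le ht.1).1)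
    rw [hX'v, hX'v, hψU g s (hU'le hs.1), hψU h t (hU'le ht.1), hψmul g h s hs.1 t ht.1, hcs, hct,
      Subgroup.coe_mul, mul_smul, hx, hYψ x (s : GalQ) hs.2]
  have hcoc : ∀ g h j : H, g • X' h j - X' (g * h) j + X' g (h * j) - X' g h = 0 := fun g h j => by
    have h1 := X.2.2 g h j
    have h2 : g • Coh.d₁ H (Mu p Qbar) w h j - Coh.d₁ H (Mu p Qbar) w (g * h) j
        + Coh.d₁ H (Mu p Qbar) w g (h * j) - Coh.d₁ H (Mu p Qbar) w g h = 0 := by
      simp only [Coh.d₁_apply, smul_add, smul_sub, mul_smul, mul_assoc]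
      abel
    simp only [hX'_def, Pi.sub_apply, smul_sub]
    calc _ = (g • (X : H → H → Mu p Qbar) h j - (X : H → H → Mu p Qbar) (g * h) j
            + (X : H → H → Mu p Qbar) g (h * j) - (X : H → H → Mu p Qbar) g h)
          - (g • Coh.d₁ H (Mu p Qbar) w h j - Coh.d₁ H (Mu p Qbar) w (g * h) j
            + Coh.d₁ H (Mu p Qbar) w g (h * j) - Coh.d₁ H (Mu p Qbar) w g h) := by abel
      _ = 0 := by rw [h1, h2, sub_self]
  refine ⟨Coh.H2.mk ⟨X', hX'S, hcoc⟩, ?_⟩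
  have hX'F : Coh.IsConst₂ ((galLevels ℚ Qbar).restrict H) X' := by
    obtain ⟨U₀, ⟨W₀, hW₀, hW₀U⟩, h⟩ := hX'S
    exact ⟨U₀, ⟨W₀, galLevels_ok_of_galLevelsS hW₀, hW₀U⟩, h⟩
  have hwF : Coh.IsConst₁ ((galLevels ℚ Qbar).restrict H) fun g => -w g := by
    obtain ⟨U₁, hU₁, hrU₁⟩ := isSmooth_restrict (isSmooth_Lx (F := ℚ) (L := Qbar)) H r
    obtain ⟨U₂, hU₂, hεU₂⟩ := isSmooth_restrict (isSmooth_Lx (F := ℚ) (L := Qbar)) H ε
    obtain ⟨W₀, hW₀, hW₀U⟩ := hU'
    refine ⟨U₂ ⊓ U', ((galLevels ℚ Qbar).restrict H).inf_ok hU₂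
      ⟨W₀, galLevels_ok_of_galLevelsS hW₀, hW₀U⟩, fun g s hs => congrArg Neg.neg
      (muVal_injective ?_)⟩
    rw [hwv, hwv, hψU g s (hU'le hs.2),
      show c (g * s) = c g from congrArg ZMod.val (hCU g s (hU'le hs.2).1), Subgroup.coe_mul,
      mul_smul, show (s : GalQ) • ε = ε from hεU₂ s hs.1]
  have hmk : Coh.H2.mk (⟨X', hX'F, hcoc⟩ : Coh.Z2 ((galLevels ℚ Qbar).restrict H) (Mu p Qbar)) =
      Coh.H2.mk X :=
    Coh.H2.mk_eq_mk.2 ⟨fun g => -w g, hwF, by
      rw [show (fun g => -w g) = -w from rfl, map_neg, ← sub_eq_add_neg]⟩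
  rw [inflS₁_mk, inflS₁_mk, Coh.cup₁₁_mk]
  exact hmk

omit [Fact p.Prime] in
/-- Localisation of degree two classes does not see the levels. -/
theorem locS₂_eq_locμ₂ (x : Coh.H2 ((galLevelsS S).restrict H) (Mu p Qbar))
    (i : PlaceIdx S H (okAll hH)) :
    locS₂ p (okAll hH) i x =
      locμ₂ p (placeP (okAll hH) i) H (placeG (okAll hH) i) (inflH2 S H x) := by
  obtain ⟨z, rfl⟩ := Coh.H2.mk_surjective x
  rfl

/-- The pairing at a place in terms of the cup product of the place `(q, g)`. -/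
theorem placePair_eq_cupMu (I : InvFam p) (i : PlaceIdx S' H (okAll hH))
    (x y : H1μ p (placeGroup (okAll hH) i)) :
    placePair (okAll hH) hμ hz I i x y = invPlace (okAll hH) I i
      (Places.cupMu (Places.placeZeta_ne_zero (placeP (okAll hH) i) (placeG (okAll hH) i) hz)
        (Places.locGroup_smul (placeP (okAll hH) i) (placeG (okAll hH) i) hμ) x y) := rfl

include hH in
/-- The character vanishes at a place where `α` has order prime to `p` and the pairing is zero. -/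
theorem char_eq_zero_of_placePair (hpS : (⟨p, Fact.out⟩ : Nat.Primes) ∈ S) {I : InvFam p}
    (hI : IsInvFamily I) (χ : Coh.Z1 ((galLevelsS S).restrict H) (Mu p Qbar))
    (ã : Coh.Z1 ((galLevelsS S').restrict H) (Mu p Qbar)) (α β : Coh.inv H (Lx Qbar))
    (hα : kummer H (Fact.out : p.Prime).pos α = inflS₁ S' H (Coh.H1.mk ã))
    (hβ : kummer H (Fact.out : p.Prime).pos β = inflS₁ S H (Coh.H1.mk χ))
    (i : PlaceIdx S' H (okAll hH)) (hi : i.1.1 ∉ S)
    (h : placePair (okAll hH) hμ hz I i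
      (locμ₁ p (placeP (okAll hH) i) H (placeG (okAll hH) i) (inflS₁ S' H (Coh.H1.mk ã)))
      (locμ₁ p (placeP (okAll hH) i) H (placeG (okAll hH) i) (inflS₁ S H (Coh.H1.mk χ))) = 0)
    (hord : ¬ (p : ℤ) ∣ ordAt (placeP (okAll hH) i) (placeG (okAll hH) i) (α : Lx Qbar))
    (d : placeGroup (okAll hH) i) :
    (χ : H → Mu p Qbar) (Coh.twistHom _ (placeG (okAll hH) i) H d) = 0 := by
  rw [← hα] at h
  have h0 := placePair_eq_zero_comm hμ hz (okAll hH) I i _ _ h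
  rw [placePair_eq_cupMu hH hμ hz] at h0
  exact char_eq_zero_of_not_dvd (placeP (okAll hH) i) (placeG (okAll hH) i) hH hμ hz hpS hi χ β
    hβ (isSElt_rootP_of_kummer_eq hH hμ χ β hβ) α
    (invPlace_injective (okAll hH) hI i (h0.trans (map_zero _).symm)) hord d

include hSS' in
/-- **Cup products locally trivial outside `S` descend to `S`-levels.** -/
theorem exists_cup_descend (hpS : (⟨p, Fact.out⟩ : Nat.Primes) ∈ S) {I : InvFam p}
    (hI : IsInvFamily I) (χ : Coh.H1 ((galLevelsS S).restrict H) (Mu p Qbar))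
    (a : Coh.H1 ((galLevelsS S').restrict H) (Mu p Qbar))
    (hloc : ∀ i : PlaceIdx S' H (okAll hH), i.1.1 ∉ S →
      placePair (okAll hH) hμ hz I i
        (locμ₁ p (placeP (okAll hH) i) H (placeG (okAll hH) i) (inflS₁ S' H a))
        (locμ₁ p (placeP (okAll hH) i) H (placeG (okAll hH) i) (inflS₁ S H χ)) = 0) :
    ∃ x : Coh.H2 ((galLevelsS S).restrict H) (Mu p Qbar), ∀ i : PlaceIdx S H (okAll hH),
      invPlace (okAll hH) I i (locS₂ p (okAll hH) i x) =
        placePair (okAll hH) hμ hz I i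
          (locμ₁ p (placeP (okAll hH) i) H (placeG (okAll hH) i) (inflS₁ S' H a))
          (locμ₁ p (placeP (okAll hH) i) H (placeG (okAll hH) i) (inflS₁ S H χ)) := by
  have hp : p.Prime := Fact.out
  obtain ⟨ã, rfl⟩ := Coh.H1.mk_surjective a
  obtain ⟨χ', rfl⟩ := Coh.H1.mk_surjective χ
  obtain ⟨α, hα⟩ := kummer_surjective hp.pos H (okAll hH) (inflS₁ S' H (Coh.H1.mk ã))
  obtain ⟨β, hβ⟩ := kummer_surjective hp.pos H (okAll hH) (inflS₁ S H (Coh.H1.mk χ'))
  obtain ⟨x, hx⟩ := exists_inflH2_eq_cup hH hμ hz hpS ã χ' α (nsmul_rootP hp.pos _)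
    (isSElt_rootP_of_kummer_eq (compat_galLevelsS_mono hSS' H hH) hμ ã α hα)
    (fun g => muVal_eq_of_kummer_eq hμ ã α hα g) fun i hi hord d =>
      char_eq_zero_of_placePair hH hμ hz hpS hI χ' ã α β hα hβ i hi (hloc i hi) hord d
  refine ⟨x, fun i => ?_⟩
  rw [locS₂_eq_locμ₂ hH x i, hx, placePair_eq_cupMu hH hμ hz I i]
  refine congrArg (invPlace (okAll hH) I i) ?_
  exact Places.locTwist₂_cup (placeP (okAll hH) i) (placeG (okAll hH) i) hz hμ
    (compat_localGaloisToGlobal (placeP (okAll hH) i)) (isSmooth_restrict isSmooth_Mu H)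
    (inflS₁ S' H (Coh.H1.mk ã)) (inflS₁ S H (Coh.H1.mk χ'))

end Descend

end Fermat.Agent.Duality

end
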