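import Fermat.Agent.Duality.Base.SmallS

/-!
# The duality maps for roots of unity over local fields
-/

set_option autoImplicit false

noncomputable section

namespace Fermat.Agent.Duality

variable {p : ℕ} [Fact p.Prime] {I : InvFam p} (q : ℕ) [Fact q.Prime]

/-- **The base of local duality.** -/
theorem isDualityBase_local (hI : IsInvFamily I) (hd : IsLocalDual I) :
    Coh.IsDualityBase (p := p) (I q) (Mu p (PadicAlgCl q)) := by
  classical
  have : NeZero p := ⟨(Fact.out : p.Prime).ne_zero⟩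
  have : Nontrivial (Mu p (PadicAlgCl q)) := Finite.one_lt_card_iff_nontrivial.mp
    (by rw [card_Mu]; exact (Fact.out : p.Prime).one_lt)
  obtain ⟨z₁, hz⟩ := exists_ne (0 : Mu p (PadicAlgCl q))
  refine ⟨card_Mu, isSmooth_Mu, fun U hU hμ => ?_, fun U hU hs hμ φ => ?_⟩
  · have hid : Coh.HomMod.of (AddMonoidHom.id (Mu p (PadicAlgCl q))) ∈
        Coh.inv U (Coh.HomMod (Mu p (PadicAlgCl q)) (Mu p (PadicAlgCl q))) := fun d =>
      Coh.HomMod.ext fun m => by
        show d • d⁻¹ • m = m
        rw [smul_inv_smul]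
    refine (injective_iff_map_eq_zero _).mpr fun x hx => ?_
    have h := DFunLike.congr_fun hx ⟨_, hid⟩
    obtain ⟨f, rfl⟩ := Coh.H2.mk_surjective x
    refine ((hI.bijective q).1.comp (hI.cor_injective q U hU)) ?_
    show I q (corLoc q U hU (Coh.H2.mk f)) = I q (corLoc q U hU 0)
    rw [map_zero, map_zero]
    exact h
  · let sc : Mu p (PadicAlgCl q) →+
        Coh.HomMod (Mu p (PadicAlgCl q)) (Mu p (PadicAlgCl q)) :=
      AddMonoidHom.mk' (fun x => Coh.HomMod.of (muPair hz x)) fun x y =>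
        Coh.HomMod.ext fun m => DFunLike.congr_fun (map_add (muPair hz) x y) m
    have hsc : Coh.IsEquivariant (MonoidHom.id U) sc := fun d x => Coh.HomMod.ext fun m => by
      show muPair hz (d • x) m = d • muPair hz x (d⁻¹ • m)
      rw [hμ, hμ, hμ]
    have hev : ∀ (F : Coh.HomMod (Mu p (PadicAlgCl q)) (Mu p (PadicAlgCl q)))
        (m : Mu p (PadicAlgCl q)), muPair hz (F z₁) m = F m := fun F m => by
      obtain ⟨k, rfl⟩ := exists_nsmul_mu hz m
      obtain ⟨j, hj⟩ := exists_nsmul_mu hz (F z₁)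
      rw [map_nsmul F, hj, muPair_pow, ← mul_nsmul', mul_comm j k]
    let ev : Coh.HomMod (Mu p (PadicAlgCl q)) (Mu p (PadicAlgCl q)) →+ Mu p (PadicAlgCl q) :=
      AddMonoidHom.mk' (fun F => F z₁) fun _ _ => rfl
    have hevq : Coh.IsEquivariant (MonoidHom.id U) ev := fun d F => by
      show d • F (d⁻¹ • z₁) = d • F z₁
      rw [hμ d⁻¹ z₁]
    have := finite_H1μ_loc q hU hμ hz
    let B : H1μ p U →+ H1μ p U →+ ZMod p :=
      (AddMonoidHom.compHom ((I q).comp (corLoc q U hU))).comp
        (Coh.cup₁₁ (isPairing_muPair hz hμ) (isSmooth_restrict isSmooth_Mu U))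
    obtain ⟨y, hy⟩ := exists_eq_right (fun x : H1μ p U => Coh.H1.torsion torsion_Mu x) B
      (hd.nondegenerate q U hU hμ hz)
      (φ.comp (Coh.H1.map (Coh.Levels.compat_id _) hsc))
    refine ⟨y, AddMonoidHom.ext fun e => ?_⟩
    have he : Coh.H1.map (Coh.Levels.compat_id _) hsc
        (Coh.H1.map (Coh.Levels.compat_id _) hevq e) = e := by
      obtain ⟨w, rfl⟩ := Coh.H1.mk_surjective e
      exact congrArg Coh.H1.mk (Subtype.ext (funext fun g => Coh.HomMod.ext fun m => hev _ m))
    have h := (hy (Coh.H1.map (Coh.Levels.compat_id _) hevq e)).trans (congrArg φ he)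
    rw [← h, Coh.theta₁_apply]
    obtain ⟨w, rfl⟩ := Coh.H1.mk_surjective e
    obtain ⟨z, rfl⟩ := Coh.H1.mk_surjective y
    refine congrArg (I q) (congrArg (corLoc q U hU) (congrArg Coh.H2.mk
      (Subtype.ext (funext fun g => funext fun k => ?_))))
    exact (hev _ _).symm

end Fermat.Agent.Duality

end
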