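import Fermat.Agent.Duality.Base.SmallS
import Fermat.Agent.Duality.Local.Base
import Fermat.Agent.Duality.Places.LocalPairing
import Fermat.Agent.Duality.Places.LocZero

/-!
# Local duality for `μ_p` in degree one
-/

set_option autoImplicit false

noncomputable section

namespace Fermat.Agent.Duality

open IntermediateField Local Module
open scoped Pointwise

variable {p : ℕ} [Fact p.Prime] {q : ℕ} [Fact q.Prime]

/-- Inertia acts trivially on residues. -/
lemma norm_sub_lt_of_mem_inertiaLoc {t : GalLoc q} (ht : t ∈ inertiaLoc q) {x : (PadicAlgCl q)}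
    (hx : ‖x‖ ≤ 1) :
    ‖t x - x‖ < 1 := by
  obtain ⟨a, ha⟩ := (Places.denseRange_padicEmbedding q).exists_dist_lt x one_pos
  rw [dist_eq_norm] at ha
  have ha1 : ‖padicEmbedding q a‖ ≤ 1 := by
    have h := (IsUltrametricDist.norm_add_le_max (-(x - padicEmbedding q a)) x).trans
      (max_le (by rw [norm_neg]; exact ha.le) hx)
    rwa [neg_sub, sub_add_cancel] at h
  have h1 := ((Gal.mem_inertia_iff (padicPlace q) (localGaloisToGlobal q t)).mp ht).2 a
    ((Places.mem_padicPlace q).mpr ha1)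
  rw [Places.mem_nonunits_padicPlace, map_sub, padicEmbedding_localGaloisToGlobal] at h1
  rw [show t x - x = (t (x - padicEmbedding q a) + -(x - padicEmbedding q a)) +
    (t (padicEmbedding q a) - padicEmbedding q a) by rw [map_sub]; ring]
  refine (IsUltrametricDist.norm_add_le_max _ _).trans_lt (max_lt ?_ h1)
  refine (IsUltrametricDist.norm_add_le_max _ _).trans_lt (max_lt ?_ ?_)
  · rwa [norm_galLoc_apply]
  · rwa [norm_neg]

section Unr

/-- Modulo a normal subgroup with cyclic quotient a subgroup has one generator. -/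
lemma exists_mod_generator {G : Type} [Group G] (U M : Subgroup G) [M.Normal] (x : G)
    (hdec : ∀ d : G, ∃ j : ℤ, QuotientGroup.mk' M d = QuotientGroup.mk' M x ^ j) :
    ∃ u₀ ∈ U, ∀ u ∈ U, ∃ k : ℤ, (u₀ ^ k)⁻¹ * u ∈ M := by
  let J : AddSubgroup ℤ :=
    { carrier := {j : ℤ | QuotientGroup.mk' M x ^ j ∈ U.map (QuotientGroup.mk' M)}
      zero_mem' := by simp only [Set.mem_ofPred_eq, zpow_zero]; exact one_mem _
      add_mem' := fun {a b} ha hb => by
        simp only [Set.mem_ofPred_eq, zpow_add] at *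
        exact mul_mem ha hb
      neg_mem' := fun {a} ha => by
        simp only [Set.mem_ofPred_eq, zpow_neg] at *
        exact inv_mem ha }
  obtain ⟨j₀, hj₀⟩ := Int.subgroup_cyclic J
  obtain ⟨u₀, hu₀, he⟩ : QuotientGroup.mk' M x ^ j₀ ∈ U.map (QuotientGroup.mk' M) := by
    have : j₀ ∈ J := hj₀ ▸ AddSubgroup.subset_closure rfl
    exact this
  refine ⟨u₀, hu₀, fun u hu => ?_⟩
  obtain ⟨j, hj⟩ := hdec u
  have : j ∈ J := ⟨u, hu, hj⟩
  rw [hj₀, AddSubgroup.mem_closure_singleton] at this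
  obtain ⟨k, hk⟩ := this
  refine ⟨k, ?_⟩
  rw [← QuotientGroup.eq_one_iff]
  show QuotientGroup.mk' M ((u₀ ^ k)⁻¹ * u) = 1
  rw [map_mul, map_inv, map_zpow, hj, he, ← hk, smul_eq_mul, ← zpow_mul, mul_comm j₀ k,
    inv_mul_cancel]

/-- A homomorphism vanishing on two subgroups takes powers to multiples. -/
lemma apply_eq_zsmul {G A : Type} [Group G] [AddCommGroup A] {U : Subgroup G} (z : U → A)
    (hadd : ∀ a b : U, z (a * b) = z b + z a) (I N : Subgroup G) [N.Normal] (hN : N ≤ U)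
    (hI : ∀ d : U, (d : G) ∈ I → z d = 0) (hN0 : ∀ d : U, (d : G) ∈ N → z d = 0)
    {u₀ : G} (hu₀ : u₀ ∈ U) (u : U) {k : ℤ} (hk : (u₀ ^ k)⁻¹ * (u : G) ∈ I ⊔ N) :
    z u = k • z ⟨u₀, hu₀⟩ := by
  let f : U →* Multiplicative A :=
    MonoidHom.mk' (fun g => Multiplicative.ofAdd (z g))
      fun g g' => by rw [hadd, add_comm, ofAdd_add]
  set e : U := ((⟨u₀, hu₀⟩ : U) ^ k)⁻¹ * u with hedef
  have he : (e : G) ∈ I ⊔ N := by
    rw [hedef, Subgroup.coe_mul, Subgroup.coe_inv, Subgroup.coe_zpow]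
    exact hk
  obtain ⟨t, ht, n, hn, htn⟩ := Subgroup.mem_sup_of_normal_right.mp he
  have htU : t ∈ U := by
    have h1 := mul_mem e.2 (inv_mem (hN hn))
    rwa [← htn, mul_inv_cancel_right] at h1
  have h0 : z e = 0 := by
    rw [show e = ⟨t, htU⟩ * ⟨n, hN hn⟩ from Subtype.ext htn.symm, hadd, hI ⟨t, htU⟩ ht,
      hN0 ⟨n, hN hn⟩ hn, add_zero]
  have h2 : f e = 1 := congrArg Multiplicative.ofAdd h0
  rw [hedef, map_mul, map_inv, map_zpow, inv_mul_eq_one] at h2
  exact (congrArg Multiplicative.toAdd h2).symm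

variable {U : Subgroup (GalLoc q)}

/-- An unramified class is determined by its value at one element. -/
theorem exists_nsmul_eq_of_mem_unr (hU : (galLevels ℚ_[q] (PadicAlgCl q)).ok U)
    (hμ : ∀ (d : U) (z : Mu p (PadicAlgCl q)), d • z = z) {x y : H1μ p U}
    (hx : x ∈ unrClass q U) (hx0 : x ≠ 0) (hy : y ∈ unrClass q U) : ∃ k : ℕ, y = k • x := by
  obtain ⟨z, hz, rfl⟩ := hx
  obtain ⟨w, hw, rfl⟩ := hy
  set zf : U → Mu p (PadicAlgCl q) := z.1 with hzf
  set wf : U → Mu p (PadicAlgCl q) := w.1 with hwf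
  have hza : ∀ a b : U, zf (a * b) = zf b + zf a := fun a b => by
    rw [hzf, (Coh.mem_Z1.mp z.2).2 a b, hμ]
  have hwa : ∀ a b : U, wf (a * b) = wf b + wf a := fun a b => by
    rw [hwf, (Coh.mem_Z1.mp w.2).2 a b, hμ]
  obtain ⟨V₁, ⟨W₁, hW₁, hWV₁⟩, hV₁⟩ := z.2.1
  obtain ⟨V₂, ⟨W₂, hW₂, hWV₂⟩, hV₂⟩ := w.2.1
  obtain ⟨L, hL, hLeq⟩ := Local.exists_field_of_ok ((galLevels ℚ_[q] (PadicAlgCl q)).inf_ok hU
    ((galLevels ℚ_[q] (PadicAlgCl q)).inf_ok hW₁ hW₂))
  obtain ⟨F, hF, hFL⟩ := Places.exists_localField_eq q L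
  have := hF
  set N := IntermediateField.normalClosure ℚ F Qbar
  have : Normal ℚ N := normalClosure.normal ℚ F Qbar
  set N' : Subgroup (GalLoc q) := N.fixingSubgroup.comap (localGaloisToGlobal q) with hN'
  have hNn : N.fixingSubgroup.Normal := by
    rw [← IntermediateField.restrictNormalHom_ker]
    exact MonoidHom.normal_ker _
  have : N'.Normal := Subgroup.normal_comap _
  have hN'le : N' ≤ U ⊓ (W₁ ⊓ W₂) := by
    rw [← hLeq, ← hFL, Places.fixingSubgroup_localField]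
    exact Subgroup.comap_mono
      (IntermediateField.fixingSubgroup_antitone F.le_normalClosure)
  have : (inertiaLoc q).Normal := ⟨fun n hn g => conj_mem_inertiaLoc q g hn⟩
  have : (inertiaLoc q ⊔ N').Normal := Subgroup.sup_normal _ _
  have hA := Places.liesOverPrime_padicPlace q
  obtain ⟨τ, hτ⟩ := Gal.exists_isFrobeniusAt (Fact.out : q.Prime) hA
  have hrange : ∀ g : GalQ, g • padicPlace q = padicPlace q →
      g ∈ (localGaloisToGlobal q).range := fun g hg => by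
    rw [Places.range_localGaloisToGlobal]
    exact hg
  obtain ⟨dF, hdF⟩ := hrange τ ((Gal.isFrobeniusAt_iff _ τ q).1 hτ).1
  have hdec : ∀ d : GalLoc q, ∃ j : ℤ, QuotientGroup.mk' (inertiaLoc q ⊔ N') d =
      QuotientGroup.mk' (inertiaLoc q ⊔ N') dF ^ j := fun d => by
    obtain ⟨j, σ, hσ, hσe⟩ := Gal.exists_pow_mul_inertia_eqOn (Fact.out : q.Prime) N hA hτ
      (localGaloisToGlobal_mem_decompositionSubgroup q d)
    obtain ⟨t, rfl⟩ := hrange σ ((Gal.mem_inertia_iff _ σ).mp hσ).1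
    refine ⟨j, ?_⟩
    rw [zpow_natCast, ← map_pow, eq_comm, QuotientGroup.mk'_eq_mk']
    refine ⟨t * ((dF ^ j * t)⁻¹ * d), mul_mem (Subgroup.mem_sup_left hσ)
      (Subgroup.mem_sup_right ?_), by group⟩
    rw [hN', Subgroup.mem_comap, IntermediateField.mem_fixingSubgroup_iff]
    intro e he
    rw [map_mul, map_inv, AlgEquiv.mul_apply, hσe e he, map_mul, map_pow, hdF, AlgEquiv.aut_inv,
      AlgEquiv.symm_apply_apply]
  obtain ⟨u₀, hu₀, hgen⟩ := exists_mod_generator U (inertiaLoc q ⊔ N') dF hdec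
  have h0 : ∀ (f : U → Mu p (PadicAlgCl q)) (V : Subgroup U)
      (_ : ∀ a b : U, f (a * b) = f b + f a) (_ : ∀ g, ∀ s ∈ V, f (g * s) = f g),
      N'.subgroupOf U ≤ V → ∀ d : U, (d : GalLoc q) ∈ N' → f d = 0 := fun f V hfa hfV hNV d hd => by
    have h1 : f 1 = 0 := by simpa using hfa 1 1
    have h2 := hfV 1 d (hNV hd)
    rwa [one_mul, h1] at h2
  have hzv : ∀ (u : U) (k : ℤ), (u₀ ^ k)⁻¹ * (u : GalLoc q) ∈ inertiaLoc q ⊔ N' →
      zf u = k • zf ⟨u₀, hu₀⟩ := fun u k hk =>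
    apply_eq_zsmul zf hza _ N' (fun n hn => (hN'le hn).1) hz
      (h0 zf V₁ hza hV₁ fun d hd => hWV₁ (hN'le hd).2.1) hu₀ u hk
  have hwv : ∀ (u : U) (k : ℤ), (u₀ ^ k)⁻¹ * (u : GalLoc q) ∈ inertiaLoc q ⊔ N' →
      wf u = k • wf ⟨u₀, hu₀⟩ := fun u k hk =>
    apply_eq_zsmul wf hwa _ N' (fun n hn => (hN'le hn).1) hw
      (h0 wf V₂ hwa hV₂ fun d hd => hWV₂ (hN'le hd).2.2) hu₀ u hk
  obtain ⟨m, hm⟩ : ∃ m : ℕ, wf ⟨u₀, hu₀⟩ = m • zf ⟨u₀, hu₀⟩ := by
    refine exists_nsmul_mu (fun hz0 => hx0 ?_) _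
    rw [← map_zero Coh.H1.mk]
    refine congrArg Coh.H1.mk (Subtype.ext (funext fun u => ?_))
    obtain ⟨k, hk⟩ := hgen u u.2
    show zf u = 0
    rw [hzv u k hk, hz0, smul_zero]
  refine ⟨m, ?_⟩
  rw [← map_nsmul]
  refine congrArg Coh.H1.mk (Subtype.ext (funext fun u => ?_))
  obtain ⟨k, hk⟩ := hgen u u.2
  show wf u = m • zf u
  rw [hwv u k hk, hzv u k hk, hm, smul_comm]

end Unr

section Field

variable {L : IntermediateField ℚ_[q] (PadicAlgCl q)} [FiniteDimensional ℚ_[q] L]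

omit [FiniteDimensional ℚ_[q] ↥L] in
/-- Kummer classes of units are unramified away from `p`. -/
theorem kummer_unit_mem_unr (hqp : q ≠ p) {u : Lˣ} (hu : ‖(u : L)‖ = 1) :
    kummer L.fixingSubgroup (Fact.out : p.Prime).pos (ofUnit L u) ∈
      unrClass q L.fixingSubgroup := by
  have hp : p.Prime := Fact.out
  refine ⟨kummerFun L.fixingSubgroup hp.pos (ofUnit L u), fun d hd => ?_, rfl⟩
  set ρ := rootP p
    ((ofUnit L u : Coh.inv L.fixingSubgroup (Lx (PadicAlgCl q))) : Lx (PadicAlgCl q)) with hρ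
  have hρn : ‖uVal ρ‖ = 1 := by
    have h1 : uVal ρ ^ p = ((u : L) : (PadicAlgCl q)) := by
      rw [← uVal_ofUnit, uVal, ← Units.val_pow_eq_pow_val, ← toMul_nsmul, hρ, nsmul_rootP hp.pos]
    rw [← pow_eq_one_iff_of_nonneg (norm_nonneg _) hp.ne_zero, ← norm_pow, h1]
    exact hu
  set z :=
    (kummerFun L.fixingSubgroup hp.pos (ofUnit L u) : L.fixingSubgroup → Mu p (PadicAlgCl q)) d
  have hζ : (d : GalLoc q) (uVal ρ) = uVal (muVal z) * uVal ρ := by
    rw [show muVal z = d • ρ - ρ from muVal_kummerFun _ hp.pos _ _,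
      uVal, uVal, toMul_sub, Units.val_div_eq_div_val, div_mul_cancel₀ _ (Units.ne_zero _)]
    rfl
  by_contra hne
  have h1 : uVal (muVal z) ≠ 1 := fun h => hne (muVal_injective (by
    rw [map_zero]; exact Additive.toMul.injective (Units.ext h)))
  have h2 := norm_zeta_sub_one hqp (p := p) (by
    rw [uVal, ← Units.val_pow_eq_pow_val, ← toMul_nsmul, nsmul_muVal]; rfl) h1
  have h3 := norm_sub_lt_of_mem_inertiaLoc hd hρn.le
  rw [hζ, show uVal (muVal z) * uVal ρ - uVal ρ = (uVal (muVal z) - 1) * uVal ρ by ring,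
    norm_mul, h2, hρn, one_mul] at h3
  exact lt_irrefl _ h3

variable {z₁ : Mu p (PadicAlgCl q)} (hz : z₁ ≠ 0)
    (hμ : ∀ (g : L.fixingSubgroup) (z : Mu p (PadicAlgCl q)), g • z = z)

include hz hμ in
/-- Some unit has a nonzero Kummer class. -/
theorem exists_unit_kummer_ne_zero (_hqp : q ≠ p) : ∃ u : Lˣ, ‖(u : L)‖ = 1 ∧
    kummer L.fixingSubgroup (Fact.out : p.Prime).pos (ofUnit L u) ≠ 0 := by
  have hp : p.Prime := Fact.out
  by_contra hcon
  push Not at hcon
  obtain ⟨π, hπ0, hπ1, hπ⟩ := exists_uniformizer L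
  let κ : Coh.inv L.fixingSubgroup (Lx (PadicAlgCl q)) →+ H1μ p L.fixingSubgroup :=
    kummer L.fixingSubgroup hp.pos
  let πu : Lˣ := Units.mk0 π (norm_pos_iff.mp hπ0)
  obtain ⟨a, ha⟩ := exists_kummer_notMem hz hμ (κ (ofUnit L πu))
  obtain ⟨a, rfl⟩ := (unitsEquivInv L).surjective a
  obtain ⟨k, hk⟩ := hπ (a.toMul : L) (Units.ne_zero _)
  refine ha (AddSubgroup.mem_zmultiples_iff.mpr ⟨k, ?_⟩)
  have hu : ‖((a.toMul * (πu ^ k)⁻¹ : Lˣ) : L)‖ = 1 := by
    rw [Units.val_mul, Units.val_inv_eq_inv_val, Units.val_zpow_eq_zpow_val, norm_mul, norm_inv,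
      norm_zpow, hk]
    exact mul_inv_cancel₀ (zpow_ne_zero _ hπ0.ne')
  have h1 := hcon _ hu
  have h2 : unitsEquivInv L (Additive.ofMul (a.toMul * (πu ^ k)⁻¹)) =
      unitsEquivInv L a - k • unitsEquivInv L (Additive.ofMul πu) := by
    rw [← map_zsmul, ← map_sub]
    refine congrArg _ ?_
    rw [ofMul_mul, ofMul_inv, ofMul_zpow, sub_eq_add_neg]
    rfl
  have h4 : κ (unitsEquivInv L (Additive.ofMul (a.toMul * (πu ^ k)⁻¹))) = 0 := h1
  rw [h2, map_sub, map_zsmul, sub_eq_zero] at h4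
  exact h4.symm

end Field

/-- **Local duality.** -/
theorem isLocalDual {I : InvFam p} (hI : IsInvFamily I) : IsLocalDual I where
  nondegenerate q _ U hU hμ z₀ hz y hy := by
    obtain ⟨L, hL, hLU⟩ := Local.exists_field_of_ok hU
    obtain ⟨x, hx⟩ := Places.exists_cupMu_ne_zero (L := L) hz hμ hLU.symm hy
    refine ⟨x, fun h => hx ?_⟩
    show Coh.cup₁₁ (isPairing_muPair hz hμ) (isSmooth_restrict isSmooth_Mu U) y x = 0
    rw [cup_muPair_swap hμ, neg_eq_zero]
    exact hI.cor_injective q U hU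
      ((hI.bijective q).1 (h.trans (map_zero _).symm) |>.trans (map_zero _).symm)
  unr q _ hqp U hU hμ z₀ hz y := by
    have hp : p.Prime := Fact.out
    obtain ⟨L, hL, rfl⟩ := Local.exists_field_of_ok hU
    obtain ⟨u, hu, hne⟩ := exists_unit_kummer_ne_zero hz hμ hqp
    have humem := kummer_unit_mem_unr (p := p) hqp hu
    have hall : ∀ x ∈ unrClass q L.fixingSubgroup,
        ∃ k : ℕ, x = k • kummer L.fixingSubgroup hp.pos (ofUnit L u) :=
      fun x hx => exists_nsmul_eq_of_mem_unr hU hμ humem hne hx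
    constructor
    · intro hy x hx
      obtain ⟨k, rfl⟩ := hall x hx
      obtain ⟨l, rfl⟩ := hall y hy
      have h0 : Coh.cup₁₁ (isPairing_muPair hz hμ) (isSmooth_restrict isSmooth_Mu L.fixingSubgroup)
          (kummer L.fixingSubgroup hp.pos (ofUnit L u))
          (kummer L.fixingSubgroup hp.pos (ofUnit L u)) = 0 := symb_units hz hμ hqp hu hu
      simp only [map_nsmul, AddMonoidHom.nsmul_apply, h0, nsmul_zero, map_zero]
    · intro h
      obtain ⟨b, rfl⟩ := kummer_surjective hp.pos _ hU y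
      obtain ⟨b, rfl⟩ := (unitsEquivInv L).surjective b
      have h1 := h _ humem
      have h2 : symb hz hμ (ofUnit L u) (ofUnit L b.toMul) = 0 :=
        hI.cor_injective q _ hU
          ((hI.bijective q).1 (h1.trans (map_zero _).symm) |>.trans (map_zero _).symm)
      obtain ⟨y₀, hy₀⟩ := (symb_unit_eq_zero_iff hz hμ hqp hu hne b.toMul).mp h2
      have hy₀0 : y₀ ≠ 0 := fun h0 => by
        rw [h0, norm_zero, zero_pow hp.ne_zero] at hy₀
        exact Units.ne_zero b.toMul (norm_eq_zero.mp hy₀)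
      set v : Lˣ := b.toMul * (Units.mk0 y₀ hy₀0 ^ p)⁻¹
      have hv : ‖(v : L)‖ = 1 := by
        rw [Units.val_mul, Units.val_inv_eq_inv_val, Units.val_pow_eq_pow_val, norm_mul, norm_inv,
          norm_pow, hy₀]
        exact mul_inv_cancel₀ (pow_ne_zero _ (norm_ne_zero_iff.mpr hy₀0))
      have hbv : unitsEquivInv L b = unitsEquivInv L (Additive.ofMul v) +
          p • unitsEquivInv L (Additive.ofMul (Units.mk0 y₀ hy₀0)) := by
        rw [← map_nsmul, ← map_add]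
        refine congrArg _ (Additive.toMul.injective ?_)
        rw [toMul_add, toMul_nsmul, toMul_ofMul, toMul_ofMul, inv_mul_cancel_right]
      have h5 : kummer L.fixingSubgroup hp.pos
          (p • unitsEquivInv L (Additive.ofMul (Units.mk0 y₀ hy₀0))) = 0 :=
        (kummer_eq_zero_iff hp.pos _ _).mpr ⟨_, rfl⟩
      rw [hbv, map_add, h5, add_zero]
      exact kummer_unit_mem_unr hqp hv

end Fermat.Agent.Duality

end
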