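import Fermat.Agent.Duality.Base.Defs
import Fermat.Agent.Duality.Places.Twist
import Fermat.Agent.Duality.Places.LocZero

/-!
# A global class that is nonzero at every place over `S`

The `p`-power roots of unity generate an extension unramified outside `p` in which no place splits
completely at every layer: high in the tower the next layer is inert or ramified at every place
over `S`.
-/

set_option autoImplicit false

noncomputable section

namespace Fermat.Agent.Duality.Tower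

variable {p : ℕ} [Fact p.Prime]

/-- The elements fixing the roots of unity of order dividing `n`. -/
def fixRoots (n : ℕ) : Subgroup GalQ where
  carrier := {g | ∀ z : Qbar, z ^ n = 1 → g z = z}
  one_mem' _ _ := rfl
  mul_mem' {g h} hg hh z hz := by rw [AlgEquiv.mul_apply, hh z hz, hg z hz]
  inv_mem' {g} hg z hz := by
    conv_lhs => rw [← hg z hz]
    rw [AlgEquiv.aut_inv, AlgEquiv.symm_apply_apply]

theorem ok_fixRoots {S : Finset Nat.Primes} (hpS : (⟨p, Fact.out⟩ : Nat.Primes) ∈ S) (k : ℕ) :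
    (galLevelsS S).ok (fixRoots (p ^ k)) := by
  have : NeZero (p ^ k) := ⟨pow_ne_zero k (Fact.out : p.Prime).ne_zero⟩
  obtain ⟨η, hη⟩ := HasEnoughRootsOfUnity.exists_primitiveRoot Qbar (p ^ k)
  refine (galLevelsS S).mono (galLevelsS_ok_fixingSubgroup
    (Places.isUnramifiedOutside_adjoin_root hη.pow_eq_one (NeZero.ne _) S fun r hr => ?_))
    fun g hg z hz => ?_
  · rwa [show r = ⟨p, Fact.out⟩ from Subtype.ext
      ((Nat.prime_dvd_prime_iff_eq r.2 Fact.out).1 (r.2.dvd_of_dvd_pow hr))]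
  · obtain ⟨i, -, rfl⟩ := hη.eq_pow_of_pow_eq_one hz
    rw [map_pow, (IntermediateField.mem_fixingSubgroup_iff _ _).1 hg η
      (IntermediateField.mem_adjoin_simple_self ℚ η)]

/-- Distinct roots of unity of `p`-power order keep a fixed distance. -/
theorem norm_sub_one_le {q : ℕ} [Fact q.Prime] {w : PadicAlgCl q} {k : ℕ}
    (hw : IsPrimitiveRoot w (p ^ (k + 1))) : ‖w ^ p ^ k - 1‖ ≤ ‖w - 1‖ := by
  rw [← geom_sum_mul w (p ^ k), norm_mul]
  refine mul_le_of_le_one_left (norm_nonneg _) ?_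
  have h1 : ‖w‖ = 1 := (isOfFinOrder_iff_pow_eq_one.2
    ⟨p ^ (k + 1), pow_pos (Fact.out : p.Prime).pos _, hw.pow_eq_one⟩).norm_eq_one
  refine IsUltrametricDist.norm_sum_le_of_forall_le_of_nonneg zero_le_one fun i _ => ?_
  rw [norm_pow, h1, one_pow]

/-- A `p`-adic field contains only finitely many layers of `p`-power roots of unity. -/
theorem exists_notMem {q : ℕ} [Fact q.Prime] (L : IntermediateField ℚ_[q] (PadicAlgCl q))
    [FiniteDimensional ℚ_[q] L] :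
    ∃ s : ℕ, ∃ w : PadicAlgCl q, w ^ p ^ s = 1 ∧ w ∉ L := by
  have hp : p.Prime := Fact.out
  by_contra hall
  push Not at hall
  have : NeZero p := ⟨hp.ne_zero⟩
  obtain ⟨ζ₁, hζ₁⟩ := HasEnoughRootsOfUnity.exists_primitiveRoot (PadicAlgCl q) p
  -- the minimal distance
  obtain ⟨c, hc, hc'⟩ : ∃ c : ℝ, 0 < c ∧ ∀ u : PadicAlgCl q, u ^ p = 1 → u ≠ 1 → c ≤ ‖u - 1‖ := by
    classical
    have hne : ((Finset.range p).image fun i => ζ₁ ^ i).erase 1 |>.Nonempty :=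
      ⟨ζ₁, Finset.mem_erase.2 ⟨hζ₁.ne_one hp.one_lt,
        Finset.mem_image.2 ⟨1, Finset.mem_range.2 hp.one_lt, pow_one _⟩⟩⟩
    refine ⟨(((Finset.range p).image fun i => ζ₁ ^ i).erase 1).inf' hne fun u => ‖u - 1‖, ?_, ?_⟩
    · rw [Finset.lt_inf'_iff]
      exact fun u hu => norm_pos_iff.2 (sub_ne_zero.2 (Finset.ne_of_mem_erase hu))
    · intro u hu hu1
      obtain ⟨i, hi, rfl⟩ := hζ₁.eq_pow_of_pow_eq_one hu
      exact Finset.inf'_le _ (Finset.mem_erase.2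
        ⟨hu1, Finset.mem_image.2 ⟨i, Finset.mem_range.2 hi, rfl⟩⟩)
  have hex : ∀ s : ℕ, ∃ z : L, IsPrimitiveRoot (z : PadicAlgCl q) (p ^ (s + 1)) := fun s => by
    have : NeZero (p ^ (s + 1)) := ⟨pow_ne_zero _ hp.ne_zero⟩
    obtain ⟨z, hz⟩ := HasEnoughRootsOfUnity.exists_primitiveRoot (PadicAlgCl q) (p ^ (s + 1))
    exact ⟨⟨z, hall (s + 1) z hz.pow_eq_one⟩, hz⟩
  choose z hz using hex
  have hz1 : ∀ s, ‖z s‖ = 1 := fun s => (isOfFinOrder_iff_pow_eq_one.2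
    ⟨p ^ (s + 1), pow_pos hp.pos _, (hz s).pow_eq_one⟩).norm_eq_one
  have : ProperSpace L := FiniteDimensional.proper ℚ_[q] L
  obtain ⟨a, -, φ, hφ, htend⟩ := (isCompact_closedBall (0 : L) 1).tendsto_subseq
    (x := z) fun s => by rw [mem_closedBall_zero_iff]; exact (hz1 s).le
  obtain ⟨N, hN⟩ := Metric.cauchySeq_iff.1 htend.cauchySeq c hc
  have h := hN (N + 1) (Nat.le_succ N) N le_rfl
  rw [dist_eq_norm] at h
  change ‖(z (φ (N + 1)) : PadicAlgCl q) - z (φ N)‖ < c at h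
  set i := φ (N + 1)
  set j := φ N
  have hij : j < i := hφ (Nat.lt_succ_self N)
  set w := (z i : PadicAlgCl q) / z j
  have hj0 : (z j : PadicAlgCl q) ≠ 0 := (hz j).ne_zero (pow_ne_zero _ hp.ne_zero)
  have hwi : w ^ p ^ (i + 1) = 1 := by
    rw [div_pow, (hz i).pow_eq_one,
      ((hz j).pow_eq_one_iff_dvd _).2 (pow_dvd_pow p (by omega)), div_one]
  have hwi' : w ^ p ^ i ≠ 1 := fun h1 => by
    rw [div_pow, ((hz j).pow_eq_one_iff_dvd _).2 (pow_dvd_pow p (by omega)), div_one,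
      (hz i).pow_eq_one_iff_dvd, Nat.pow_dvd_pow_iff_le_right hp.one_lt] at h1
    omega
  have hw : IsPrimitiveRoot w (p ^ (i + 1)) := by
    rw [IsPrimitiveRoot.iff_orderOf, orderOf_eq_prime_pow hwi' hwi]
  have h1 := (hc' (w ^ p ^ i) (by rw [← pow_mul, ← pow_succ]; exact hwi) hwi').trans
    (norm_sub_one_le hw)
  have h2 : ‖w - 1‖ = ‖(z i : PadicAlgCl q) - z j‖ := by
    rw [show w - 1 = ((z i : PadicAlgCl q) - z j) / z j by rw [sub_div, div_self hj0], norm_div,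
      show ‖(z j : PadicAlgCl q)‖ = 1 from hz1 j, div_one]
  rw [h2] at h1
  exact absurd h (not_lt.2 h1)

attribute [local instance] placePrime

variable {S : Finset Nat.Primes} {H : Subgroup GalQ} (hH : (galLevels ℚ Qbar).ok H)

/-- At a place of `H` some element moves some root of unity of `p`-power order. -/
theorem exists_moves (i : PlaceIdx S H hH) :
    ∃ s : ℕ, ∃ d ∈ placeGroup hH i, localGaloisToGlobal (placeP hH i) d ∉ fixRoots (p ^ s) := by
  obtain ⟨E, hE, rfl⟩ := exists_eq_fixingSubgroup hH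
  have := hE
  set q := placeP hH i
  set g := placeG hH i
  have : IsGalois ℚ_[q] (PadicAlgCl q) := IsAlgClosure.isGalois ℚ_[q] (PadicAlgCl q)
  obtain ⟨s, w, hw, hwL⟩ := exists_notMem (p := p) (locField q (Places.twistEmb q E g))
  refine ⟨s, ?_⟩
  by_contra hne
  push Not at hne
  refine hwL ((InfiniteGalois.fixedField_fixingSubgroup _).le ?_)
  rintro ⟨d, hd⟩
  have : NeZero (p ^ s) := ⟨pow_ne_zero _ (Fact.out : p.Prime).ne_zero⟩
  obtain ⟨η, hη⟩ := HasEnoughRootsOfUnity.exists_primitiveRoot Qbar (p ^ s)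
  obtain ⟨k, -, rfl⟩ :=
    (hη.map_of_injective (padicEmbedding q).toRingHom.injective).eq_pow_of_pow_eq_one hw
  have hd' : d ∈ placeGroup hH i := (Places.twisted_eq_fixingSubgroup q E g).ge hd
  have h1 := hne d hd' η hη.pow_eq_one
  show d ((padicEmbedding q) η ^ k) = (padicEmbedding q) η ^ k
  rw [map_pow, ← padicEmbedding_localGaloisToGlobal, h1]

end Fermat.Agent.Duality.Tower

namespace Fermat.Agent.Duality

open Tower

attribute [local instance] placePrime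

variable {p : ℕ} [Fact p.Prime] {S : Finset Nat.Primes} {H : Subgroup GalQ}

/-- High in the cyclotomic tower some class is nonzero at all places over `S`. -/
theorem exists_localChar (hpS : (⟨p, Fact.out⟩ : Nat.Primes) ∈ S) (hp2 : p ≠ 2)
    (hH : (galLevelsS S).ok H) (hμ : ∀ (h : H) (z : Mu p Qbar), h • z = z) :
    ∃ (H' : Subgroup GalQ) (hH' : (galLevelsS S).ok H'), H' ≤ H ∧
      ∃ χ : Coh.H1 ((galLevelsS S).restrict H') (Mu p Qbar),
        ∀ i : PlaceIdx S H' (galLevels_ok_of_galLevelsS hH'),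
          locS₁ p (galLevels_ok_of_galLevelsS hH') i χ ≠ 0 := by
  classical
  have hp : p.Prime := Fact.out
  have : NeZero p := ⟨hp.ne_zero⟩
  have hHg := galLevels_ok_of_galLevelsS hH
  choose s d hd hmove using exists_moves (p := p) hHg (S := S)
  set t : ℕ := Finset.univ.sup s + 1
  set H' := H ⊓ fixRoots (p ^ t)
  have hH' : (galLevelsS S).ok H' := (galLevelsS S).inf_ok hH (ok_fixRoots hpS t)
  have : NeZero (p ^ (t + 1)) := ⟨pow_ne_zero _ hp.ne_zero⟩
  obtain ⟨η, hη⟩ := HasEnoughRootsOfUnity.exists_primitiveRoot Qbar (p ^ (t + 1))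
  have hη0 : η ≠ 0 := hη.ne_zero (NeZero.ne _)
  let ηx : Lx Qbar := Additive.ofMul (Units.mk0 η hη0)
  have hfix : ∀ g ∈ H', p • ((g : GalQ) • ηx - ηx) = 0 := fun g hg => by
    refine Additive.toMul.injective (Units.ext ?_)
    show (g η / η) ^ p = 1
    rw [div_pow, ← map_pow, hg.2 (η ^ p) (by rw [← pow_mul, ← pow_succ']; exact hη.pow_eq_one),
      div_self (pow_ne_zero _ hη0)]
  let f : H' → Mu p Qbar := fun g => muMk ((g : GalQ) • ηx - ηx) (hfix g g.2)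
  have hfval : ∀ g : H', muVal (f g) = (g : GalQ) • ηx - ηx := fun g => muVal_muMk _ _
  let z : Coh.Z1 ((galLevelsS S).restrict H') (Mu p Qbar) := ⟨f, Coh.mem_Z1.2
    ⟨⟨(fixRoots (p ^ (t + 1))).subgroupOf H', ⟨_, ok_fixRoots hpS (t + 1), le_rfl⟩,
      fun g u hu => muVal_injective (by
        rw [hfval, hfval, Subgroup.coe_mul, mul_smul,
          show (u : GalQ) • ηx = ηx from
            Additive.toMul.injective (Units.ext (hu η hη.pow_eq_one))])⟩,
      fun g h => muVal_injective (by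
        show muVal (f (g * h)) = muVal ((g : GalQ) • f h + f g)
        rw [map_add, muVal_smul, hfval, hfval, hfval, Subgroup.coe_mul, mul_smul, smul_sub]
        abel)⟩⟩
  refine ⟨H', hH', inf_le_left, Coh.H1.mk z, fun i => ?_⟩
  -- the place of `H` below
  set g' := placeG (galLevels_ok_of_galLevelsS hH') i
  obtain ⟨j, e, h, hh, hjq, -, hg'⟩ := exists_placeOfElt_eq hHg i.1 g'
  obtain ⟨⟨q, m⟩, rfl⟩ : ∃ a, a = j := ⟨j, rfl⟩
  subst hjq
  set φ := localGaloisToGlobal ((i.1.1 : Nat.Primes) : ℕ)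
  set r := placeRep S H hHg i.1 m
  change g' = φ e * r * h at hg'
  set d₀ := d ⟨i.1, m⟩
  set d₁ := e * d₀ * e⁻¹
  have hexp : ∀ x : GalQ, ∃ a : ℕ, ∀ u : Qbar, u ^ p ^ (t + 1) = 1 → x u = u ^ a := fun x => by
    obtain ⟨a, -, ha⟩ := hη.eq_pow_of_pow_eq_one (ξ := x η)
      (by rw [← map_pow, hη.pow_eq_one, map_one])
    refine ⟨a, fun u hu => ?_⟩
    obtain ⟨b, -, rfl⟩ := hη.eq_pow_of_pow_eq_one hu
    rw [map_pow, ← ha, ← pow_mul, ← pow_mul, mul_comm]
  have hconj : ∀ (x g : GalQ) (u : Qbar), u ^ p ^ (t + 1) = 1 → (g * x * g⁻¹) u = x u := by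
    intro x g u hu
    obtain ⟨a, ha⟩ := hexp x
    have hv : (g⁻¹ u) ^ p ^ (t + 1) = 1 := by rw [← map_pow, hu, map_one]
    rw [AlgEquiv.mul_apply, AlgEquiv.mul_apply, ha _ hv, map_pow, AlgEquiv.aut_inv,
      AlgEquiv.apply_symm_apply, ← ha u hu]
  have hd₁H : g'⁻¹ * φ d₁ * g' ∈ H := by
    have h1 : r⁻¹ * φ d₀ * r ∈ H := Coh.mem_twisted.1 (hd ⟨i.1, m⟩)
    have h2 := mul_mem (mul_mem (inv_mem hh) h1) hh
    convert h2 using 1
    rw [hg', map_mul, map_mul, map_inv]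
    group
  have hd₁η : φ d₁ η ≠ η := fun h0 => by
    refine hmove ⟨i.1, m⟩ fun u hu => ?_
    have h1 : u ^ p ^ (t + 1) = 1 := by
      obtain ⟨k, hk⟩ := pow_dvd_pow p (show s ⟨i.1, m⟩ ≤ t + 1 from
        (Finset.le_sup (f := s) (Finset.mem_univ (⟨i.1, m⟩ : PlaceIdx S H hHg))).trans (by omega))
      rw [hk, pow_mul, hu, one_pow]
    obtain ⟨b, -, rfl⟩ := hη.eq_pow_of_pow_eq_one h1
    have h3 : φ d₁ η = φ d₀ η := by
      rw [map_mul, map_mul, map_inv]; exact hconj _ _ _ hη.pow_eq_one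
    rw [h0] at h3
    show φ d₀ (η ^ b) = η ^ b
    rw [map_pow, ← h3]
  obtain ⟨a, ha⟩ := hexp (φ d₁)
  have hpa : (p : ℤ) ∣ (a : ℤ) - 1 := by
    have hu : (η ^ p ^ t) ^ p = 1 := by rw [← pow_mul, ← pow_succ]; exact hη.pow_eq_one
    have h2 : φ d₁ (η ^ p ^ t) = η ^ p ^ t := by
      let w : Mu p Qbar := muMk (Additive.ofMul (Units.mk0 (η ^ p ^ t) (pow_ne_zero _ hη0)))
        (Additive.toMul.injective (Units.ext hu))
      have h3 := congrArg (fun v : Mu p Qbar => (((muVal v).toMul : Qbarˣ) : Qbar))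
        (hμ ⟨_, hd₁H⟩ w)
      change (g'⁻¹ * φ d₁ * g') (η ^ p ^ t) = η ^ p ^ t at h3
      have h4 := hconj (φ d₁) g'⁻¹ (η ^ p ^ t) (by
        rw [← pow_mul, mul_comm, pow_mul, hη.pow_eq_one, one_pow])
      rw [inv_inv] at h4
      rw [← h4, h3]
    rw [ha _ (by rw [← pow_mul, mul_comm, pow_mul, hη.pow_eq_one, one_pow]), ← pow_mul] at h2
    have h5 : η ^ (((p : ℤ) ^ t) * ((a : ℤ) - 1)) = 1 := by
      rw [mul_sub, mul_one, zpow_sub₀ hη0, ← Nat.cast_pow, ← Nat.cast_mul, zpow_natCast,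
        zpow_natCast, h2, div_self (pow_ne_zero _ hη0)]
    rw [hη.zpow_eq_one_iff_dvd, Nat.cast_pow, pow_succ, mul_dvd_mul_iff_left
      (pow_ne_zero _ (Int.natCast_ne_zero.2 hp.ne_zero))] at h5
    exact h5
  have hiff : ∀ b : ℕ, η ^ b = η ↔ ((p : ℤ) ^ (t + 1)) ∣ (b : ℤ) - 1 := fun b => by
    rw [← Nat.cast_pow, ← hη.zpow_eq_one_iff_dvd, zpow_sub₀ hη0, zpow_one, zpow_natCast,
      div_eq_one_iff_eq hη0]
  have hpow : ∀ n : ℕ, φ (d₁ ^ n) η = η ^ a ^ n := by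
    intro n
    induction n with
    | zero => rw [pow_zero, map_one, pow_zero, pow_one]; rfl
    | succ n ih =>
      rw [pow_succ', map_mul, AlgEquiv.mul_apply, ih, map_pow, ha _ hη.pow_eq_one, ← pow_mul,
        ← pow_succ']
  have hex : ∃ k, η ^ a ^ p ^ k = η := by
    refine ⟨t, (hiff _).2 ?_⟩
    have h := dvd_sub_pow_of_dvd_sub hpa t
    rw [one_pow] at h
    rw [Nat.cast_pow]
    exact h
  have hk0 : Nat.find hex ≠ 0 := fun h0 => hd₁η (by
    have h1 := Nat.find_spec hex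
    rw [h0, pow_zero, pow_one, ← ha _ hη.pow_eq_one] at h1
    exact h1)
  obtain ⟨k, hk⟩ := Nat.exists_eq_succ_of_ne_zero hk0
  set n := p ^ k
  have hn1 : η ^ a ^ n ≠ η := Nat.find_min hex (by omega)
  have hn2 : η ^ a ^ (n * p) = η := by
    rw [← pow_succ]
    have h := Nat.find_spec hex
    rwa [hk] at h
  set c : ℤ := ((a ^ n : ℕ) : ℤ)
  have hc1 : (p : ℤ) ∣ c - 1 := by
    refine hpa.trans ?_
    show (a : ℤ) - 1 ∣ ((a ^ n : ℕ) : ℤ) - 1
    rw [Nat.cast_pow]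
    conv_rhs => rw [← one_pow n]
    exact sub_dvd_pow_sub_pow _ _ n
  have hct : ((p : ℤ) ^ t) ∣ c - 1 := by
    have h := (hiff _).1 hn2
    rw [pow_mul, Nat.cast_pow] at h
    have hcp : ¬ (p : ℤ) ∣ c := fun hdiv => hp.not_dvd_one
      (Int.natCast_dvd_natCast.1 (by simpa using dvd_sub hdiv hc1))
    have he := Int.emultiplicity_pow_sub_pow (x := c) (y := 1) hp (hp.odd_of_ne_two hp2) hc1 hcp p
    rw [one_pow] at he
    have h2 := le_emultiplicity_of_pow_dvd h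
    rw [he, FiniteMultiplicity.emultiplicity_self (Nat.finiteMultiplicity_iff.2
      ⟨hp.ne_one, hp.pos⟩), Nat.cast_succ] at h2
    exact pow_dvd_of_le_emultiplicity ((ENat.add_le_add_iff_right ENat.one_ne_top).1 h2)
  have hdH : g'⁻¹ * φ (d₁ ^ n) * g' ∈ H := by
    have h2 := pow_mem hd₁H n
    convert h2 using 1
    rw [map_pow]
    conv_rhs => rw [show g'⁻¹ * φ d₁ * g' = g'⁻¹ * φ d₁ * g'⁻¹⁻¹ by rw [inv_inv], conj_pow, inv_inv]
  have hdF : g'⁻¹ * φ (d₁ ^ n) * g' ∈ fixRoots (p ^ t) := by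
    intro u hu
    have hu' : u ^ p ^ (t + 1) = 1 := by rw [pow_succ, pow_mul, hu, one_pow]
    obtain ⟨b, -, rfl⟩ := hη.eq_pow_of_pow_eq_one hu'
    have h4 := hconj (φ (d₁ ^ n)) g'⁻¹ (η ^ b) hu'
    rw [inv_inv] at h4
    rw [h4, map_pow, hpow, ← pow_mul, mul_comm, pow_mul]
    rw [← pow_mul, hη.pow_eq_one_iff_dvd, pow_succ] at hu
    obtain ⟨b', rfl⟩ : p ∣ b :=
      Nat.dvd_of_mul_dvd_mul_right (pow_pos hp.pos t) (by rwa [mul_comm (p ^ t) p] at hu)
    rw [← pow_mul, ← zpow_natCast, ← zpow_natCast]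
    refine mul_inv_eq_one₀ (zpow_ne_zero _ hη0) |>.1 ?_
    rw [← zpow_neg, ← zpow_add₀ hη0, hη.zpow_eq_one_iff_dvd]
    obtain ⟨e', he'⟩ := hct
    exact ⟨e' * b',
      by push_cast; rw [← Nat.cast_pow a n]; linear_combination (p : ℤ) * (b' : ℤ) * he'⟩
  have hmem : d₁ ^ n ∈ placeGroup (galLevels_ok_of_galLevelsS hH') i :=
    Coh.mem_twisted.2 ⟨hdH, hdF⟩
  intro h0
  obtain ⟨m₀, hm₀⟩ := Coh.H1.mk_eq_zero.1 h0
  have h5 := hm₀ (⟨d₁ ^ n, hmem⟩ : placeGroup (galLevels_ok_of_galLevelsS hH') i)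
  rw [smul_muLoc (galLevels_ok_of_galLevelsS hH')
    (fun h z => hμ ⟨h, inf_le_left (a := H) h.2⟩ z) i, sub_self] at h5
  set dd : H' := ⟨g'⁻¹ * φ (d₁ ^ n) * g', hdH, hdF⟩
  change muEmb ((i.1.1 : Nat.Primes) : ℕ) (g' • f dd) = 0 at h5
  have h6 : f dd = 0 :=
    (smul_eq_zero_iff_eq g').1 ((muEmb_bijective _).1 (h5.trans (map_zero _).symm))
  have h7 := congrArg muVal h6
  rw [hfval, map_zero, sub_eq_zero] at h7
  have h8 : (g'⁻¹ * φ (d₁ ^ n) * g') η = η :=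
    congrArg (fun v : Lx Qbar => ((v.toMul : Qbarˣ) : Qbar)) h7
  have h4 := hconj (φ (d₁ ^ n)) g'⁻¹ η hη.pow_eq_one
  rw [inv_inv] at h4
  exact hn1 ((hpow n).symm.trans (h4.symm.trans h8))

end Fermat.Agent.Duality

end
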