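import Fermat.Agent.Duality.Base.GlobalBase
import Fermat.Agent.Duality.Base.LocalBase
import Fermat.Agent.Duality.Base.LocalDual
import Fermat.Agent.Duality.Base.Tower
import Fermat.Agent.Duality.Base.Descend
import Fermat.Agent.Duality.Places.Lagrangian

/-!
# The inputs of global duality exist
-/

set_option autoImplicit false

noncomputable section

namespace Fermat.Agent.Duality

variable {p : ℕ} [Fact p.Prime]

attribute [local instance] placePrime

/-- **The inputs of global duality for a finite set of primes containing `p`.** -/
theorem nonempty_globalInputs (hp2 : p ≠ 2) (S : Finset Nat.Primes) [Nonempty ↥S]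
    (hpS : (⟨p, Fact.out⟩ : Nat.Primes) ∈ S) : Nonempty (GlobalInputs p S) := by
  have hI : IsInvFamily (Places.invFam p) := Places.isInvFamily hp2
  have hd : IsLocalDual (Places.invFam p) := isLocalDual hI
  have hL : HasLagrangians (Places.invFam p) := Places.hasLagrangians hp2
  have hμS := isSmooth_MuS (p := p) hpS
  have hchar : HasLocalChars p S := fun H hH hμ => exists_localChar hpS hp2 hH hμ
  have hdesc : HasCupDescent S (Places.invFam p) := fun S' hSS H hH hμ z₀ hz χ a hloc =>
    exists_cup_descend hSS hH hμ hz hpS hI χ a hloc
  obtain ⟨ι, hι⟩ := exists_isIota hμS (fun q : ↥S => Places.invFam p (q.1 : ℕ))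
    (hI.reciprocity S hpS)
  exact ⟨{
    smooth := hμS
    inv := fun q => Places.invFam p (q.1 : ℕ)
    ι := ι
    hι := hι
    base := isDualityBase_global hι hpS hI hd hL (Places.hasseNorm hp2) hchar hdesc
    sep := fun H hH hμ c hc0 hc =>
      exists_theta₂_ne_zero hι hpS hL hchar hdesc H hH hμ c hc0 hc
    localBase := fun q => isDualityBase_local (q.1 : ℕ) hI hd }⟩

end Fermat.Agent.Duality

end
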