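import Fermat.Agent.Duality.PlaceSum

/-!
# The places of an open subgroup as double cosets; localisations of classes for `S`-levels
-/

set_option autoImplicit false

noncomputable section

namespace Fermat.Agent.Duality

variable {p : ℕ}

section Cosets

variable {S : Finset Nat.Primes} {H : Subgroup GalQ} (hH : (galLevels ℚ Qbar).ok H)

attribute [local instance] placePrime

/-- Every element lies in the double coset of a place. -/
lemma exists_place_eq (q : ↥S) (x : GalQ) :
    ∃ (j : Fin (placeCount S H hH q)) (d : GalLoc ((q.1 : Nat.Primes) : ℕ)), ∃ h ∈ H,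
      x = localGaloisToGlobal ((q.1 : Nat.Primes) : ℕ) d * placeRep S H hH q j * h := by
  obtain ⟨⟨j, c⟩, hc⟩ := (placeRep_bijective S H hH q).2 (x : GalQ ⧸ H)
  refine ⟨j, c.out, _, QuotientGroup.eq.mp hc, ?_⟩
  rw [mul_inv_cancel_left]

/-- Two representatives in the same double coset are equal. -/
lemma place_unique (q : ↥S) {j k : Fin (placeCount S H hH q)}
    {d e : GalLoc ((q.1 : Nat.Primes) : ℕ)} {h h' : GalQ} (hh : h ∈ H) (hh' : h' ∈ H)
    (heq : localGaloisToGlobal ((q.1 : Nat.Primes) : ℕ) d * placeRep S H hH q j * h =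
      localGaloisToGlobal ((q.1 : Nat.Primes) : ℕ) e * placeRep S H hH q k * h') : j = k := by
  set φ := localGaloisToGlobal ((q.1 : Nat.Primes) : ℕ)
  set d' : GalLoc ((q.1 : Nat.Primes) : ℕ) := e⁻¹ * d
  have h1 : φ d' * placeRep S H hH q j = placeRep S H hH q k * (h' * h⁻¹) := by
    rw [map_mul, map_inv, mul_assoc, inv_mul_eq_iff_eq_mul]
    calc φ d * placeRep S H hH q j = φ d * placeRep S H hH q j * h * h⁻¹ := by
          rw [mul_inv_cancel_right]
      _ = _ := by rw [heq]; simp only [mul_assoc]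
  have h2 : ∀ (i : Fin (placeCount S H hH q)) (d : GalLoc ((q.1 : Nat.Primes) : ℕ)),
      Coh.repsMap φ H (placeRep S H hH q) ⟨i, (d : GalLoc _ ⧸ Coh.twisted φ _ H)⟩ =
        ((φ d * placeRep S H hH q i : GalQ) : GalQ ⧸ H) := fun i d => by
    obtain ⟨t, ht⟩ := QuotientGroup.mk_out_eq_mul (Coh.twisted φ (placeRep S H hH q i) H) d
    show ((φ (d : GalLoc _ ⧸ Coh.twisted φ (placeRep S H hH q i) H).out * _ : GalQ) : GalQ ⧸ H) = _
    rw [ht, map_mul, QuotientGroup.eq]
    simpa [mul_assoc] using Coh.mem_twisted.mp (inv_mem t.2)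
  have h3 := (placeRep_bijective S H hH q).1 (a₁ := ⟨j, (d' : GalLoc _ ⧸ _)⟩)
    (a₂ := ⟨k, ((1 : GalLoc ((q.1 : Nat.Primes) : ℕ)) : GalLoc _ ⧸ _)⟩) (by
      rw [h2, h2, map_one, one_mul, h1, QuotientGroup.eq, mul_inv_rev, mul_assoc,
        inv_mul_cancel, mul_one]
      exact inv_mem (mul_mem hh' (inv_mem hh)))
  exact congrArg Sigma.fst h3

/-- The index of the place of an element. -/
def placeOfElt (q : ↥S) (x : GalQ) : PlaceIdx S H hH := ⟨q, (exists_place_eq hH q x).choose⟩

/-- The index does not depend on the decomposition. -/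
lemma placeOfElt_eq (i : PlaceIdx S H hH) (d : GalLoc (placeP hH i)) {h : GalQ} (hh : h ∈ H) :
    placeOfElt hH i.1 (localGaloisToGlobal (placeP hH i) d * placeG hH i * h) = i := by
  obtain ⟨q, j⟩ := i
  obtain ⟨e, h', hh', he⟩ :=
    (exists_place_eq hH q (localGaloisToGlobal ((q.1 : Nat.Primes) : ℕ) d *
      placeRep S H hH q j * h)).choose_spec
  exact congrArg (Sigma.mk q) (place_unique hH q hh hh' he).symm

/-- The place of a representative. -/
lemma placeOfElt_placeG (i : PlaceIdx S H hH) : placeOfElt hH i.1 (placeG hH i) = i := by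
  have h := placeOfElt_eq hH i 1 (one_mem H)
  rwa [map_one, one_mul, mul_one] at h

/-- Decomposition with the chosen index. -/
lemma exists_placeOfElt_eq (q : ↥S) (x : GalQ) :
    ∃ (i : PlaceIdx S H hH) (d : GalLoc (placeP hH i)), ∃ h ∈ H, i.1 = q ∧
      placeOfElt hH q x = i ∧
      x = localGaloisToGlobal (placeP hH i) d * placeG hH i * h := by
  obtain ⟨d, h, hh, he⟩ := (exists_place_eq hH q x).choose_spec
  exact ⟨⟨q, (exists_place_eq hH q x).choose⟩, d, h, hh, rfl, rfl, he⟩

lemma placeOfElt_smul_left (q : ↥S) (d : GalLoc ((q.1 : Nat.Primes) : ℕ)) (x : GalQ) :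
    placeOfElt hH q (localGaloisToGlobal ((q.1 : Nat.Primes) : ℕ) d * x) = placeOfElt hH q x := by
  obtain ⟨i, e, h, hh, rfl, hi, rfl⟩ := exists_placeOfElt_eq hH q x
  rw [← mul_assoc, ← mul_assoc, ← map_mul, placeOfElt_eq hH i _ hh, placeOfElt_eq hH i _ hh]

lemma placeOfElt_mul_right (q : ↥S) (x : GalQ) {h : GalQ} (hh : h ∈ H) :
    placeOfElt hH q (x * h) = placeOfElt hH q x := by
  obtain ⟨i, e, h', hh', rfl, hi, rfl⟩ := exists_placeOfElt_eq hH q x
  rw [mul_assoc, placeOfElt_eq hH i _ (mul_mem hh' hh), placeOfElt_eq hH i _ hh']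

end Cosets

section Loc

variable (p) [Fact p.Prime] {S : Finset Nat.Primes} {H : Subgroup GalQ}
  (hH : (galLevels ℚ Qbar).ok H)

attribute [local instance] placePrime

/-- Localisation in degree one of classes for `S`-levels. -/
def locS₁ (i : PlaceIdx S H hH) :
    Coh.H1 ((galLevelsS S).restrict H) (Mu p Qbar) →+ H1μ p (placeGroup hH i) :=
  Coh.locTwist₁ (compat_localGaloisToGlobal_S (placeP hH i) S)
    (isEquivariant_muEmb (placeP hH i)) (placeG hH i) H

/-- Localisation in degree two of classes for `S`-levels. -/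
def locS₂ (i : PlaceIdx S H hH) :
    Coh.H2 ((galLevelsS S).restrict H) (Mu p Qbar) →+ H2μ p (placeGroup hH i) :=
  Coh.locTwist₂ (compat_localGaloisToGlobal_S (placeP hH i) S)
    (isEquivariant_muEmb (placeP hH i)) (placeG hH i) H

omit [Fact (Nat.Prime p)] in
/-- Localisation commutes with inflation. -/
lemma locμ₁_inflS₁ (i : PlaceIdx S H hH) (a : Coh.H1 ((galLevelsS S).restrict H) (Mu p Qbar)) :
    locμ₁ p (placeP hH i) H (placeG hH i) (inflS₁ S H a) = locS₁ p hH i a := by
  obtain ⟨z, rfl⟩ := Coh.H1.mk_surjective a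
  rfl

variable {p}

/-- The invariant of the corestriction from a place. -/
def invPlace (I : InvFam p) (i : PlaceIdx S H hH) : H2μ p (placeGroup hH i) →+ ZMod p :=
  (I (placeP hH i)).comp (corLoc _ _ (ok_placeGroup hH i))

lemma placePair_apply (hμ : ∀ (h : H) (z : Mu p Qbar), h • z = z) {z₀ : Mu p Qbar} (hz : z₀ ≠ 0)
    (I : InvFam p) (i : PlaceIdx S H hH) (x y : H1μ p (placeGroup hH i)) :
    placePair hH hμ hz I i x y = invPlace hH I i (Coh.cup₁₁
      (isPairing_muPair (placeZeta_ne_zero hH hz i) (smul_muLoc hH hμ i))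
      (isSmooth_restrict isSmooth_Mu (placeGroup hH i)) x y) := rfl

/-- For an invariant family the invariant at each place is injective. -/
lemma invPlace_injective {I : InvFam p} (hI : IsInvFamily I) (i : PlaceIdx S H hH) :
    Function.Injective (invPlace hH I i) :=
  (hI.bijective (placeP hH i)).1.comp (hI.cor_injective _ _ _)

end Loc

end Fermat.Agent.Duality

end
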