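import Fermat.Agent.Duality.Base.PlaceShapiro

/-!
# The duality map in degree one through the places
-/

set_option autoImplicit false

noncomputable section

namespace Fermat.Agent.Duality

variable {p : ℕ} [Fact p.Prime] {S : Finset Nat.Primes} {H : Subgroup GalQ}
  (hH : (galLevelsS S).ok H) (hμ : ∀ (h : H) (z : Mu p Qbar), h • z = z)
  {z₀ : Mu p Qbar}

attribute [local instance] placePrime

variable (p) in
/-- The projection of homomorphisms to the quotient by the diagonal. -/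
def projHom : Coh.H1 ((galLevelsS S).restrict H) (Coh.HomMod (Mu p Qbar) (PlaceJ p S)) →+
    Coh.H1 ((galLevelsS S).restrict H) (Coh.HomMod (Mu p Qbar) (PlaceC p S)) :=
  Coh.H1.map (Coh.Levels.compat_id _)
    (Coh.HomMod.isEquivariant_post (M := Mu p Qbar) (φ := MonoidHom.id H) (fun _ _ => rfl)
      (isEquivariant_placeProjH H))

/-- The duality map in degree one on classes from the module of places. -/
theorem theta₁_projHom [Nonempty ↥S] {hμS : Coh.IsSmooth (galLevelsS S) (Mu p Qbar)}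
    {I : InvFam p} {ι : Coh.H2 (galLevelsS S) (PlaceC p S) →+ ZMod p}
    (hι : IsIota hμS (fun q : ↥S => I (q.1 : ℕ)) ι) (hz : z₀ ≠ 0)
    (hs : Coh.IsSmooth ((galLevelsS S).restrict H) (Mu p Qbar))
    (a : Coh.H1 ((galLevelsS S).restrict H) (Mu p Qbar))
    (e : Coh.H1 ((galLevelsS S).restrict H) (Coh.HomMod (Mu p Qbar) (PlaceJ p S))) :
    Coh.theta₁ (Coh.iotaSub ι H hH) hs a (projHom p e) =
      sumPair (okAll hH) hμ hz I (fun i => locJ hH hμ z₀ i e)
        (fun i => locS₁ p (okAll hH) i a) := by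
  obtain ⟨w, rfl⟩ := Coh.H1.mk_surjective e
  obtain ⟨z, rfl⟩ := Coh.H1.mk_surjective a
  show Coh.iotaSub ι H hH (Coh.H2.map (Coh.Levels.compat_id _)
    (isEquivariant_placeProjH (p := p) (S := S) H)
    (Coh.cup₁₁ (P := Coh.HomMod.eval) Coh.isPairing_eval hs (Coh.H1.mk w) (Coh.H1.mk z))) = _
  refine (iota_cor_mapπ hH hι _).trans (Finset.sum_congr rfl fun i _ => ?_)
  refine congrArg (invPlace (okAll hH) I i) (congrArg Coh.H2.mk
    (Subtype.ext (funext fun d => funext fun d' => ?_)))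
  set t := Coh.twistHom (localGaloisToGlobal (placeP (okAll hH) i)) (placeG (okAll hH) i) H
  show muEmb _ (Coh.PlaceMod.val i.1 (placeG (okAll hH) i)
      ((w : H → Coh.HomMod (Mu p Qbar) (PlaceJ p S)) (t d) (t d • (z : H → Mu p Qbar) (t d')))) =
    muPair (placeZeta_ne_zero (okAll hH) hz i)
      (muEmb _ (Coh.PlaceMod.val i.1 (placeG (okAll hH) i)
        ((w : H → Coh.HomMod (Mu p Qbar) (PlaceJ p S)) (t d) z₀)))
      (d • muEmb _ (placeG (okAll hH) i • (z : H → Mu p Qbar) (t d')))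
  obtain ⟨k, hk⟩ := exists_nsmul_mu hz ((z : H → Mu p Qbar) (t d'))
  obtain ⟨j, hj⟩ := exists_nsmul_mu (placeZeta_ne_zero (okAll hH) hz i)
    (muEmb (placeP (okAll hH) i) (Coh.PlaceMod.val i.1 (placeG (okAll hH) i)
        ((w : H → Coh.HomMod (Mu p Qbar) (PlaceJ p S)) (t d) z₀)))
  rw [hμ, smul_muLoc (okAll hH) hμ i d, hk, map_nsmul, map_nsmul, map_nsmul,
    smul_comm (placeG (okAll hH) i) k z₀, map_nsmul (muEmb (placeP (okAll hH) i)), hj,
    muPair_pow, ← mul_nsmul', mul_comm k j]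

end Fermat.Agent.Duality

end
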