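import Fermat.Agent.Duality.Base.PlaceHom

/-!
# The duality maps on classes coming from the module of places
-/

set_option autoImplicit false

noncomputable section

namespace Fermat.Agent.Duality

variable {p : ℕ} [Fact p.Prime] {S : Finset Nat.Primes} {H : Subgroup GalQ}
  (hH : (galLevelsS S).ok H)

attribute [local instance] placePrime

omit [Fact (Nat.Prime p)] in
/-- The projection to the quotient by the diagonal commutes with a subgroup. -/
lemma isEquivariant_placeProjH (H : Subgroup GalQ) :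
    Coh.IsEquivariant (MonoidHom.id H) (Coh.placeProj (galLevelsS S) (locφ S) (Mu p Qbar)) :=
  fun h F => Coh.isEquivariant_placeProj (galLevelsS S) (locφ S) (Mu p Qbar) (h : GalQ) F

/-- The value at a place, through the embedding of `ℚ̄`. -/
def placeEval (i : PlaceIdx S H (okAll hH)) :
    PlaceJ p S →+ Mu p (PadicAlgCl (placeP (okAll hH) i)) :=
  (muEmb (placeP (okAll hH) i)).comp (Coh.PlaceMod.val i.1 (placeG (okAll hH) i))

omit [Fact (Nat.Prime p)] in
lemma isEquivariant_placeEval (i : PlaceIdx S H (okAll hH)) :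
    Coh.IsEquivariant (Coh.twistHom (localGaloisToGlobal (placeP (okAll hH) i))
      (placeG (okAll hH) i) H) (placeEval (p := p) hH i) := fun d F => by
  show muEmb (placeP (okAll hH) i) (Coh.PlaceMod.val i.1 (placeG (okAll hH) i)
      (((Coh.twistHom _ (placeG (okAll hH) i) H d : H) : GalQ) • F)) =
    (d : GalLoc (placeP (okAll hH) i)) • muEmb (placeP (okAll hH) i)
      (Coh.PlaceMod.val i.1 (placeG (okAll hH) i) F)
  rw [Coh.PlaceMod.val_smul, Coh.coe_twistHom, ← isEquivariant_muEmb, ← mul_assoc, ← mul_assoc,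
    mul_inv_cancel, one_mul, Coh.PlaceMod.val_left]

section Iota

variable [Nonempty ↥S] {hμS : Coh.IsSmooth (galLevelsS S) (Mu p Qbar)} {I : InvFam p}
  {ι : Coh.H2 (galLevelsS S) (PlaceC p S) →+ ZMod p}
  (hι : IsIota hμS (fun q : ↥S => I (q.1 : ℕ)) ι)

include hι in
/-- The functional on corestrictions of classes with values in the module of places. -/
lemma iota_cor_mapπ (y : Coh.H2 ((galLevelsS S).restrict H) (PlaceJ p S)) :
    Coh.iotaSub ι H hH (Coh.H2.map (Coh.Levels.compat_id _)
        (isEquivariant_placeProjH (p := p) (S := S) H) y) =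
      ∑ i, invPlace (okAll hH) I i (Coh.H2.map
        (Coh.compat_twistHom (compat_localGaloisToGlobal_S (placeP (okAll hH) i) S)
          (placeG (okAll hH) i) H) (isEquivariant_placeEval hH i) y) := by
  let := (galLevelsS S).fintypeQuot hH
  show ι (Coh.cor₂ H hH _) = _
  rw [Coh.cor₂_map H hH (Coh.isEquivariant_placeProj (galLevelsS S) (locφ S) (Mu p Qbar))]
  refine (hι _).trans ((Coh.placeSum_apply _ _ _ _).trans ?_)
  rw [Fintype.sum_sigma]
  refine Finset.sum_congr rfl fun q _ => ?_
  let : ∀ j, Fintype (GalLoc ((q.1 : Nat.Primes) : ℕ) ⧸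
      Coh.twisted (localGaloisToGlobal ((q.1 : Nat.Primes) : ℕ)) (placeRep S H (okAll hH) q j) H) :=
    fun j => (galLevels _ _).fintypeQuot (ok_placeGroup (okAll hH) ⟨q, j⟩)
  rw [Coh.map_cor₂ (compat_localGaloisToGlobal_S ((q.1 : Nat.Primes) : ℕ) S)
    (Coh.PlaceMod.isEquivariant_ev (𝓛 := galLevelsS S) (φ := locφ S) q
      (isEquivariant_muEmb (p := p) ((q.1 : Nat.Primes) : ℕ)))
    (r := placeRep S H (okAll hH) q) hH Coh.PlaceMod.isSmooth
    (placeRep_bijective S H (okAll hH) q) y, map_sum]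
  refine Finset.sum_congr rfl fun j _ => ?_
  show I _ (Coh.cor₂ _ _ _) = I _ (Coh.cor₂ _ _ _)
  refine congrArg _ (congrArg _ ?_)
  obtain ⟨z, rfl⟩ := Coh.H2.mk_surjective y
  refine congrArg Coh.H2.mk (Subtype.ext (funext fun d => funext fun d' => ?_))
  show muEmb _ (Coh.PlaceMod.val q 1 (placeRep S H (okAll hH) q j •
    (z : H → H → PlaceJ p S) _ _)) = muEmb _ (Coh.PlaceMod.val q _ _)
  rw [Coh.PlaceMod.val_smul, one_mul]

variable (hμ : ∀ (h : H) (z : Mu p Qbar), h • z = z)

include hι hμ in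
/-- The duality map in degree two on the homomorphisms into the module of places. -/
theorem theta₂_placeFn (x : Coh.H2 ((galLevelsS S).restrict H) (Mu p Qbar))
    (n : PlaceIdx S H (okAll hH) → ZMod p) :
    Coh.theta₂ (Coh.iotaSub ι H hH) x
        ⟨Coh.HomMod.post (Coh.placeProj (galLevelsS S) (locφ S) (Mu p Qbar)) (placeFn hH hμ n),
          (Coh.HomMod.isEquivariant_post (fun _ _ => rfl)
            (isEquivariant_placeProjH (p := p) (S := S) H)).map_inv
              (placeFn hH hμ n).2⟩ =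
      ∑ i, n i * invPlace (okAll hH) I i (locS₂ p (okAll hH) i x) := by
  obtain ⟨z, rfl⟩ := Coh.H2.mk_surjective x
  show Coh.iotaSub ι H hH (Coh.H2.map (Coh.Levels.compat_id _)
    (isEquivariant_placeProjH (p := p) (S := S) H)
    (Coh.applyInv (Coh.H2.mk z) (placeFn hH hμ n))) = _
  refine (iota_cor_mapπ hH hι _).trans (Finset.sum_congr rfl fun i _ => ?_)
  have h : Coh.H2.map (Coh.compat_twistHom (compat_localGaloisToGlobal_S (placeP (okAll hH) i) S)
      (placeG (okAll hH) i) H) (isEquivariant_placeEval hH i)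
      (Coh.applyInv (Coh.H2.mk z) (placeFn hH hμ n)) =
        (n i).val • locS₂ p (okAll hH) i (Coh.H2.mk z) := by
    rw [locS₂, Coh.locTwist₂, ← map_nsmul, ← map_nsmul]
    refine congrArg Coh.H2.mk (Subtype.ext (funext fun d => funext fun d' => ?_))
    show muEmb _ (Coh.PlaceMod.val i.1 (placeG (okAll hH) i)
      ((placeFn hH hμ n : Coh.HomMod (Mu p Qbar) (PlaceJ p S)) _)) =
        muEmb _ (placeG (okAll hH) i • ((n i).val • (z : H → H → Mu p Qbar) _ _))
    rw [val_placeFn, placeOfElt_placeG, smul_comm]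
    rfl
  rw [h, map_nsmul, nsmul_eq_mul, ZMod.natCast_zmod_val]

end Iota

end Fermat.Agent.Duality

end
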