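import Fermat.Agent.Duality.Base.Witness
import Fermat.Agent.Duality.Base.PlaceFormula

/-!
# Separation of invariant homomorphisms by classes in degree two
-/

set_option autoImplicit false

noncomputable section

namespace Fermat.Agent.Duality

variable {p : ℕ} [Fact p.Prime] {S : Finset Nat.Primes}

attribute [local instance] placePrime

variable (p S) in
/-- Every open subgroup contains one over which some character is nowhere locally trivial. -/
def HasLocalChars : Prop :=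
  ∀ (H : Subgroup GalQ) (_ : (galLevelsS S).ok H), (∀ (h : H) (z : Mu p Qbar), h • z = z) →
    ∃ (H' : Subgroup GalQ) (hH' : (galLevelsS S).ok H'), H' ≤ H ∧
      ∃ χ : Coh.H1 ((galLevelsS S).restrict H') (Mu p Qbar),
        ∀ i : PlaceIdx S H' (okAll hH'), locS₁ p (okAll hH') i χ ≠ 0

variable (S) in
/-- Cup products locally trivial outside `S` come from classes for `S`-levels. -/
def HasCupDescent (I : InvFam p) : Prop :=
  ∀ (S' : Finset Nat.Primes), S ⊆ S' → ∀ (H : Subgroup GalQ) (hH : (galLevelsS S).ok H)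
    (hμ : ∀ (h : H) (z : Mu p Qbar), h • z = z) (z₀ : Mu p Qbar) (hz : z₀ ≠ 0)
    (χ : Coh.H1 ((galLevelsS S).restrict H) (Mu p Qbar))
    (a : Coh.H1 ((galLevelsS S').restrict H) (Mu p Qbar)),
    (∀ i : PlaceIdx S' H (okAll hH), i.1.1 ∉ S → placePair (okAll hH) hμ hz I i
      (locμ₁ p (placeP (okAll hH) i) H (placeG (okAll hH) i) (inflS₁ S' H a))
      (locμ₁ p (placeP (okAll hH) i) H (placeG (okAll hH) i) (inflS₁ S H χ)) = 0) →
    ∃ x : Coh.H2 ((galLevelsS S).restrict H) (Mu p Qbar), ∀ i : PlaceIdx S H (okAll hH),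
      invPlace (okAll hH) I i (locS₂ p (okAll hH) i x) = placePair (okAll hH) hμ hz I i
        (locμ₁ p (placeP (okAll hH) i) H (placeG (okAll hH) i) (inflS₁ S' H a))
        (locμ₁ p (placeP (okAll hH) i) H (placeG (okAll hH) i) (inflS₁ S H χ))

section Unr

variable {H : Subgroup GalQ} (hH : (galLevelsS S).ok H) (hμ : ∀ (h : H) (z : Mu p Qbar), h • z = z)

omit [Fact (Nat.Prime p)] in
include hμ in
/-- Classes for `S`-levels are unramified outside `S`. -/
lemma locμ₁_inflS₁_mem_unr {S' : Finset Nat.Primes} (i : PlaceIdx S' H (okAll hH))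
    (hi : i.1.1 ∉ S) (b : Coh.H1 ((galLevelsS S).restrict H) (Mu p Qbar)) :
    locμ₁ p (placeP (okAll hH) i) H (placeG (okAll hH) i) (inflS₁ S H b) ∈
      unrClass (placeP (okAll hH) i) (placeGroup (okAll hH) i) := by
  obtain ⟨z, rfl⟩ := Coh.H1.mk_surjective b
  refine ⟨Coh.Z1.map (Coh.compat_twistHom (compat_localGaloisToGlobal (placeP (okAll hH) i))
    (placeG (okAll hH) i) H) (Coh.isEquivariant_twistMap (isEquivariant_muEmb _) _ _)
    ⟨(z : H → Mu p Qbar), ?_, z.2.2⟩, fun d hd => ?_, rfl⟩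
  · obtain ⟨U, ⟨V, hV, hVU⟩, hzU⟩ := z.2.1
    exact ⟨U, ⟨V, galLevels_ok_of_galLevelsS hV, hVU⟩, hzU⟩
  · show muEmb (placeP (okAll hH) i) (placeG (okAll hH) i •
      (z : H → Mu p Qbar) (Coh.twistHom _ (placeG (okAll hH) i) H d)) = 0
    obtain ⟨hu, hzu⟩ := conj_inertiaLoc_mem (q := placeP (okAll hH) i) hi (ok_z1Ker hH hμ z)
      (placeG (okAll hH) i) hd
    rw [show Coh.twistHom _ (placeG (okAll hH) i) H d = (⟨_, hu⟩ : H) from Subtype.ext rfl, hzu,
      smul_zero, map_zero]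

end Unr

/-- Multiples of prime order classes determine the coefficient. -/
lemma natCast_eq_of_nsmul_eq {X : Type} [AddCommGroup X] {x : X} (hp : p • x = 0) (hx : x ≠ 0)
    {a b : ℕ} (h : a • x = b • x) : (a : ZMod p) = (b : ZMod p) := by
  rw [ZMod.natCast_eq_natCast_iff, ← addOrderOf_eq_prime hp hx]
  exact nsmul_eq_nsmul_iff_modEq.mp h

seal placePair in
/-- An element with non-constant scalars is separated by a cup product. -/
theorem exists_cup_ne_zero {H : Subgroup GalQ} (hH : (galLevelsS S).ok H)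
    (hμ : ∀ (h : H) (z : Mu p Qbar), h • z = z) {z₀ : Mu p Qbar} (hz : z₀ ≠ 0)
    (_hpS : (⟨p, Fact.out⟩ : Nat.Primes) ∈ S) {I : InvFam p} (hL : HasLagrangians I)
    (χ : Coh.H1 ((galLevelsS S).restrict H) (Mu p Qbar))
    (hχ : ∀ i : PlaceIdx S H (okAll hH), locS₁ p (okAll hH) i χ ≠ 0)
    (n : PlaceIdx S H (okAll hH) → ZMod p) (hn : ∀ k : ZMod p, ∃ i, n i ≠ k) :
    ∃ S', S ⊆ S' ∧ ∃ a : Coh.H1 ((galLevelsS S').restrict H) (Mu p Qbar),
      (∀ i : PlaceIdx S' H (okAll hH), i.1.1 ∉ S → placePair (okAll hH) hμ hz I i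
        (locμ₁ p (placeP (okAll hH) i) H (placeG (okAll hH) i) (inflS₁ S' H a))
        (locμ₁ p (placeP (okAll hH) i) H (placeG (okAll hH) i) (inflS₁ S H χ)) = 0) ∧
      ∑ i : PlaceIdx S H (okAll hH), n i * placePair (okAll hH) hμ hz I i
        (locμ₁ p (placeP (okAll hH) i) H (placeG (okAll hH) i) (inflS₁ S' H a))
        (locμ₁ p (placeP (okAll hH) i) H (placeG (okAll hH) i) (inflS₁ S H χ)) ≠ 0 := by
  classical
  have : NeZero p := ⟨(Fact.out : p.Prime).ne_zero⟩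
  have := finite_H1_restrict hH hμ
  let := Fintype.ofFinite (Coh.H1 ((galLevelsS S).restrict H) (Mu p Qbar))
  let wit : Coh.H1 ((galLevelsS S).restrict H) (Mu p Qbar) → Nat.Primes := fun b =>
    if hb : ∀ k : ℕ, b ≠ k • χ then (exists_separating_prime hH hμ χ b hb).choose
    else ⟨p, Fact.out⟩
  obtain ⟨S₁, hS₁, hlag⟩ := hL H (okAll hH) hμ z₀ hz (S ∪ Finset.univ.image wit)
  have hlag1 := hlag S₁ subset_rfl
  have hSS : S ⊆ S₁ := Finset.subset_union_left.trans hS₁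
  refine ⟨S₁, hSS, ?_⟩
  by_contra hcon
  push Not at hcon
  have := finite_locV (S := S₁) hμ hz (okAll hH)
  let e := inclPlace hH hSS
  let lc : LocV p (okAll hH) (S := S₁) := fun i =>
    locμ₁ p (placeP (okAll hH) i) H (placeG (okAll hH) i) (inflS₁ S H χ)
  let M : AddSubgroup (LocV p (okAll hH) (S := S₁)) :=
    { carrier := {v | ∀ i : PlaceIdx S₁ H (okAll hH), (i.1.1 ∈ S → v i = 0) ∧
        (i.1.1 ∉ S → ∃ k : ℕ, v i = k • lc i)}
      zero_mem' := fun i => ⟨fun _ => rfl, fun _ => ⟨0, (zero_nsmul _).symm⟩⟩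
      add_mem' := fun {v w} hv hw i => ⟨fun h => by
        rw [Pi.add_apply, (hv i).1 h, (hw i).1 h, add_zero], fun h => by
        obtain ⟨k, hk⟩ := (hv i).2 h
        obtain ⟨l, hl⟩ := (hw i).2 h
        exact ⟨k + l, by rw [Pi.add_apply, hk, hl, add_nsmul]⟩⟩
      neg_mem' := fun {v} hv i => ⟨fun h => by rw [Pi.neg_apply, (hv i).1 h, neg_zero], fun h => by
        obtain ⟨k, hk⟩ := (hv i).2 h
        refine ⟨k * (p - 1), ?_⟩
        rw [Pi.neg_apply, hk, neg_eq_iff_add_eq_zero, ← add_nsmul,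
          show k + k * (p - 1) = k * p by
            conv_lhs => rw [add_comm, ← Nat.mul_succ]
            rw [Nat.succ_eq_add_one, Nat.sub_add_cancel (Fact.out : p.Prime).one_le],
          mul_nsmul', Coh.H1.torsion torsion_Mu, nsmul_zero]⟩ }
  let ext : LocV p (okAll hH) (S := S₁) := fun i =>
    if h : i.1.1 ∈ S then (n ⟨⟨i.1.1, h⟩, i.2⟩).val • lc i else 0
  have hin : ∀ j, ext (e j) = (n j).val • lc (e j) := fun j => dif_pos j.1.2
  have hout : ∀ i : PlaceIdx S₁ H (okAll hH), i.1.1 ∉ S → ext i = 0 := fun i hi => dif_neg hi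
  obtain ⟨v, hv⟩ := exists_eq_on_of_ker (p := p)
    (fun w => funext fun i => Coh.H1.torsion torsion_Mu (w i))
    (globalImage p S₁ (okAll hH)) ((sumPair (okAll hH) hμ hz I).flip.comp M.subtype)
    ((sumPair (okAll hH) hμ hz I).flip ext) (fun w hw hker => by
      obtain ⟨a, rfl⟩ := hw
      have hT : ∀ i : PlaceIdx S₁ H (okAll hH), i.1.1 ∉ S → placePair (okAll hH) hμ hz I i
          (locμ₁ p (placeP (okAll hH) i) H (placeG (okAll hH) i) (inflS₁ S₁ H a)) (lc i) = 0 :=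
        fun i hi => by
          have h1 := hker ⟨Pi.single i (lc i), fun j => ?_⟩
          · exact (sumPair_single hμ hz (okAll hH) I _ i (lc i)).symm.trans h1
          rcases eq_or_ne j i with rfl | hj
          · exact ⟨fun h => absurd h hi, fun _ => ⟨1, by rw [one_nsmul, Pi.single_eq_same]⟩⟩
          · refine ⟨fun _ => ?_, fun _ => ⟨0, ?_⟩⟩
            · exact Pi.single_eq_of_ne hj _
            · rw [zero_nsmul]
              exact Pi.single_eq_of_ne hj _
      show sumPair (okAll hH) hμ hz I _ ext = 0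
      rw [sumPair_apply, ← hcon a hT]
      refine (Fintype.sum_of_injective e (inclPlace_injective hH hSS) _ _ (fun i hi => ?_)
        fun j => ?_).symm
      · rw [hout i fun h => hi (inclPlace_surj hH hSS i h), map_zero]
      · exact (congrArg₂ (· * ·) (ZMod.natCast_zmod_val (n j)).symm
            (placePair_inclPlace hμ hz hH hSS I j _ _).symm).trans ((nsmul_eq_mul _ _).symm.trans
          ((AddMonoidHom.map_nsmul _ _ _).symm.trans (congrArg _ (hin j).symm))))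
  have hdiff : ext - (v : LocV p (okAll hH) (S := S₁)) ∈ globalImage p S₁ (okAll hH) := by
    refine (hlag1 _).mpr fun x hx => ?_
    rw [map_sub, sub_eq_zero]
    exact (hv x hx).symm
  obtain ⟨a, ha⟩ := (mem_globalImage_iff (okAll hH) _).mp hdiff
  have hTb : ∀ i : PlaceIdx S₁ H (okAll hH), i.1.1 ∉ S →
      ∃ k : ℕ, locS₁ p (okAll hH) i a = k • lc i := fun i hi => by
    obtain ⟨k, hk⟩ := (M.neg_mem v.2 i).2 hi
    refine ⟨k, ?_⟩
    rw [← ha i, Pi.sub_apply, hout i hi, zero_sub, ← hk]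
    rfl
  obtain ⟨b, hb⟩ := exists_inflS₁_eq hH hSS hμ a fun i hi => by
    obtain ⟨k, hk⟩ := hTb i hi
    rw [hk]
    exact nsmul_mem (locμ₁_inflS₁_mem_unr hH hμ i hi χ) k
  have hbS : ∀ j, locS₁ p (okAll hH) j b = (n j).val • lc (e j) := fun j => by
    have h1 := ha (e j)
    rw [Pi.sub_apply, hin, (v.2 (e j)).1 j.1.2, sub_zero, ← locμ₁_inflS₁ p (okAll hH) (e j) a,
      ← hb] at h1
    rw [h1, ← locμ₁_inflS₁ p (okAll hH) j b]
    rfl
  by_cases hmul : ∀ k : ℕ, b ≠ k • χ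
  · let q := (exists_separating_prime hH hμ χ b hmul).choose
    obtain ⟨hqS, hq'⟩ := (exists_separating_prime hH hμ χ b hmul).choose_spec
    have hqS₁ : q ∈ S₁ := hS₁ (Finset.mem_union_right _ (Finset.mem_image.mpr
      ⟨b, Finset.mem_univ b, dif_pos hmul⟩))
    obtain ⟨i, hiq, hi⟩ := hq' S₁ hqS₁
    obtain ⟨k, hk⟩ := hTb i fun h => hqS (hiq ▸ h)
    refine hi k ?_
    rw [hb, locμ₁_inflS₁ p (okAll hH) i a, hk]
  · push Not at hmul
    obtain ⟨k, hk⟩ := hmul
    obtain ⟨i, hi⟩ := hn (k : ZMod p)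
    refine hi ?_
    have h1 := hbS i
    rw [hk, map_nsmul] at h1
    have h2 := natCast_eq_of_nsmul_eq (p := p) (Coh.H1.torsion torsion_Mu _) (hχ i)
      (h1.trans (congrArg ((n i).val • ·) (locμ₁_inflS₁ p (okAll hH) i χ)))
    rw [ZMod.natCast_zmod_val] at h2
    exact h2.symm

/-- **Separation.** -/
theorem exists_theta₂_ne_zero [Nonempty ↥S] {hμS : Coh.IsSmooth (galLevelsS S) (Mu p Qbar)}
    {I : InvFam p} {ι : Coh.H2 (galLevelsS S) (PlaceC p S) →+ ZMod p}
    (hι : IsIota hμS (fun q : ↥S => I (q.1 : ℕ)) ι) (hpS : (⟨p, Fact.out⟩ : Nat.Primes) ∈ S)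
    (hL : HasLagrangians I) (hchar : HasLocalChars p S) (hdesc : HasCupDescent S I)
    (H : Subgroup GalQ) (hH : (galLevelsS S).ok H) (hμ : ∀ (h : H) (z : Mu p Qbar), h • z = z)
    (c : Coh.HomMod (Mu p Qbar) (PlaceC p S)) (hc0 : c ≠ 0) (hc : ∀ h ∈ H, h • c = c) :
    ∃ (H' : Subgroup GalQ) (hH' : (galLevelsS S).ok H')
      (hc' : c ∈ Coh.inv H' (Coh.HomMod (Mu p Qbar) (PlaceC p S))),
      H' ≤ H ∧ ∃ x, Coh.theta₂ (Coh.iotaSub ι H' hH') x ⟨c, hc'⟩ ≠ 0 := by
  classical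
  have : NeZero p := ⟨(Fact.out : p.Prime).ne_zero⟩
  have : Fact (1 < p) := ⟨(Fact.out : p.Prime).one_lt⟩
  obtain ⟨z₀, hz⟩ : ∃ z : Mu p Qbar, z ≠ 0 := by
    have : Nontrivial (Mu p Qbar) := Finite.one_lt_card_iff_nontrivial.mp
      (by rw [card_Mu]; exact (Fact.out : p.Prime).one_lt)
    exact exists_ne 0
  obtain ⟨f₀, hf₀⟩ := Coh.placeProj_surjective (galLevelsS S) (locφ S) (Mu p Qbar) (c z₀)
  obtain ⟨U, hU, hUf⟩ := Coh.PlaceMod.isSmooth f₀
  have hμ1 : ∀ (h : ↥(H ⊓ U)) (z : Mu p Qbar), h • z = z := fun h z => hμ ⟨h, h.2.1⟩ z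
  obtain ⟨H', hH', hle, χ, hχ⟩ := hchar (H ⊓ U) ((galLevelsS S).inf_ok hH hU) hμ1
  have hμ' : ∀ (h : H') (z : Mu p Qbar), h • z = z := fun h z => hμ1 ⟨h, hle h.2⟩ z
  let F₀ : Coh.HomMod (Mu p Qbar) (PlaceJ p S) := Coh.HomMod.of (AddMonoidHom.mk'
    (fun m => (muCoord hz m).val • f₀) fun m m' => by
      rw [map_add, ← add_nsmul]
      conv_rhs => rw [← Nat.mod_add_div ((muCoord hz m).val + (muCoord hz m').val) p,
        ← ZMod.val_add, add_nsmul, mul_nsmul, Coh.PlaceMod.torsion torsion_Mu f₀, smul_zero,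
        add_zero])
  have hF₀ : F₀ ∈ Coh.inv H' (Coh.HomMod (Mu p Qbar) (PlaceJ p S)) := fun h => by
    refine Coh.HomMod.ext fun m => ?_
    show (h : GalQ) • F₀ (h⁻¹ • m) = F₀ m
    rw [hμ']
    show (h : GalQ) • ((muCoord hz m).val • f₀) = (muCoord hz m).val • f₀
    rw [smul_comm, hUf _ (hle h.2).2]
  have hπ : Coh.HomMod.post (Coh.placeProj (galLevelsS S) (locφ S) (Mu p Qbar)) F₀ = c :=
    Coh.HomMod.ext fun m => by
      show Coh.placeProj _ _ _ ((muCoord hz m).val • f₀) = c m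
      rw [map_nsmul, hf₀, ← map_nsmul, muCoord_smul]
  set n := placeCoord hH' hz F₀ with hn
  have hFn : (placeFn hH' hμ' n : Coh.HomMod (Mu p Qbar) (PlaceJ p S)) = F₀ :=
    congrArg Subtype.val (placeFn_placeCoord hH' hμ' hz ⟨F₀, hF₀⟩)
  have hnc : ∀ k : ZMod p, ∃ i, n i ≠ k := fun k => by
    by_contra hcon
    push Not at hcon
    refine hc0 (Coh.HomMod.ext fun m => ?_)
    rw [← hπ, ← hFn, Coh.HomMod.post_apply, Coh.HomMod.zero_apply, Coh.placeProj_eq_zero]
    exact ⟨k.val • m, fun q x => by rw [val_placeFn, hcon, smul_comm]⟩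
  obtain ⟨S', hSS, a, hloc, hne⟩ := exists_cup_ne_zero hH' hμ' hz hpS hL χ hχ n hnc
  obtain ⟨x, hx⟩ := hdesc S' hSS H' hH' hμ' z₀ hz χ a hloc
  have hc' : c ∈ Coh.inv H' (Coh.HomMod (Mu p Qbar) (PlaceC p S)) := fun h => hc h (hle h.2).1
  refine ⟨H', hH', hc', fun h hh => (hle hh).1, x, fun h0 => hne ?_⟩
  rw [Finset.sum_congr rfl fun i _ => (congrArg (n i * ·) (hx i)).symm,
    ← theta₂_placeFn hH' hι hμ' x n, ← h0]
  exact congrArg (Coh.theta₂ (Coh.iotaSub ι H' hH') x)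
    (Subtype.ext ((congrArg _ hFn).trans hπ))

end Fermat.Agent.Duality

end
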