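import Fermat.Agent.Duality.Base.ShaLift
import Fermat.Agent.Duality.Base.PlaceTheta
import Fermat.Agent.Duality.Base.Separation

/-!
# The duality maps for roots of unity over subgroups fixing them
-/

set_option autoImplicit false

noncomputable section

namespace Fermat.Agent.Duality

variable {p : ℕ} [Fact p.Prime] {S : Finset Nat.Primes}

attribute [local instance] placePrime

/-- Corestriction is compatible with the duality maps. -/
lemma exists_theta₂_cor [Nonempty ↥S] (ι : Coh.H2 (galLevelsS S) (PlaceC p S) →+ ZMod p)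
    {H H' : Subgroup GalQ} (hH : (galLevelsS S).ok H) (hH' : (galLevelsS S).ok H') (hle : H' ≤ H)
    (x' : Coh.H2 ((galLevelsS S).restrict H') (Mu p Qbar))
    (c : Coh.inv H (Coh.HomMod (Mu p Qbar) (PlaceC p S)))
    (hc : (c : Coh.HomMod (Mu p Qbar) (PlaceC p S)) ∈
      Coh.inv H' (Coh.HomMod (Mu p Qbar) (PlaceC p S))) :
    ∃ x, Coh.theta₂ (Coh.iotaSub ι H hH) x c =
      Coh.theta₂ (Coh.iotaSub ι H' hH') x' ⟨c, hc⟩ := by
  classical
  let := (galLevelsS S).fintypeQuot hH
  let := (galLevelsS S).fintypeQuot hH'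
  have hK' : ((galLevelsS S).restrict H).ok (H'.subgroupOf H) := ⟨H', hH', le_rfl⟩
  let := ((galLevelsS S).restrict H).fintypeQuot hK'
  refine ⟨Coh.cor₂ (H'.subgroupOf H) hK' (Coh.toSubgroupOf₂ hle x'), ?_⟩
  rw [Coh.theta₂_apply, Coh.theta₂_apply, Coh.applyInv_apply, Coh.applyInv_apply]
  show ι (Coh.cor₂ H hH (Coh.H2.map _ _ _)) = ι (Coh.cor₂ H' hH' _)
  refine congrArg ι ?_
  rw [← Coh.cor₂_map (H := H'.subgroupOf H) hK' (Coh.HomMod.isEquivariant_of_mem_inv c.2),
    ← Coh.cor₂_cor₂ hH hH' hle (Coh.PlaceQuot.isSmooth (galLevelsS S) (locφ S) (Mu p Qbar)) hK']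
  refine congrArg _ (congrArg _ ?_)
  obtain ⟨f, rfl⟩ := Coh.H2.mk_surjective x'
  rfl

variable {H : Subgroup GalQ} (hH : (galLevelsS S).ok H)
  (hμ : ∀ (h : H) (z : Mu p Qbar), h • z = z) {z₀ : Mu p Qbar} (hz : z₀ ≠ 0)

variable (p) in
/-- The invariants at all places over `S`. -/
def invAll (I : InvFam p) : Coh.H2 ((galLevelsS S).restrict H) (Mu p Qbar) →+
    (PlaceIdx S H (okAll hH) → ZMod p) :=
  AddMonoidHom.pi fun i => (invPlace (okAll hH) I i).comp (locS₂ p (okAll hH) i)

lemma mem_shaS₂_of_invAll {I : InvFam p} (hI : IsInvFamily I)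
    {x : Coh.H2 ((galLevelsS S).restrict H) (Mu p Qbar)} (hx : invAll p hH I x = 0) :
    x ∈ shaS₂ p hH :=
  (mem_shaS₂ hH).mpr fun i => invPlace_injective (okAll hH) hI i
    ((congrFun hx i).trans (map_zero _).symm)

/-- A functional on tuples is given by its values at the unit tuples. -/
lemma functional_eq_sum {J : Type} [Fintype J] [DecidableEq J] (ψ : (J → ZMod p) →+ ZMod p)
    (v : J → ZMod p) : ψ v = ∑ i, ψ (Pi.single i 1) * v i := by
  have : NeZero p := ⟨(Fact.out : p.Prime).ne_zero⟩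
  conv_lhs => rw [← Finset.univ_sum_single v]
  rw [map_sum]
  refine Finset.sum_congr rfl fun i _ => ?_
  have h : Pi.single i (v i) = (v i).val • (Pi.single i 1 : J → ZMod p) := by
    refine funext fun j => ?_
    rw [Pi.smul_apply]
    rcases eq_or_ne j i with rfl | hj
    · rw [Pi.single_eq_same, Pi.single_eq_same, nsmul_eq_mul, mul_one, ZMod.natCast_zmod_val]
    · rw [Pi.single_eq_of_ne hj, Pi.single_eq_of_ne hj, smul_zero]
  rw [h, map_nsmul, nsmul_eq_mul, ZMod.natCast_zmod_val, mul_comm]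

include hμ hz in
/-- The pairing of the tuples of local classes is non-degenerate. -/
lemma sumPair_nondeg {I : InvFam p} (hd : IsLocalDual I) (y : LocV p (okAll hH) (S := S))
    (hy : y ≠ 0) : ∃ x, sumPair (okAll hH) hμ hz I x y ≠ 0 := by
  classical
  obtain ⟨i, hi⟩ := Function.ne_iff.mp hy
  obtain ⟨u, hu⟩ := hd.nondegenerate _ _ (ok_placeGroup (okAll hH) i)
    (smul_muLoc (okAll hH) hμ i) (placeZeta_ne_zero (okAll hH) hz i) (y i) hi
  refine ⟨Pi.single i u, ?_⟩
  rw [sumPair_apply, Finset.sum_eq_single i (fun j _ hj => by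
    rw [Pi.single_eq_of_ne hj, map_zero]; rfl)
    (fun h => absurd (Finset.mem_univ i) h), Pi.single_eq_same, placePair_apply]
  exact hu

section Global

variable [Nonempty ↥S] {hμS : Coh.IsSmooth (galLevelsS S) (Mu p Qbar)} {I : InvFam p}
  {ι : Coh.H2 (galLevelsS S) (PlaceC p S) →+ ZMod p}
  (hι : IsIota hμS (fun q : ↥S => I (q.1 : ℕ)) ι) (hpS : (⟨p, Fact.out⟩ : Nat.Primes) ∈ S)
  (hI : IsInvFamily I) (hd : IsLocalDual I) (hL : HasLagrangians I) (hHN : Places.HasseNorm p)
  (hchar : HasLocalChars p S) (hdesc : HasCupDescent S I)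

include hH hμ hι hpS hL hchar hdesc in
/-- Invariant homomorphisms are separated by classes in degree two over the same subgroup. -/
lemma eq_zero_of_theta₂ (c : Coh.inv H (Coh.HomMod (Mu p Qbar) (PlaceC p S)))
    (hc : ∀ x, Coh.theta₂ (Coh.iotaSub ι H hH) x c = 0) : c = 0 := by
  by_contra h0
  obtain ⟨H', hH', hc', hle, x', hx'⟩ := exists_theta₂_ne_zero hι hpS hL hchar hdesc H hH hμ
    (c : Coh.HomMod (Mu p Qbar) (PlaceC p S)) (fun h => h0 (Subtype.ext h))
    fun h hh => c.2 ⟨h, hh⟩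
  obtain ⟨x, hx⟩ := exists_theta₂_cor ι hH hH' hle x' c hc'
  exact hx' (hx.symm.trans (hc x))

include hz hι hpS hI hd hL hHN hchar hdesc in
/-- The pairing of the locally trivial classes is perfect. -/
theorem exists_perfect_shaPair : ∃ P : shaS₁ p hH →+ shaS₂ p hH →+ ZMod p,
    (∀ (l : shaLifts p H hμS) (x : shaS₂ p hH),
      P (shaLiftClass hH hμ hμS l) x =
        Coh.theta₂ (Coh.iotaSub ι H hH) (x : Coh.H2 ((galLevelsS S).restrict H) (Mu p Qbar))
          (cLift hH hμ hz hμS l)) ∧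
    Function.Injective P.flip ∧ Function.Surjective P := by
  classical
  obtain ⟨P, hP⟩ := exists_shaPair hH hμ hz hμS hι
  have := finite_H1_restrict hH hμ
  have hp1 : ∀ a : shaS₁ p hH, p • a = 0 := fun a => Subtype.ext (Coh.H1.torsion torsion_Mu _)
  have hp2 : ∀ x : shaS₂ p hH, p • x = 0 := fun x => Subtype.ext (Coh.H2.torsion torsion_Mu _)
  -- the functionals on the classes in degree one are all obtained
  have hsep : ∀ a : shaS₁ p hH, a ≠ 0 → ∃ x, P.flip x a ≠ 0 := by
    intro a ha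
    by_contra hn
    push Not at hn
    obtain ⟨l, rfl⟩ := shaLiftClass_surjective hH hμ hz hμS a
    set c := cLift hH hμ hz hμS l with hcdef
    obtain ⟨ψ, hψ⟩ := Coh.exists_hom_factor (p := p)
      (fun v : PlaceIdx S H (okAll hH) → ZMod p => funext fun i =>
        ZModModule.char_nsmul_eq_zero p _)
      (ZModModule.char_nsmul_eq_zero p) (invAll p hH I) ((Coh.theta₂ (Coh.iotaSub ι H hH)).flip c)
      fun x hx => (hP l ⟨x, mem_shaS₂_of_invAll hH hI hx⟩).symm.trans
        (hn ⟨x, mem_shaS₂_of_invAll hH hI hx⟩)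
    set F := placeFn hH hμ (fun i => ψ (Pi.single i 1)) with hF
    have h1 : c = ⟨Coh.HomMod.post (Coh.placeProj (galLevelsS S) (locφ S) (Mu p Qbar)) F,
        (Coh.HomMod.isEquivariant_post (fun _ _ => rfl)
          (isEquivariant_placeProjH (p := p) (S := S) H)).map_inv F.2⟩ := by
      refine sub_eq_zero.mp (eq_zero_of_theta₂ hH hμ hι hpS hL hchar hdesc _ fun x => ?_)
      refine (map_sub _ _ _).trans (sub_eq_zero.mpr ?_)
      exact (hψ x).symm.trans ((functional_eq_sum ψ _).trans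
        (theta₂_placeFn hH hι hμ x _).symm)
    have h2 : Coh.placeProj (galLevelsS S) (locφ S) (Mu p Qbar)
        (diagMul hH hμ hz hμS z₀ l.1.2) =
        Coh.placeProj (galLevelsS S) (locφ S) (Mu p Qbar)
          ((F : Coh.HomMod (Mu p Qbar) (PlaceJ p S)) z₀) :=
      congrArg (fun c : Coh.inv H (Coh.HomMod (Mu p Qbar) (PlaceC p S)) =>
        (c : Coh.HomMod (Mu p Qbar) (PlaceC p S)) z₀) h1
    rw [diagMul_self, ← sub_eq_zero, ← map_sub] at h2
    obtain ⟨m, hm⟩ := (Coh.placeSeq (galLevelsS S) (locφ S) hμS).exact _ h2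
    refine ha (Subtype.ext (Coh.H1.mk_eq_zero.mpr ⟨0, fun g => ?_⟩))
    have h3 : (g : GalQ) • ((F : Coh.HomMod (Mu p Qbar) (PlaceJ p S)) z₀) =
        (F : Coh.HomMod (Mu p Qbar) (PlaceJ p S)) z₀ :=
      (isEquivariant_evalMu hμ (PlaceJ p S) g _).symm.trans
        (congrArg (fun G : Coh.HomMod (Mu p Qbar) (PlaceJ p S) => G z₀) (F.2 g))
    have h4 : l.1.2 = Coh.placeEmb (galLevelsS S) (locφ S) hμS m +
        (F : Coh.HomMod (Mu p Qbar) (PlaceJ p S)) z₀ := eq_add_of_sub_eq hm.symm
    have h5 := l.2 g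
    rw [h4, smul_add, h3, smul_placeEmb hμ hμS g, sub_self,
      ← map_zero (Coh.placeEmb (galLevelsS S) (locφ S) hμS (A := Mu p Qbar))] at h5
    rw [smul_zero, sub_zero]
    exact ((Coh.placeSeq (galLevelsS S) (locφ S) hμS).i_inj h5).symm
  have hs : Function.Surjective P.flip := Coh.surjective_of_separates hp1 P.flip hsep
  obtain ⟨hfin, hle⟩ := finite_shaS₂ hH hμ hz hpS hd hL hHN
  have := hfin
  have : Finite (shaS₁ p hH →+ ZMod p) := Finite.of_surjective _ hs
  have hcard : Nat.card (shaS₂ p hH) = Nat.card (shaS₁ p hH →+ ZMod p) :=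
    le_antisymm (hle.trans (card_dual hp1).ge) (Nat.card_le_card_of_surjective _ hs)
  have hinj : Function.Injective P.flip :=
    ((Nat.bijective_iff_surjective_and_card _).mpr ⟨hs, hcard⟩).1
  refine ⟨P, hP, hinj, Coh.surjective_of_separates hp2 P fun x hx => ?_⟩
  by_contra hn
  push Not at hn
  exact hx (hinj ((AddMonoidHom.ext hn : P.flip x = 0).trans (map_zero P.flip).symm))

include hμ hz hι hpS hI hd hL hHN hchar hdesc in
/-- The duality map in degree two is injective. -/
theorem theta₂_injective_mu :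
    Function.Injective (Coh.theta₂ (A := Mu p Qbar) (Coh.iotaSub ι H hH)) := by
  classical
  refine (injective_iff_map_eq_zero _).mpr fun x hx => ?_
  obtain ⟨P, hP, hinj, -⟩ := exists_perfect_shaPair hH hμ hz hι hpS hI hd hL hHN hchar hdesc
  have hsha : x ∈ shaS₂ p hH := mem_shaS₂_of_invAll hH hI (funext fun i => by
    have h := theta₂_placeFn hH hι hμ x (Pi.single i 1)
    rw [hx, AddMonoidHom.zero_apply, Finset.sum_eq_single i (fun j _ hj => by
      rw [Pi.single_eq_of_ne hj, zero_mul]) (fun h => absurd (Finset.mem_univ i) h),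
      Pi.single_eq_same, one_mul] at h
    exact h.symm)
  have h0 : P.flip ⟨x, hsha⟩ = 0 := AddMonoidHom.ext fun a => by
    obtain ⟨l, rfl⟩ := shaLiftClass_surjective hH hμ hz hμS a
    refine (hP l ⟨x, hsha⟩).trans ?_
    rw [hx]
    rfl
  exact congrArg Subtype.val (hinj (h0.trans (map_zero P.flip).symm))

omit [Fact (Nat.Prime p)] hμ in
/-- The image of the connecting map is locally trivial. -/
lemma δ₁_mem_shaS₂ (b : Coh.H1 ((galLevelsS S).restrict H) (PlaceC p S)) :
    (seqH hμS H).δ₁ b ∈ shaS₂ p hH := by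
  obtain ⟨w, rfl⟩ := Coh.H1.mk_surjective b
  refine (mem_shaS₂ hH).mpr fun i => Coh.H2.mk_eq_zero.mpr
    ⟨fun d => placeEval hH i ((seqH hμS H).sec ((w : H → PlaceC p S)
      (Coh.twistHom _ (placeG (okAll hH) i) H d))), ?_, funext fun d => funext fun d' => ?_⟩
  · exact ((w.2.1.precomp (Coh.compat_twistHom
      (compat_localGaloisToGlobal_S (placeP (okAll hH) i) S) (placeG (okAll hH) i) H)).comp
      fun v => placeEval hH i ((seqH hμS H).sec v))
  · have h := congrArg (placeEval hH i) ((seqH hμS H).i_δ₁fun w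
      (Coh.twistHom _ (placeG (okAll hH) i) H d) (Coh.twistHom _ (placeG (okAll hH) i) H d'))
    rw [Coh.d₁_apply, map_add, map_sub, isEquivariant_placeEval hH i d, ← map_mul] at h
    exact h.symm

include hz hι hpS hI hd hL hHN hchar hdesc in
/-- The duality map in degree one is surjective. -/
theorem theta₁_surjective_mu (hs : Coh.IsSmooth ((galLevelsS S).restrict H) (Mu p Qbar))
    (hμ : ∀ (h : H) (z : Mu p Qbar), h • z = z) :
    Function.Surjective (Coh.theta₁ (A := Mu p Qbar) (Coh.iotaSub ι H hH) hs) := by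
  classical
  intro φ
  obtain ⟨P, hP, -, hPs⟩ := exists_perfect_shaPair hH hμ hz hι hpS hI hd hL hHN hchar hdesc
  have := finite_locV (S := S) hμ hz (okAll hH)
  have hpV : ∀ v : LocV p (okAll hH) (S := S), p • v = 0 := fun v =>
    funext fun i => Coh.H1.torsion torsion_Mu (v i)
  -- the part through the places
  obtain ⟨f, hf⟩ := Coh.exists_hom_factor (p := p) hpV (ZModModule.char_nsmul_eq_zero p)
    (AddMonoidHom.pi fun i => locJ hH hμ z₀ i) (φ.comp (projHom p)) fun e he => by
      rw [eq_zero_of_locJ hH hμ hz e fun i => congrFun he i, map_zero]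
  obtain ⟨y, hy⟩ := exists_eq_right hpV (sumPair (okAll hH) hμ hz I)
    (fun y hy => sumPair_nondeg hH hμ hz hd y hy) f
  obtain ⟨a₁, ha₁⟩ := (mem_globalImage_iff (okAll hH) y).mp
    (mem_globalImage_of_orthogonal hμ hz hH hpS hd hL y fun v hv => by
      obtain ⟨a, ha⟩ := (mem_globalImage_iff (okAll hH) v).mp hv
      obtain ⟨z, rfl⟩ := Coh.H1.mk_surjective a
      have hv' : v = (fun i => locJ hH hμ z₀ i (Coh.H1.map
          (Coh.Levels.compat_id ((galLevelsS S).restrict H))
          (isEquivariant_scalHom hμ hz (torsion_placeJ (p := p) (S := S)))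
          ((seqH hμS H).mapI₁ (Coh.H1.mk z)))) := funext fun i => by
        rw [ha]
        refine congrArg Coh.H1.mk (Subtype.ext (funext fun d => ?_))
        show _ = placeEval hH i (scalHom hz torsion_placeJ (Coh.placeEmb _ _ hμS
          ((z : H → Mu p Qbar) (Coh.twistHom _ (placeG (okAll hH) i) H d))) z₀)
        rw [scalHom_self]
        rfl
      rw [hv', hy]
      refine (hf (Coh.H1.map (Coh.Levels.compat_id ((galLevelsS S).restrict H))
        (isEquivariant_scalHom hμ hz (torsion_placeJ (p := p) (S := S)))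
        ((seqH hμS H).mapI₁ (Coh.H1.mk z)))).trans ((congrArg φ ?_).trans (map_zero φ))
      refine Coh.H1.mk_eq_zero.mpr ⟨0, fun g => ?_⟩
      rw [smul_zero, sub_zero]
      refine Coh.HomMod.ext fun m => ?_
      show Coh.placeProj (galLevelsS S) (locφ S) (Mu p Qbar)
        ((muCoord hz m).val • Coh.placeEmb _ _ hμS ((z : H → Mu p Qbar) g)) = 0
      rw [map_nsmul]
      exact (congrArg _ ((Coh.placeSeq (galLevelsS S) (locφ S) hμS).π_i _)).trans (smul_zero _))
  have hproj : ∀ e, Coh.theta₁ (Coh.iotaSub ι H hH) hs a₁ (projHom p e) = φ (projHom p e) :=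
    fun e => by
      rw [theta₁_projHom hH hμ hι hz hs a₁ e,
        show (fun i => locS₁ p (okAll hH) i a₁) = y from (funext fun i => ha₁ i).symm, hy]
      exact hf e
  -- the remaining part factors through the connecting map
  let r := φ - Coh.theta₁ (Coh.iotaSub ι H hH) hs a₁
  let scC := Coh.H1.map (Coh.Levels.compat_id ((galLevelsS S).restrict H))
    (isEquivariant_scalHom hμ hz (torsion_placeC (p := p) (S := S)))
  obtain ⟨ψ, hψ⟩ := Coh.exists_hom_factor (p := p)
    (fun x : Coh.H2 ((galLevelsS S).restrict H) (Mu p Qbar) => Coh.H2.torsion torsion_Mu x)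
    (ZModModule.char_nsmul_eq_zero p) (seqH hμS H).δ₁ (r.comp scC) fun b hb => by
      obtain ⟨d, rfl⟩ := (seqH hμS H).exact_C₁ b hb
      have h1 : scC ((seqH hμS H).mapπ₁ d) = projHom p (Coh.H1.map
          (Coh.Levels.compat_id ((galLevelsS S).restrict H))
          (isEquivariant_scalHom hμ hz (torsion_placeJ (p := p) (S := S))) d) := by
        obtain ⟨v, rfl⟩ := Coh.H1.mk_surjective d
        exact congrArg Coh.H1.mk (Subtype.ext (funext fun g => Coh.HomMod.ext fun m =>
          (map_nsmul (Coh.placeProj (galLevelsS S) (locφ S) (Mu p Qbar)) _ _).symm))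
      rw [AddMonoidHom.comp_apply, h1]
      exact sub_eq_zero.mpr (hproj _).symm
  obtain ⟨a, ha⟩ := hPs (ψ.comp (shaS₂ p hH).subtype)
  obtain ⟨l, rfl⟩ := shaLiftClass_surjective hH hμ hz hμS a
  refine ⟨a₁ + Coh.H1.mk l.1.1, AddMonoidHom.ext fun e => ?_⟩
  have he : scC (Coh.H1.map (Coh.Levels.compat_id ((galLevelsS S).restrict H))
      (isEquivariant_evalMu (z₀ := z₀) hμ (PlaceC p S)) e) = e := by
    obtain ⟨w, rfl⟩ := Coh.H1.mk_surjective e
    exact congrArg Coh.H1.mk (Subtype.ext (funext fun g => scalHom_eval hz torsion_placeC _))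
  set b := Coh.H1.map (Coh.Levels.compat_id ((galLevelsS S).restrict H))
    (isEquivariant_evalMu (z₀ := z₀) hμ (PlaceC p S)) e
  have h2 : Coh.theta₁ (Coh.iotaSub ι H hH) hs (Coh.H1.mk l.1.1) (scC b) = r (scC b) := by
    rw [Coh.theta₁_apply, cup_scalHom_eq hH hμ hz hμS hs l b, ← Coh.theta₂_apply,
      ← hP l ⟨_, δ₁_mem_shaS₂ hH b⟩, ha]
    exact hψ b
  rw [he] at h2
  rw [map_add, AddMonoidHom.add_apply, h2]
  exact add_sub_cancel _ _

include hι hpS hI hd hL hHN hchar hdesc in
/-- **The base of global duality.** -/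
theorem isDualityBase_global : Coh.IsDualityBase (p := p) ι (Mu p Qbar) := by
  have : NeZero p := ⟨(Fact.out : p.Prime).ne_zero⟩
  have : Nontrivial (Mu p Qbar) := Finite.one_lt_card_iff_nontrivial.mp
    (by rw [card_Mu]; exact (Fact.out : p.Prime).one_lt)
  obtain ⟨z₁, hz₁⟩ := exists_ne (0 : Mu p Qbar)
  exact
    { card_eq := card_Mu
      smooth := hμS
      injective := fun H hH hμ =>
        theta₂_injective_mu hH hμ hz₁ hι hpS hI hd hL hHN hchar hdesc
      surjective := fun H hH hs hμ =>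
        theta₁_surjective_mu hH hz₁ hι hpS hI hd hL hHN hchar hdesc hs hμ }

end Global

end Fermat.Agent.Duality

end
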