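import Fermat.Agent.Duality.Places.SUnitClass
import Fermat.Agent.Duality.Places.Unramified

/-!
# Orders outside `S` of elements of `S`-levels

An element fixed by an `S`-level has an integral order at every place outside `S`; it has a `p`-th
root among such elements iff all these orders are divisible by `p`; and every finite pattern of
orders modulo `p` at the places of an `S`-level field is realised.
-/

set_option autoImplicit false

noncomputable section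

open IsDedekindDomain NumberField
open scoped Pointwise

namespace Fermat.Agent.Duality.OrdLevels

variable {p : ℕ} [Fact p.Prime]

/-- Fixed by some `S`-level. -/
def IsSElt (S : Finset Nat.Primes) (y : Lx Qbar) : Prop :=
  ∃ U : Subgroup GalQ, (galLevelsS S).ok U ∧ ∀ g ∈ U, g • y = y

variable {S : Finset Nat.Primes}

theorem isSElt_zero : IsSElt S 0 := ⟨⊤, (galLevelsS S).top_ok, fun g _ => smul_zero g⟩

theorem IsSElt.add {y z : Lx Qbar} (hy : IsSElt S y) (hz : IsSElt S z) : IsSElt S (y + z) := by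
  obtain ⟨U, hU, hyU⟩ := hy
  obtain ⟨V, hV, hzV⟩ := hz
  exact ⟨U ⊓ V, (galLevelsS S).inf_ok hU hV, fun g hg => by
    rw [smul_add, hyU g hg.1, hzV g hg.2]⟩

theorem IsSElt.neg {y : Lx Qbar} (hy : IsSElt S y) : IsSElt S (-y) := by
  obtain ⟨U, hU, hyU⟩ := hy
  exact ⟨U, hU, fun g hg => by rw [smul_neg, hyU g hg]⟩

theorem IsSElt.sub {y z : Lx Qbar} (hy : IsSElt S y) (hz : IsSElt S z) : IsSElt S (y - z) := by
  rw [sub_eq_add_neg]; exact hy.add hz.neg

theorem IsSElt.nsmul {y : Lx Qbar} (hy : IsSElt S y) (n : ℕ) : IsSElt S (n • y) := by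
  obtain ⟨U, hU, hyU⟩ := hy
  exact ⟨U, hU, fun g hg => by rw [smul_comm, hyU g hg]⟩

theorem IsSElt.smul {y : Lx Qbar} (hy : IsSElt S y) (σ : GalQ) : IsSElt S (σ • y) := by
  obtain ⟨U, hU, hyU⟩ := hy
  obtain ⟨N, hN, hNn, hNU⟩ := (galLevelsS S).exists_normal hU
  refine ⟨N, hN, fun g hg => ?_⟩
  conv_rhs => rw [← hyU _ (hNU (by simpa using hNn.conj_mem g hg σ⁻¹))]
  rw [smul_smul, smul_smul]
  group

theorem IsSElt.sum {ι : Type} (t : Finset ι) {y : ι → Lx Qbar} (hy : ∀ i ∈ t, IsSElt S (y i)) :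
    IsSElt S (∑ i ∈ t, y i) :=
  Finset.sum_induction y (IsSElt S) (fun _ _ => IsSElt.add) isSElt_zero hy

theorem IsSElt.mono {S' : Finset Nat.Primes} (h : S ⊆ S') {y : Lx Qbar} (hy : IsSElt S y) :
    IsSElt S' y := by
  obtain ⟨U, ⟨E, hE, hle⟩, hyU⟩ := hy
  exact ⟨U, ⟨E, hE.mono h, hle⟩, hyU⟩

variable (q : ℕ) [Fact q.Prime]

/-- The absolute value at the embedding `σ`. -/
def nrmAt (σ : GalQ) (y : Lx Qbar) : ℝ :=
  ‖padicEmbedding q (σ (((y.toMul : Qbarˣ)) : Qbar))‖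

/-- The order at the embedding `σ`. -/
def ordAt (σ : GalQ) (y : Lx Qbar) : ℤ := -Int.log q (nrmAt q σ y)

theorem ordAt_smul (σ g : GalQ) (y : Lx Qbar) : ordAt q σ (g • y) = ordAt q (σ * g) y := rfl

theorem nrmAt_decomp (σ : GalQ) (d : GalLoc q) (y : Lx Qbar) :
    nrmAt q (localGaloisToGlobal q d * σ) y = nrmAt q σ y := by
  rw [nrmAt, AlgEquiv.mul_apply, padicEmbedding_localGaloisToGlobal, Local.norm_galLoc_apply]
  rfl

theorem ordAt_decomp (σ : GalQ) (d : GalLoc q) (y : Lx Qbar) :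
    ordAt q (localGaloisToGlobal q d * σ) y = ordAt q σ y := by
  rw [ordAt, nrmAt_decomp, ordAt]

theorem nrmAt_add (σ : GalQ) (y z : Lx Qbar) : nrmAt q σ (y + z) = nrmAt q σ y * nrmAt q σ z := by
  rw [nrmAt, toMul_add, Units.val_mul, map_mul, map_mul, norm_mul]
  rfl

theorem nrmAt_nsmul (σ : GalQ) (n : ℕ) (y : Lx Qbar) : nrmAt q σ (n • y) = nrmAt q σ y ^ n := by
  rw [nrmAt, toMul_nsmul, Units.val_pow_eq_pow_val, map_pow, map_pow, norm_pow]
  rfl

theorem nrmAt_pos (σ : GalQ) (y : Lx Qbar) : 0 < nrmAt q σ y :=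
  norm_pos_iff.2 (by simp)

variable {q} in
theorem ordAt_eq {σ : GalQ} {y : Lx Qbar} {k : ℤ} (h : nrmAt q σ y = (q : ℝ) ^ (-k)) :
    ordAt q σ y = k := by
  rw [ordAt, h, Int.log_zpow (Fact.out : q.Prime).one_lt, neg_neg]

/-- Elements of `S`-levels have value group `q ^ ℤ` at `q ∉ S`. -/
theorem IsSElt.nrmAt_eq {y : Lx Qbar} (hy : IsSElt S y)
    (hq : (⟨q, Fact.out⟩ : Nat.Primes) ∉ S) (σ : GalQ) :
    nrmAt q σ y = (q : ℝ) ^ (-ordAt q σ y) := by
  obtain ⟨U, ⟨E, hE, hle⟩, hyU⟩ := hy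
  have := hE.1
  have : IsGalois ℚ Qbar := Fermat.Agent.Gal.isGalois_rat_qbar
  have hmem : ((y.toMul : Qbarˣ) : Qbar) ∈ E :=
    (InfiniteGalois.fixedField_fixingSubgroup E).le fun s =>
      congrArg (fun z : Lx Qbar => ((z.toMul : Qbarˣ) : Qbar)) (hyU s (hle s.2))
  obtain ⟨m, hm⟩ := Places.exists_norm_eq_zpow_of_isUnramifiedOutside q hE hq σ
    (Places.embedding_mem_localField q (F := E.map σ.toAlgHom) ⟨_, hmem, rfl⟩)
    ((norm_pos_iff).1 (nrmAt_pos q σ y))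
  have h : nrmAt q σ y = (q : ℝ) ^ (-(-m)) := by rw [neg_neg]; exact hm
  rw [ordAt_eq h]
  exact h

theorem IsSElt.ordAt_add {y z : Lx Qbar} (hy : IsSElt S y) (hz : IsSElt S z)
    (hq : (⟨q, Fact.out⟩ : Nat.Primes) ∉ S) (σ : GalQ) :
    ordAt q σ (y + z) = ordAt q σ y + ordAt q σ z := by
  refine ordAt_eq ?_
  rw [nrmAt_add, hy.nrmAt_eq q hq, hz.nrmAt_eq q hq,
    ← zpow_add₀ (Nat.cast_ne_zero.2 (Fact.out : q.Prime).ne_zero), neg_add]

theorem ordAt_zero (σ : GalQ) : ordAt q σ 0 = 0 :=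
  ordAt_eq (by
    rw [nrmAt, toMul_zero, Units.val_one, map_one, map_one, norm_one, neg_zero, zpow_zero])

theorem IsSElt.ordAt_neg {y : Lx Qbar} (hy : IsSElt S y)
    (hq : (⟨q, Fact.out⟩ : Nat.Primes) ∉ S) (σ : GalQ) : ordAt q σ (-y) = -ordAt q σ y := by
  have h := hy.ordAt_add q hy.neg hq σ
  rw [add_neg_cancel, ordAt_zero] at h
  linarith

theorem IsSElt.ordAt_sub {y z : Lx Qbar} (hy : IsSElt S y) (hz : IsSElt S z)
    (hq : (⟨q, Fact.out⟩ : Nat.Primes) ∉ S) (σ : GalQ) :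
    ordAt q σ (y - z) = ordAt q σ y - ordAt q σ z := by
  rw [sub_eq_add_neg, hy.ordAt_add q hz.neg hq, hz.ordAt_neg q hq, ← sub_eq_add_neg]

theorem IsSElt.ordAt_nsmul {y : Lx Qbar} (hy : IsSElt S y)
    (hq : (⟨q, Fact.out⟩ : Nat.Primes) ∉ S) (σ : GalQ) (n : ℕ) :
    ordAt q σ (n • y) = n * ordAt q σ y := by
  refine ordAt_eq ?_
  rw [nrmAt_nsmul, hy.nrmAt_eq q hq, ← zpow_natCast, ← zpow_mul]
  ring_nf

theorem ordAt_sum {ι : Type} (t : Finset ι) {y : ι → Lx Qbar} (hy : ∀ i ∈ t, IsSElt S (y i))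
    (hq : (⟨q, Fact.out⟩ : Nat.Primes) ∉ S) (σ : GalQ) :
    ordAt q σ (∑ i ∈ t, y i) = ∑ i ∈ t, ordAt q σ (y i) := by
  classical
  induction t using Finset.induction_on with
  | empty => rw [Finset.sum_empty, Finset.sum_empty, ordAt_zero]
  | insert i t hi ih =>
    have h2 := fun j hj => hy j (Finset.mem_insert_of_mem hj)
    rw [Finset.sum_insert hi, Finset.sum_insert hi,
      (hy i (Finset.mem_insert_self i t)).ordAt_add q (IsSElt.sum t h2) hq, ih h2]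

/-- An element with all orders outside `S` divisible by `p` has its `p`-th roots in `S`-levels. -/
theorem isSElt_root (hpS : (⟨p, Fact.out⟩ : Nat.Primes) ∈ S) {y ρ : Lx Qbar} (hy : IsSElt S y)
    (hρ : p • ρ = y)
    (hord : ∀ (q : ℕ) [Fact q.Prime], (⟨q, Fact.out⟩ : Nat.Primes) ∉ S →
      ∀ σ : GalQ, (p : ℤ) ∣ ordAt q σ y) : IsSElt S ρ := by
  have hp : p.Prime := Fact.out
  obtain ⟨U, hU, hyU⟩ := hy
  obtain ⟨V, hV, hρV⟩ := isSmooth_Lx (F := ℚ) (L := Qbar) ρ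
  refine ⟨MulAction.stabilizer GalQ ρ ⊓ U, galLevelsS_ok_of_inertia
    ((galLevels ℚ Qbar).inf_ok ((galLevels ℚ Qbar).mono hV fun s hs => hρV s hs)
      (galLevels_ok_of_galLevelsS hU)) fun r hr A hA g hg => ?_, fun g hg => hg.1⟩
  have hgU : g ∈ U := by
    obtain ⟨E, hE, hle⟩ := hU
    exact hle (hE.2 r hr A hA hg)
  refine ⟨?_, hgU⟩
  have : Fact (r : ℕ).Prime := ⟨r.2⟩
  obtain ⟨τ, rfl⟩ := Places.exists_smul_padicPlace_eq (r : ℕ) hA
  obtain ⟨k, hk⟩ := hord (r : ℕ) hr τ⁻¹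
  have hny := IsSElt.nrmAt_eq (S := S) (y := y) (r : ℕ) ⟨U, hU, hyU⟩ hr τ⁻¹
  rw [hk, ← hρ, nrmAt_nsmul, neg_mul_eq_mul_neg, mul_comm, zpow_mul, zpow_natCast] at hny
  have hnρ : nrmAt (r : ℕ) τ⁻¹ ρ = ((r : ℕ) : ℝ) ^ (-k) :=
    (pow_left_inj₀ (nrmAt_pos _ _ _).le (zpow_nonneg (Nat.cast_nonneg _) _) hp.ne_zero).1 hny
  set x : Qbar := ((ρ.toMul : Qbarˣ) : Qbar) * ((r : ℕ) : Qbar) ^ (-k)
  have hx0 : x ≠ 0 := mul_ne_zero ρ.toMul.ne_zero (zpow_ne_zero _ (Nat.cast_ne_zero.2 r.2.ne_zero))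
  have hxn : ‖padicEmbedding (r : ℕ) (τ⁻¹ x)‖ = 1 := by
    rw [map_mul, map_mul, norm_mul, map_zpow₀, map_zpow₀, map_natCast, map_natCast, norm_zpow,
      Places.norm_natCast_self, inv_zpow, ← zpow_neg, neg_neg]
    show nrmAt (r : ℕ) τ⁻¹ ρ * _ = 1
    rw [hnρ, ← zpow_add₀ (Nat.cast_ne_zero.2 r.2.ne_zero), neg_add_cancel, zpow_zero]
  have hmem : ∀ z : Qbar, ‖padicEmbedding (r : ℕ) (τ⁻¹ z)‖ ≤ 1 →
      (τ • padicPlace (r : ℕ)).valuation z ≤ 1 := fun z hz => by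
    rw [ValuationSubring.valuation_le_one_iff,
      ValuationSubring.mem_pointwise_smul_iff_inv_smul_mem]
    exact (Places.mem_padicPlace (r : ℕ)).2 hz
  have hxA : (τ • padicPlace (r : ℕ)).valuation x = 1 := by
    refine le_antisymm (hmem x hxn.le) ?_
    have h := hmem x⁻¹ (by rw [map_inv₀, map_inv₀, norm_inv, hxn, inv_one])
    rw [map_inv₀] at h
    exact (inv_le_one₀ (zero_lt_iff.2 ((Valuation.ne_zero_iff _).2 hx0))).1 h
  have hfix : g x = x := by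
    refine Places.apply_eq_of_pow_eq r.2
      (fun h => hr (by rwa [show r = ⟨p, Fact.out⟩ from Subtype.ext h])) hA hxA hg ?_
    rw [mul_pow, map_mul, map_pow g (((r : ℕ) : Qbar) ^ (-k)), map_zpow₀, map_natCast]
    congr 1
    have h := congrArg (fun z : Lx Qbar => ((z.toMul : Qbarˣ) : Qbar)) (hyU g hgU)
    rw [← hρ] at h
    show g _ = _
    rw [← Units.val_pow_eq_pow_val, ← toMul_nsmul]
    exact h
  rw [map_mul, map_zpow₀, map_natCast,
    mul_left_inj' (zpow_ne_zero _ (Nat.cast_ne_zero.2 r.2.ne_zero))] at hfix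
  exact Additive.toMul.injective (Units.ext hfix)

/-- Iterated roots. -/
theorem isSElt_root_pow (hpS : (⟨p, Fact.out⟩ : Nat.Primes) ∈ S) :
    ∀ (k : ℕ) {y ρ : Lx Qbar}, IsSElt S y → p ^ k • ρ = y →
      (∀ (q : ℕ) [Fact q.Prime], (⟨q, Fact.out⟩ : Nat.Primes) ∉ S →
        ∀ σ : GalQ, ((p : ℤ) ^ k) ∣ ordAt q σ y) → IsSElt S ρ := by
  intro k
  induction k with
  | zero => intro y ρ hy hρ _; rw [pow_zero, one_nsmul] at hρ; subst hρ; exact hy
  | succ k ih =>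
    intro y ρ hy hρ hord
    have hk : p • (p ^ k • ρ) = y := by rw [← mul_nsmul', mul_comm, ← pow_succ]; exact hρ
    have hz : IsSElt S (p ^ k • ρ) := isSElt_root hpS hy hk fun q _ hq σ =>
      (dvd_pow_self (p : ℤ) k.succ_ne_zero).trans (hord q hq σ)
    refine ih hz rfl fun q _ hq σ => ?_
    have h := hord q hq σ
    rw [← hk, hz.ordAt_nsmul q hq, pow_succ', mul_dvd_mul_iff_left
      (Int.natCast_ne_zero.2 (Fact.out : p.Prime).ne_zero)] at h
    exact h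

section Generator

variable (E : IntermediateField ℚ Qbar) [NumberField E]

/-- At a place unramified over `q` the prime `q` is a uniformizer. -/
theorem ordAt_uniformizer (hE : E.IsUnramifiedOutside S)
    (hq : (⟨q, Fact.out⟩ : Nat.Primes) ∉ S) (σ : GalQ) {x : E} (hx : x ≠ 0) {m : ℕ}
    (hm : (Places.placeOf q (Places.twistEmb q E σ)).valuation E x = WithZero.exp (-(m : ℤ))) :
    ordAt q σ (Additive.ofMul (Units.mk0 (x : Qbar) (by simpa using hx))) = m := by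
  have := hE.1
  set τ := Places.twistEmb q E σ
  set v := Places.placeOf q τ
  obtain ⟨r, hr0, hr1, hr⟩ := Places.exists_norm_apply_eq q τ
  obtain ⟨π, hπ⟩ := v.intValuation_exists_uniformizer
  have hπ0 : (algebraMap (𝓞 E) E π) ≠ 0 := fun h => WithZero.exp_ne_zero (a := (-1 : ℤ)) (by
    rw [← hπ, ← v.valuation_of_algebraMap (K := E)]
    exact (congrArg (v.valuation E) h).trans (map_zero _))
  have h1 : ‖τ (algebraMap (𝓞 E) E π)‖ = r := by
    rw [hr _ 1 (by rw [v.valuation_of_algebraMap, hπ]), zpow_one]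
  obtain ⟨j, hj⟩ := Places.exists_norm_eq_zpow_of_isUnramifiedOutside q hE hq σ
    (Places.embedding_mem_localField q (F := E.map σ.toAlgHom)
      ⟨((algebraMap (𝓞 E) E π : E) : Qbar), SetLike.coe_mem _, rfl⟩)
    (by simpa using hπ0)
  change ‖τ (algebraMap (𝓞 E) E π)‖ = _ at hj
  rw [h1] at hj
  obtain ⟨e, he, heq⟩ : ∃ e : ℤ, 0 < e ∧ v.valuation E (q : E) = WithZero.exp (-e) := by
    have hlt : v.valuation E (q : E) < 1 := by
      rw [← map_natCast (algebraMap (𝓞 E) E), v.valuation_of_algebraMap,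
        HeightOneSpectrum.intValuation_lt_one_iff_mem]
      exact Places.natCast_mem_placeOf q τ
    have hne : v.valuation E (q : E) ≠ 0 := by
      rw [Valuation.ne_zero_iff, Nat.cast_ne_zero]; exact (Fact.out : q.Prime).ne_zero
    refine ⟨-WithZero.log (v.valuation E (q : E)), ?_, by rw [neg_neg, WithZero.exp_log hne]⟩
    rw [neg_pos, WithZero.log_lt_iff_lt_exp hne, WithZero.exp_zero]
    exact hlt
  have hq' := hr _ e heq
  rw [map_natCast, Places.norm_natCast_self, hj, ← zpow_neg_one, ← zpow_mul] at hq'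
  have hje : (-1 : ℤ) = j * e := zpow_right_injective₀
    (by exact_mod_cast (Fact.out : q.Prime).pos)
      (by exact_mod_cast (Fact.out : q.Prime).one_lt.ne') hq'
  have hj1 : j = -1 := by
    rcases Int.eq_one_or_neg_one_of_mul_eq_neg_one hje.symm with h | h
    · rw [h, one_mul] at hje; omega
    · exact h
  refine ordAt_eq ?_
  show ‖padicEmbedding q (σ (x : Qbar))‖ = _
  rw [← Places.twistEmb_apply, hr x m hm, hj, hj1, ← zpow_mul, neg_one_mul]

/-- An element with prescribed orders modulo `p`: one at a given place of `E`, zero elsewhere. -/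
theorem exists_ord_one (hE : E.IsUnramifiedOutside S) (hpS : (⟨p, Fact.out⟩ : Nat.Primes) ∈ S)
    (q₀ : ℕ) [Fact q₀.Prime] (hq₀ : (⟨q₀, Fact.out⟩ : Nat.Primes) ∉ S) (g₀ : GalQ) :
    ∃ β : Lx Qbar, IsSElt S β ∧
      (∀ σ : GalQ, (∃ d : GalLoc q₀, g₀⁻¹ * localGaloisToGlobal q₀ d * σ ∈ E.fixingSubgroup) →
        (ordAt q₀ σ β : ZMod p) = 1) ∧
      (∀ (q : ℕ) [Fact q.Prime], (⟨q, Fact.out⟩ : Nat.Primes) ∉ S → ∀ σ : GalQ,
        (q = q₀ → ¬ ∃ d : GalLoc q, g₀⁻¹ * localGaloisToGlobal q d * σ ∈ E.fixingSubgroup) →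
        (ordAt q σ β : ZMod p) = 0) := by
  classical
  have hp : p.Prime := Fact.out
  have := hE.1
  set P := Places.placeOf q₀ (Places.twistEmb q₀ E g₀)
  obtain ⟨a, ha0, haP, hav⟩ := Global.exists_generator_pow P
  set h := Fintype.card (ClassGroup (𝓞 E))
  obtain ⟨k, m, hm, hkm⟩ := Nat.exists_eq_pow_mul_and_not_dvd (Fintype.card_ne_zero :
    Fintype.card (ClassGroup (𝓞 E)) ≠ 0) p hp.ne_one
  have hx0 : (algebraMap (𝓞 E) E a) ≠ 0 := fun h => ha0 (IsFractionRing.injective (𝓞 E) E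
    (h.trans (map_zero _).symm))
  set A : Lx Qbar :=
    Additive.ofMul (Units.mk0 ((algebraMap (𝓞 E) E a : E) : Qbar) (by simpa using hx0))
  have hA : IsSElt S A := ⟨E.fixingSubgroup, galLevelsS_ok_fixingSubgroup hE, fun g hg =>
    Additive.toMul.injective (Units.ext
      ((IntermediateField.mem_fixingSubgroup_iff E g).1 hg _ (SetLike.coe_mem _)))⟩
  have hordP : ∀ σ : GalQ,
      (∃ d : GalLoc q₀, g₀⁻¹ * localGaloisToGlobal q₀ d * σ ∈ E.fixingSubgroup) →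
      ordAt q₀ σ A = (h : ℤ) := fun σ hd => by
    refine ordAt_uniformizer q₀ E hE hq₀ σ hx0 ?_
    rw [← (Places.placeOf_twistEmb_eq_iff q₀ E g₀ σ).2 hd,
      HeightOneSpectrum.valuation_of_algebraMap]
    exact haP
  have hordne : ∀ (q : ℕ) [Fact q.Prime], (⟨q, Fact.out⟩ : Nat.Primes) ∉ S → ∀ σ : GalQ,
      (q = q₀ → ¬ ∃ d : GalLoc q, g₀⁻¹ * localGaloisToGlobal q d * σ ∈ E.fixingSubgroup) →
      ordAt q σ A = 0 := fun q _ hq σ hne => by
    refine (ordAt_uniformizer q E hE hq σ hx0 (m := 0) ?_).trans Nat.cast_zero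
    rw [Nat.cast_zero, neg_zero, WithZero.exp_zero, HeightOneSpectrum.valuation_of_algebraMap]
    refine hav _ fun heq => ?_
    have hq₀q : q = q₀ := Places.eq_of_natCast_mem (Fact.out : q.Prime) (Fact.out : q₀.Prime)
      (Places.natCast_mem_placeOf q _) (by rw [heq]; exact Places.natCast_mem_placeOf q₀ _)
    subst hq₀q
    exact hne rfl ((Places.placeOf_twistEmb_eq_iff q E g₀ σ).1 heq.symm)
  obtain ⟨ρ, hρ⟩ : ∃ ρ : Lx Qbar, p ^ k • ρ = A := by
    obtain ⟨z, hz⟩ := IsAlgClosed.exists_pow_nat_eq ((A.toMul : Qbarˣ) : Qbar) (pow_pos hp.pos k)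
    refine ⟨Additive.ofMul (Units.mk0 z ?_), Additive.toMul.injective (Units.ext ?_)⟩
    · exact fun h0 => A.toMul.ne_zero (by rw [← hz, h0, zero_pow (pow_ne_zero k hp.ne_zero)])
    · rw [toMul_nsmul, Units.val_pow_eq_pow_val]; exact hz
  have hρS : IsSElt S ρ := isSElt_root_pow hpS k hA hρ fun q _ hq σ => by
    by_cases hd : q = q₀ ∧ ∃ d : GalLoc q, g₀⁻¹ * localGaloisToGlobal q d * σ ∈ E.fixingSubgroup
    · obtain ⟨rfl, hd⟩ := hd
      rw [hordP σ hd]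
      exact ⟨m, by rw [show h = p ^ k * m from hkm]; push_cast; rfl⟩
    · push Not at hd
      rw [hordne q hq σ fun e => fun ⟨d, hd'⟩ => hd e d hd']
      exact dvd_zero _
  have hpk : ((p : ℤ) ^ k) ≠ 0 := pow_ne_zero _ (Int.natCast_ne_zero.2 hp.ne_zero)
  refine ⟨((m : ZMod p)⁻¹).val • ρ, hρS.nsmul _, fun σ hd => ?_, fun q _ hq σ hne => ?_⟩
  · have h1 := hordP σ hd
    rw [← hρ, hρS.ordAt_nsmul q₀ hq₀, show h = p ^ k * m from hkm] at h1
    push_cast at h1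
    rw [hρS.ordAt_nsmul q₀ hq₀, mul_left_cancel₀ hpk h1]
    push_cast
    rw [ZMod.natCast_zmod_val, inv_mul_cancel₀]
    rwa [Ne, ZMod.natCast_eq_zero_iff]
  · have h1 := hordne q hq σ hne
    rw [← hρ, hρS.ordAt_nsmul q hq] at h1
    push_cast at h1
    rw [hρS.ordAt_nsmul q hq, (mul_eq_zero.1 h1).resolve_left hpk]
    simp

end Generator

end Fermat.Agent.Duality.OrdLevels

end
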