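import Fermat.Agent.Duality.Base.Defs

/-!
# Local vanishing does not depend on the representative of a place
-/

set_option autoImplicit false

noncomputable section

namespace Fermat.Agent.Duality

variable {p : ℕ} [Fact p.Prime]

/-- An inner automorphism changes a two-cocycle with trivial action by a coboundary. -/
lemma cocycle_conj {G A : Type} [Group G] [AddCommGroup A] (c : G → G → A)
    (hc : ∀ x y z : G, c y z - c (x * y) z + c x (y * z) - c x y = 0) (h a b : G) :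
    (c b h - c h (h⁻¹ * b * h)) - (c (a * b) h - c h (h⁻¹ * (a * b) * h)) +
        (c a h - c h (h⁻¹ * a * h)) =
      c a b - c (h⁻¹ * a * h) (h⁻¹ * b * h) := by
  have e1 : h * (h⁻¹ * a * h) = a * h := by group
  have e2 : h⁻¹ * a * h * (h⁻¹ * b * h) = h⁻¹ * (a * b) * h := by group
  have e3 : h * (h⁻¹ * b * h) = b * h := by group
  have r1 := hc a b h
  have r2 := hc h (h⁻¹ * a * h) (h⁻¹ * b * h)
  have r3 := hc a h (h⁻¹ * b * h)
  rw [e1, e2] at r2
  rw [e3] at r3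
  linear_combination (norm := abel) r1 + r2 - r3

variable (q : ℕ) [Fact q.Prime] {H : Subgroup GalQ}

/-- Local vanishing in degree two at one representative gives it at the whole double coset. -/
theorem locμ₂_eq_zero_of_rep (hμ : ∀ (h : H) (z : Mu p Qbar), h • z = z) (g : GalQ)
    (d₀ : GalLoc q) {h : GalQ} (hh : h ∈ H) (x : H2μ p H) (hx : locμ₂ p q H g x = 0) :
    locμ₂ p q H (localGaloisToGlobal q d₀ * g * h) x = 0 := by
  have : NeZero p := ⟨(Fact.out : p.Prime).ne_zero⟩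
  obtain ⟨f, rfl⟩ := Coh.H2.mk_surjective x
  obtain ⟨y, hy, hdy⟩ := Coh.H2.mk_eq_zero.mp hx
  set F : H → H → Mu p Qbar := f.1 with hF
  set u : H → Mu p Qbar :=
    fun A => F A ⟨h, hh⟩ - F ⟨h, hh⟩ ((⟨h, hh⟩ : H)⁻¹ * A * ⟨h, hh⟩) with hudef
  have hc : ∀ a b c : H, F b c - F (a * b) c + F a (b * c) - F a b = 0 := fun a b c => by
    have h1 := f.2.2 a b c
    rwa [hμ] at h1
  set t := Coh.twistHom (localGaloisToGlobal q) g H
  set t' := Coh.twistHom (localGaloisToGlobal q) (localGaloisToGlobal q d₀ * g * h) H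
  have hconjmem : ∀ e : locGroup q H (localGaloisToGlobal q d₀ * g * h),
      d₀⁻¹ * (e : GalLoc q) * d₀ ∈ locGroup q H g := fun e => by
    have h1 := mul_mem (mul_mem hh (t' e).2) (inv_mem hh)
    rw [Coh.mem_twisted]
    convert h1 using 1
    rw [Coh.coe_twistHom, map_mul, map_mul, map_inv]
    group
  let κ : locGroup q H (localGaloisToGlobal q d₀ * g * h) →* locGroup q H g :=
    MonoidHom.mk' (fun e => ⟨d₀⁻¹ * (e : GalLoc q) * d₀, hconjmem e⟩) fun a b => Subtype.ext (by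
      show d₀⁻¹ * ((a : GalLoc q) * b) * d₀ = (d₀⁻¹ * a * d₀) * (d₀⁻¹ * b * d₀)
      group)
  have hκ : ((galLevels ℚ_[q] (PadicAlgCl q)).restrict
      (locGroup q H (localGaloisToGlobal q d₀ * g * h))).Compat
      ((galLevels ℚ_[q] (PadicAlgCl q)).restrict (locGroup q H g)) κ := by
    rintro U ⟨V, hV, hVU⟩
    obtain ⟨N, hN, hNn, hNV⟩ := (galLevels ℚ_[q] (PadicAlgCl q)).exists_normal hV
    exact ⟨N, hN, fun e he => hVU (show d₀⁻¹ * (e : GalLoc q) * d₀ ∈ V from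
      hNV (by simpa using hNn.conj_mem _ he d₀⁻¹))⟩
  have ht : ∀ e, t' e = (⟨h, hh⟩ : H)⁻¹ * t (κ e) * ⟨h, hh⟩ := fun e => Subtype.ext (by
    show (localGaloisToGlobal q d₀ * g * h)⁻¹ * localGaloisToGlobal q (e : GalLoc q) *
        (localGaloisToGlobal q d₀ * g * h) =
      h⁻¹ * (g⁻¹ * localGaloisToGlobal q (d₀⁻¹ * (e : GalLoc q) * d₀) * g) * h
    rw [map_mul, map_mul, map_inv]
    group)
  obtain ⟨U, hU, hfU⟩ := f.2.1
  have huc : Coh.IsConst₁ ((galLevels ℚ Qbar).restrict H) u := by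
    obtain ⟨M, hM, hMn, hMU⟩ := ((galLevels ℚ Qbar).restrict H).exists_normal hU
    refine ⟨M, hM, fun A s hs => ?_⟩
    have h1 := hfU A ⟨h, hh⟩ s (hMU hs) 1 (one_mem U)
    rw [mul_one] at h1
    have h2 := hfU ⟨h, hh⟩ ((⟨h, hh⟩ : H)⁻¹ * A * ⟨h, hh⟩) 1 (one_mem U)
      ((⟨h, hh⟩ : H)⁻¹ * s * ⟨h, hh⟩) (hMU (by simpa using hMn.conj_mem s hs (⟨h, hh⟩ : H)⁻¹))
    rw [mul_one] at h2
    simp only [hudef, hF]
    rw [h1, show (⟨h, hh⟩ : H)⁻¹ * (A * s) * ⟨h, hh⟩ = (⟨h, hh⟩ : H)⁻¹ * A * ⟨h, hh⟩ *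
      ((⟨h, hh⟩ : H)⁻¹ * s * ⟨h, hh⟩) by group, h2]
  refine Coh.H2.mk_eq_zero.mpr ⟨fun e => d₀ • (y (κ e) - muEmb q (g • u (t (κ e)))),
    ?_, funext fun a => funext fun b => ?_⟩
  · exact (((hy.comp₂ ((huc.precomp (Coh.compat_twistHom (compat_localGaloisToGlobal q) g H)).comp
      fun z => muEmb q (g • z)) (· - ·)).precomp hκ).comp (d₀ • ·))
  show Coh.d₁ _ _ _ a b = muEmb q ((localGaloisToGlobal q d₀ * g * h) • F (t' a) (t' b))
  rw [mul_smul, show h • F (t' a) (t' b) = F (t' a) (t' b) from hμ ⟨h, hh⟩ _, mul_smul,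
    isEquivariant_muEmb q d₀, ht, ht]
  have hsm : ∀ (e : locGroup q H (localGaloisToGlobal q d₀ * g * h))
      (w : Mu p (PadicAlgCl q)), e • d₀ • w = d₀ • κ e • w := fun e w => by
    show (e : GalLoc q) • d₀ • w = d₀ • (d₀⁻¹ * (e : GalLoc q) * d₀) • w
    rw [smul_smul, smul_smul, mul_assoc d₀⁻¹, mul_inv_cancel_left]
  have htriv : ∀ (e : locGroup q H g) (w : Mu p (PadicAlgCl q)), e • w = w := fun e w => by
    obtain ⟨v, rfl⟩ := (muEmb_bijective (p := p) q).2 w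
    show (e : GalLoc q) • muEmb q v = muEmb q v
    rw [← isEquivariant_muEmb]
    refine congrArg _ ?_
    have h1 := hμ (t e) (g⁻¹ • v)
    rw [Subgroup.smul_def, Coh.coe_twistHom, smul_smul, mul_assoc, mul_inv_cancel, mul_one,
      mul_smul] at h1
    exact MulAction.injective g⁻¹ h1
  have h3 : y (κ b) - y (κ a * κ b) + y (κ a) =
      muEmb q (g • F (t (κ a)) (t (κ b))) := by
    have h4 := congrFun (congrFun hdy (κ a)) (κ b)
    rw [Coh.d₁_apply, htriv] at h4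
    exact h4
  rw [Coh.d₁_apply, hsm, htriv, ← smul_sub, ← smul_add]
  refine congrArg _ ?_
  have h5 := congrArg (fun z => muEmb q (g • z)) (cocycle_conj F hc ⟨h, hh⟩ (t (κ a)) (t (κ b)))
  simp only [smul_sub, smul_add, map_sub, map_add] at h5
  simp only [hudef, map_mul, smul_sub, map_sub]
  linear_combination (norm := abel) h3 - h5

end Fermat.Agent.Duality

end
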