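import Fermat.Agent.Duality.Base.Defs
import Fermat.Agent.Duality.GlobalInputs

/-!
# Invariant homomorphisms into the module of places
-/

set_option autoImplicit false

noncomputable section

namespace Fermat.Agent.Duality

variable {p : ℕ} [Fact p.Prime]

section Coord

variable {Ω : Type} [Field Ω] {z₀ : Mu p Ω} (hz : z₀ ≠ 0)

/-- The coordinate with respect to a nonzero root of unity. -/
def muCoord : Mu p Ω →+ ZMod p :=
  Zp.of.symm.toAddMonoidHom.comp (muDlog hz).toAddMonoidHom

lemma muCoord_smul (z : Mu p Ω) : (muCoord hz z).val • z₀ = z := by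
  have h := zpSmul_muDlog hz z
  rwa [zpSmul_apply] at h

lemma muCoord_nsmul_self (k : ℕ) : muCoord hz (k • z₀) = (k : ZMod p) := by
  have : Fact (1 < p) := ⟨(Fact.out : p.Prime).one_lt⟩
  have h1 : muCoord hz z₀ = 1 := by
    by_contra h
    have h2 := muCoord_smul hz z₀
    have h3 : ((muCoord hz z₀).val - 1 : ℤ) • z₀ = 0 := by
      rw [sub_smul, one_smul, natCast_zsmul, h2, sub_self]
    have h4 : (addOrderOf z₀ : ℤ) ∣ (muCoord hz z₀).val - 1 :=
      addOrderOf_dvd_iff_zsmul_eq_zero.mpr h3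
    rw [addOrderOf_eq_prime (torsion_Mu z₀) hz] at h4
    refine h (sub_eq_zero.mp ?_)
    have h5 := (ZMod.intCast_zmod_eq_zero_iff_dvd _ p).mpr h4
    simpa using h5
  rw [map_nsmul, h1, nsmul_eq_mul, mul_one]

include hz in
/-- The multiples of a nonzero root exhaust `μ_p`. -/
lemma exists_nsmul_mu (z : Mu p Ω) : ∃ k : ℕ, z = k • z₀ :=
  ⟨_, (muCoord_smul hz z).symm⟩

end Coord

section Hom

variable {S : Finset Nat.Primes} {H : Subgroup GalQ} (hH : (galLevelsS S).ok H)

attribute [local instance] placePrime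

/-- Abbreviation for the openness of an `S`-level. -/
abbrev okAll : (galLevels ℚ Qbar).ok H := galLevels_ok_of_galLevelsS hH

variable (hμ : ∀ (h : H) (z : Mu p Qbar), h • z = z)

/-- The invariant homomorphism with prescribed scalars at the places. -/
def placeFn (n : PlaceIdx S H (okAll hH) → ZMod p) :
    Coh.inv H (Coh.HomMod (Mu p Qbar) (PlaceJ p S)) :=
  ⟨Coh.HomMod.of (AddMonoidHom.mk'
    (fun m => Coh.PlaceMod.of (fun q x => (n (placeOfElt (okAll hH) q x)).val • (x • m))
      (fun q => ⟨H, hH, fun x h hh => by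
        show _ • ((x * h) • m) = _ • (x • m)
        rw [placeOfElt_mul_right _ q x hh, mul_smul,
          show h • m = m from hμ ⟨h, hh⟩ m]⟩ : ∀ q, Coh.IsConst₁ (galLevelsS S)
        (fun x => (n (placeOfElt (okAll hH) q x)).val • (x • m)))
      fun q d x => by
        show _ • ((locφ S q d * x) • m) = locφ S q d • _
        rw [placeOfElt_smul_left _ q d x, mul_smul, ← smul_comm])
    fun m m' => Coh.PlaceMod.ext fun q x => by
      show (n (placeOfElt (okAll hH) q x)).val • (x • (m + m')) =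
        (n (placeOfElt (okAll hH) q x)).val • (x • m) +
          (n (placeOfElt (okAll hH) q x)).val • (x • m')
      rw [smul_add, nsmul_add]),
    fun h => Coh.HomMod.ext fun m => Coh.PlaceMod.ext fun q x => by
      show (n (placeOfElt (okAll hH) q (x * (h : GalQ)))).val • ((x * (h : GalQ)) • h⁻¹ • m) =
        (n (placeOfElt (okAll hH) q x)).val • (x • m)
      rw [placeOfElt_mul_right _ q x h.2, mul_smul, Subgroup.smul_def, Subgroup.coe_inv,
        smul_inv_smul]⟩

omit [Fact (Nat.Prime p)] in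
lemma val_placeFn (n : PlaceIdx S H (okAll hH) → ZMod p) (q : ↥S) (x : GalQ) (m : Mu p Qbar) :
    Coh.PlaceMod.val q x ((placeFn hH hμ n : Coh.HomMod (Mu p Qbar) (PlaceJ p S)) m) =
      (n (placeOfElt (okAll hH) q x)).val • (x • m) := rfl

variable {z₀ : Mu p Qbar} (hz : z₀ ≠ 0)

/-- The scalar of a homomorphism into the module of places at a place. -/
def placeCoord (F : Coh.HomMod (Mu p Qbar) (PlaceJ p S)) (i : PlaceIdx S H (okAll hH)) : ZMod p :=
  muCoord hz ((placeG (okAll hH) i)⁻¹ • Coh.PlaceMod.val i.1 (placeG (okAll hH) i) (F z₀))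

lemma val_eq_placeCoord (F : Coh.HomMod (Mu p Qbar) (PlaceJ p S)) (i : PlaceIdx S H (okAll hH))
    (m : Mu p Qbar) :
    Coh.PlaceMod.val i.1 (placeG (okAll hH) i) (F m) =
      (placeCoord hH hz F i).val • (placeG (okAll hH) i • m) := by
  obtain ⟨k, rfl⟩ := exists_nsmul_mu hz m
  rw [map_nsmul, map_nsmul, smul_comm (placeG (okAll hH) i) k z₀, smul_comm,
    smul_comm (placeCoord hH hz F i).val (placeG (okAll hH) i) z₀, placeCoord, muCoord_smul,
    smul_inv_smul]

/-- An invariant homomorphism is determined by its scalars. -/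
lemma placeFn_placeCoord (F : Coh.inv H (Coh.HomMod (Mu p Qbar) (PlaceJ p S))) :
    placeFn hH hμ (placeCoord hH hz (F : Coh.HomMod (Mu p Qbar) (PlaceJ p S))) = F := by
  refine Subtype.ext (Coh.HomMod.ext fun m => Coh.PlaceMod.ext fun q x => ?_)
  obtain ⟨i, d, h, hh, rfl, hi, rfl⟩ := exists_placeOfElt_eq (okAll hH) q x
  rw [val_placeFn, placeOfElt_eq _ i d hh, mul_assoc, Coh.PlaceMod.val_left, mul_smul, mul_smul,
    show h • m = m from hμ ⟨h, hh⟩ m, ← smul_comm (locφ S i.1 d), ← val_eq_placeCoord hH hz]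
  refine congrArg _ ?_
  have h1 := Coh.HomMod.isEquivariant_of_mem_inv F.2 (⟨h, hh⟩ : H) m
  rw [show (MonoidHom.id H) (⟨h, hh⟩ : H) • m = m from hμ _ m] at h1
  refine (congrArg (Coh.PlaceMod.val i.1 (placeG (okAll hH) i)) h1).trans ?_
  show Coh.PlaceMod.val i.1 (placeG (okAll hH) i)
    (h • (F : Coh.HomMod (Mu p Qbar) (PlaceJ p S)) m) = _
  rw [Coh.PlaceMod.val_smul]

end Hom

end Fermat.Agent.Duality

end
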