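import Fermat.Agent.Duality.Base.PlaceFormula

/-!
# Degree one classes with values in homomorphisms into the module of places
-/

set_option autoImplicit false

noncomputable section

namespace Fermat.Agent.Duality

variable {p : ℕ} [Fact p.Prime] {S : Finset Nat.Primes} {H : Subgroup GalQ}
  (hH : (galLevelsS S).ok H) (hμ : ∀ (h : H) (z : Mu p Qbar), h • z = z)
  {z₀ : Mu p Qbar}

attribute [local instance] placePrime

variable (z₀) in
/-- Evaluation at the chosen root of unity. -/
def evalMu (A : Type) [AddCommGroup A] : Coh.HomMod (Mu p Qbar) A →+ A where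
  toFun F := F z₀
  map_zero' := rfl
  map_add' _ _ := rfl

omit [Fact (Nat.Prime p)] in
include hμ in
lemma isEquivariant_evalMu (A : Type) [AddCommGroup A] [DistribMulAction H A] :
    Coh.IsEquivariant (MonoidHom.id H) (evalMu z₀ A) := fun h F => by
  show (h • F) z₀ = h • F z₀
  rw [Coh.HomMod.smul_apply, hμ]

variable (z₀) in
/-- Localisation at a place of classes with values in homomorphisms into the module of places. -/
def locJ (i : PlaceIdx S H (okAll hH)) :
    Coh.H1 ((galLevelsS S).restrict H) (Coh.HomMod (Mu p Qbar) (PlaceJ p S)) →+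
      H1μ p (placeGroup (okAll hH) i) :=
  (Coh.H1.map (Coh.compat_twistHom (compat_localGaloisToGlobal_S (placeP (okAll hH) i) S)
    (placeG (okAll hH) i) H) (isEquivariant_placeEval hH i)).comp
    (Coh.H1.map (Coh.Levels.compat_id _) (isEquivariant_evalMu (z₀ := z₀) hμ (PlaceJ p S)))

include hμ in
/-- **Shapiro**: localisation is injective. -/
theorem eq_zero_of_locJ (hz : z₀ ≠ 0)
    (e : Coh.H1 ((galLevelsS S).restrict H) (Coh.HomMod (Mu p Qbar) (PlaceJ p S)))
    (he : ∀ i, locJ hH hμ z₀ i e = 0) : e = 0 := by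
  have : NeZero p := ⟨(Fact.out : p.Prime).ne_zero⟩
  obtain ⟨z, rfl⟩ := Coh.H1.mk_surjective e
  set E : H → PlaceJ p S := fun h => (z : H → Coh.HomMod (Mu p Qbar) (PlaceJ p S)) h z₀ with hE
  have hadd : ∀ a b : H, E (a * b) = (a : GalQ) • E b + E a := fun a b => by
    simp only [hE]
    rw [(Coh.mem_Z1.mp z.2).2 a b, Coh.HomMod.add_apply]
    exact congrArg (· + _) (isEquivariant_evalMu hμ (PlaceJ p S) a _)
  have hloc : ∀ (i : PlaceIdx S H (okAll hH)) (d : placeGroup (okAll hH) i),
      Coh.PlaceMod.val i.1 (placeG (okAll hH) i)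
        (E (Coh.twistHom _ (placeG (okAll hH) i) H d)) = 0 :=
    fun i d => by
      obtain ⟨b, hb⟩ := Coh.H1.mk_eq_zero.mp (he i)
      have h1 : muEmb (placeP (okAll hH) i) (Coh.PlaceMod.val i.1 (placeG (okAll hH) i)
          (E (Coh.twistHom _ (placeG (okAll hH) i) H d))) = d • b - b := hb d
      rw [smul_muLoc (okAll hH) hμ i d b, sub_self,
        ← map_zero (muEmb (p := p) (placeP (okAll hH) i))] at h1
      exact (muEmb_bijective _).1 h1
  -- the value on a double coset
  have hwd : ∀ (i k : PlaceIdx S H (okAll hH)) (d : GalLoc (placeP (okAll hH) i))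
      (e : GalLoc (placeP (okAll hH) k)) (h h' : H), i = k →
      localGaloisToGlobal (placeP (okAll hH) i) d * placeG (okAll hH) i * (h : GalQ) =
        localGaloisToGlobal (placeP (okAll hH) k) e * placeG (okAll hH) k * (h' : GalQ) →
      localGaloisToGlobal (placeP (okAll hH) i) d •
          Coh.PlaceMod.val i.1 (placeG (okAll hH) i) (E h) =
        localGaloisToGlobal (placeP (okAll hH) k) e •
          Coh.PlaceMod.val k.1 (placeG (okAll hH) k) (E h') := by
    rintro i _ d e h h' rfl hx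
    have h1 : (placeG (okAll hH) i)⁻¹ * localGaloisToGlobal (placeP (okAll hH) i) (d⁻¹ * e) *
        placeG (okAll hH) i = (h : GalQ) * (h' : GalQ)⁻¹ := by
      rw [eq_mul_inv_iff_mul_eq, map_mul, map_inv]
      refine mul_left_cancel (a := localGaloisToGlobal (placeP (okAll hH) i) d *
        placeG (okAll hH) i) ?_
      simp only [mul_assoc, mul_inv_cancel_left]
      simpa only [mul_assoc] using hx.symm
    have ht : d⁻¹ * e ∈ placeGroup (okAll hH) i := by
      rw [Coh.mem_twisted, h1]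
      exact mul_mem h.2 (inv_mem h'.2)
    have hd : h = Coh.twistHom _ (placeG (okAll hH) i) H ⟨d⁻¹ * e, ht⟩ * h' := Subtype.ext (by
      rw [Subgroup.coe_mul, Coh.coe_twistHom]
      exact (eq_mul_inv_iff_mul_eq.mp h1).symm)
    rw [hd, hadd, map_add, hloc, add_zero, Coh.PlaceMod.val_smul, Coh.coe_twistHom, ← mul_assoc,
      ← mul_assoc, mul_inv_cancel, one_mul, Coh.PlaceMod.val_left, smul_smul, ← map_mul,
      mul_inv_cancel_left]
  choose iOf dOf hOf hmem hq hidx hdec using exists_placeOfElt_eq (okAll hH) (H := H) (S := S)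
  let f : ↥S → GalQ → Mu p Qbar := fun q x =>
    localGaloisToGlobal (placeP (okAll hH) (iOf q x)) (dOf q x) •
      Coh.PlaceMod.val (iOf q x).1 (placeG (okAll hH) (iOf q x)) (E ⟨hOf q x, hmem q x⟩)
  have hf : ∀ (i : PlaceIdx S H (okAll hH)) (d : GalLoc (placeP (okAll hH) i)) (h : H),
      f i.1 (localGaloisToGlobal (placeP (okAll hH) i) d * placeG (okAll hH) i * (h : GalQ)) =
        localGaloisToGlobal (placeP (okAll hH) i) d •
          Coh.PlaceMod.val i.1 (placeG (okAll hH) i) (E h) := fun i d h =>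
    hwd _ i _ d ⟨_, hmem _ _⟩ h
      ((hidx _ _).symm.trans (placeOfElt_eq (okAll hH) i d h.2)) (hdec _ _).symm
  have hright : ∀ (q : ↥S) (x : GalQ) (u : H),
      f q (x * (u : GalQ)) = Coh.PlaceMod.val q x (E u) + f q x := fun q x u => by
    obtain ⟨i, d, h, hh, rfl, -, rfl⟩ := exists_placeOfElt_eq (okAll hH) q x
    rw [show localGaloisToGlobal (placeP (okAll hH) i) d * placeG (okAll hH) i * h * (u : GalQ) =
      localGaloisToGlobal (placeP (okAll hH) i) d * placeG (okAll hH) i *
        ((⟨h, hh⟩ * u : H) : GalQ) from mul_assoc _ _ _, hf i d _, hadd, map_add, smul_add,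
      hf i d ⟨h, hh⟩, Coh.PlaceMod.val_smul, mul_assoc (localGaloisToGlobal _ d),
      Coh.PlaceMod.val_left]
  obtain ⟨U, hU, hzU⟩ := z.2.1
  obtain ⟨N, hN, -, hNH, hNU⟩ := Coh.exists_normal_level hH hU
  have hE1 : ∀ u : H, u ∈ U → E u = 0 := fun u hu => by
    have h1 : E (1 * u) = E 1 := congrArg (fun F : Coh.HomMod (Mu p Qbar) (PlaceJ p S) => F z₀)
      (hzU 1 u hu)
    rw [one_mul] at h1
    rw [h1]
    simpa using hadd 1 1
  let F : PlaceJ p S := Coh.PlaceMod.of f
    (fun q => ⟨N, hN, fun x s hs => by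
      rw [show s = ((⟨s, hNH hs⟩ : H) : GalQ) from rfl, hright,
        hE1 ⟨s, hNH hs⟩ (hNU _ hs), map_zero, zero_add]⟩)
    (fun q d x => by
      obtain ⟨i, e, h, hh, rfl, -, rfl⟩ := exists_placeOfElt_eq (okAll hH) q x
      show f i.1 (localGaloisToGlobal (placeP (okAll hH) i) d * _) = localGaloisToGlobal _ d • _
      rw [← mul_assoc, ← mul_assoc, ← map_mul, hf i _ ⟨h, hh⟩, hf i _ ⟨h, hh⟩, map_mul, mul_smul])
  refine Coh.H1.mk_eq_zero.mpr ⟨Coh.HomMod.of (AddMonoidHom.mk'
    (fun m => (muCoord hz m).val • F) fun m m' => ?_), fun g => Coh.HomMod.ext fun m => ?_⟩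
  · rw [map_add, ← add_nsmul]
    conv_rhs => rw [← Nat.mod_add_div ((muCoord hz m).val + (muCoord hz m').val) p,
      ← ZMod.val_add, add_nsmul, mul_nsmul, Coh.PlaceMod.torsion torsion_Mu F, smul_zero, add_zero]
  · obtain ⟨k, rfl⟩ := exists_nsmul_mu hz m
    rw [map_nsmul, map_nsmul]
    refine congrArg (k • ·) ?_
    have : Fact (1 < p) := ⟨(Fact.out : p.Prime).one_lt⟩
    have h1 : muCoord hz z₀ = 1 := by simpa using muCoord_nsmul_self hz 1
    refine Eq.trans ?_ (congrArg (· - (muCoord hz z₀).val • F)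
      (isEquivariant_evalMu hμ (PlaceJ p S) g _).symm)
    show E g = (g : GalQ) • ((muCoord hz z₀).val • F) - (muCoord hz z₀).val • F
    rw [h1, ZMod.val_one, one_nsmul, eq_sub_iff_add_eq]
    exact Coh.PlaceMod.ext fun q x => (hright q x g).symm

end Fermat.Agent.Duality

end
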