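import Fermat.Agent.Duality.Base.PlaceShapiro

/-!
# Scalars in the module of places

When `H` fixes `μ_p`, the homomorphisms from `μ_p` are the values at a chosen root of unity, and the
module of places carries a pointwise product for which the diagonal roots of unity are scalars.
-/

set_option autoImplicit false

noncomputable section

namespace Fermat.Agent.Duality

variable {p : ℕ} [Fact p.Prime] {S : Finset Nat.Primes} {H : Subgroup GalQ}
  (hH : (galLevelsS S).ok H) (hμ : ∀ (h : H) (z : Mu p Qbar), h • z = z)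
  {z₀ : Mu p Qbar} (hz : z₀ ≠ 0)

attribute [local instance] placePrime

include hz in
lemma muPair_left_self (v : Mu p Qbar) : muPair hz z₀ v = v := by
  obtain ⟨k, rfl⟩ := exists_nsmul_mu hz v
  have h := muPair_pow hz 1 k
  rwa [one_nsmul, one_mul] at h

section Scal

variable {X : Type} [AddCommGroup X] (hX : ∀ x : X, p • x = 0)

/-- The homomorphism with a given value at the chosen root of unity. -/
def scalHom : X →+ Coh.HomMod (Mu p Qbar) X :=
  AddMonoidHom.mk' (fun x => Coh.HomMod.of (AddMonoidHom.mk' (fun m => (muCoord hz m).val • x)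
    fun m m' => by
      rw [map_add, ← add_nsmul]
      conv_rhs => rw [← Nat.mod_add_div ((muCoord hz m).val + (muCoord hz m').val) p,
        ← ZMod.val_add, add_nsmul, mul_nsmul, hX x, smul_zero, add_zero]))
    fun _ _ => Coh.HomMod.ext fun _ => nsmul_add _ _ _

lemma scalHom_self (x : X) : scalHom hz hX x z₀ = x := by
  have : Fact (1 < p) := ⟨(Fact.out : p.Prime).one_lt⟩
  have h1 : muCoord hz z₀ = 1 := by simpa using muCoord_nsmul_self hz 1
  show (muCoord hz z₀).val • x = x
  rw [h1, ZMod.val_one, one_nsmul]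

lemma scalHom_eval (F : Coh.HomMod (Mu p Qbar) X) : scalHom hz hX (F z₀) = F := by
  refine Coh.HomMod.ext fun m => ?_
  obtain ⟨k, rfl⟩ := exists_nsmul_mu hz m
  rw [map_nsmul, map_nsmul, scalHom_self]

include hμ in
lemma isEquivariant_scalHom [DistribMulAction H X] :
    Coh.IsEquivariant (MonoidHom.id H) (scalHom hz hX) := fun h x => by
  refine Coh.HomMod.ext fun m => ?_
  show (muCoord hz m).val • ((MonoidHom.id H) h • x) = h • ((muCoord hz (h⁻¹ • m)).val • x)
  rw [hμ, smul_comm]
  rfl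

end Scal

include hH hμ in
/-- Products of locally constant functions on the group, fixed by `H`. -/
lemma isConst₁_placeMul (A B : PlaceJ p S) (q : ↥S) :
    Coh.IsConst₁ (galLevelsS S) (fun x : GalQ =>
      x • muPair hz (x⁻¹ • Coh.PlaceMod.val q x A) (x⁻¹ • Coh.PlaceMod.val q x B)) := by
  obtain ⟨U, hU, hA⟩ := Coh.PlaceMod.isConst₁_val A q
  obtain ⟨V, hV, hB⟩ := Coh.PlaceMod.isConst₁_val B q
  refine ⟨U ⊓ V ⊓ H, (galLevelsS S).inf_ok ((galLevelsS S).inf_ok hU hV) hH, fun x s hs => ?_⟩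
  have hs1 : ∀ v : Mu p Qbar, s • v = v := fun v => hμ ⟨s, hs.2⟩ v
  have hs2 : ∀ v : Mu p Qbar, s⁻¹ • v = v := fun v => hμ ⟨s, hs.2⟩⁻¹ v
  simp only [hA x s hs.1.1, hB x s hs.1.2, mul_smul, mul_inv_rev, hs1, hs2]

/-- The pointwise product. -/
def placeMul : PlaceJ p S →+ PlaceJ p S →+ PlaceJ p S :=
  AddMonoidHom.mk'
    (fun A => AddMonoidHom.mk'
      (fun B => Coh.PlaceMod.of
        (fun q x => x • muPair hz (x⁻¹ • Coh.PlaceMod.val q x A) (x⁻¹ • Coh.PlaceMod.val q x B))
        (isConst₁_placeMul hH hμ hz A B)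
        fun q d x => by
          simp only [Coh.PlaceMod.val_left, mul_smul, mul_inv_rev, inv_smul_smul])
      fun B B' => Coh.PlaceMod.ext fun q x => by
        show x • muPair hz (x⁻¹ • Coh.PlaceMod.val q x A) (x⁻¹ • Coh.PlaceMod.val q x (B + B')) =
          x • muPair hz (x⁻¹ • Coh.PlaceMod.val q x A) (x⁻¹ • Coh.PlaceMod.val q x B) +
            x • muPair hz (x⁻¹ • Coh.PlaceMod.val q x A) (x⁻¹ • Coh.PlaceMod.val q x B')
        rw [map_add, smul_add, map_add, smul_add])
    fun A A' => AddMonoidHom.ext fun B => Coh.PlaceMod.ext fun q x => by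
      show x • muPair hz (x⁻¹ • Coh.PlaceMod.val q x (A + A')) (x⁻¹ • Coh.PlaceMod.val q x B) =
        x • muPair hz (x⁻¹ • Coh.PlaceMod.val q x A) (x⁻¹ • Coh.PlaceMod.val q x B) +
          x • muPair hz (x⁻¹ • Coh.PlaceMod.val q x A') (x⁻¹ • Coh.PlaceMod.val q x B)
      rw [map_add, smul_add, map_add, AddMonoidHom.add_apply, smul_add]

lemma val_placeMul (A B : PlaceJ p S) (q : ↥S) (x : GalQ) :
    Coh.PlaceMod.val q x (placeMul hH hμ hz A B) =
      x • muPair hz (x⁻¹ • Coh.PlaceMod.val q x A) (x⁻¹ • Coh.PlaceMod.val q x B) := rfl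

lemma placeMul_smul (h : H) (A B : PlaceJ p S) :
    placeMul hH hμ hz ((h : GalQ) • A) ((h : GalQ) • B) =
      (h : GalQ) • placeMul hH hμ hz A B := by
  refine Coh.PlaceMod.ext fun q x => ?_
  have h1 : ∀ v : Mu p Qbar, (h : GalQ) • v = v := fun v => hμ h v
  have h2 : ∀ v : Mu p Qbar, (h : GalQ)⁻¹ • v = v := fun v => hμ h⁻¹ v
  simp only [val_placeMul, Coh.PlaceMod.val_smul, mul_smul, mul_inv_rev, h1, h2]

lemma placeMul_comm (A B : PlaceJ p S) : placeMul hH hμ hz A B = placeMul hH hμ hz B A :=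
  Coh.PlaceMod.ext fun q x => by rw [val_placeMul, val_placeMul, muPair_comm]

variable (hμS : Coh.IsSmooth (galLevelsS S) (Mu p Qbar))

/-- Multiplication by a diagonal root of unity. -/
def diagMul : Mu p Qbar →+ PlaceJ p S →+ PlaceJ p S :=
  (placeMul hH hμ hz).comp (Coh.placeEmb (galLevelsS S) (locφ S) hμS)

lemma diagMul_self (X : PlaceJ p S) : diagMul hH hμ hz hμS z₀ X = X :=
  Coh.PlaceMod.ext fun q x => by
    rw [diagMul, AddMonoidHom.comp_apply, val_placeMul, Coh.val_placeEmb, inv_smul_smul,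
      muPair_left_self, smul_inv_smul]

lemma diagMul_emb (m m' : Mu p Qbar) :
    diagMul hH hμ hz hμS m (Coh.placeEmb (galLevelsS S) (locφ S) hμS m') =
      Coh.placeEmb (galLevelsS S) (locφ S) hμS (muPair hz m m') :=
  Coh.PlaceMod.ext fun q x => by
    rw [diagMul, AddMonoidHom.comp_apply, val_placeMul, Coh.val_placeEmb, Coh.val_placeEmb,
      Coh.val_placeEmb, inv_smul_smul, inv_smul_smul]

omit [Fact (Nat.Prime p)] in
include hμ in
lemma smul_placeEmb (h : H) (m : Mu p Qbar) :
    (h : GalQ) • Coh.placeEmb (galLevelsS S) (locφ S) hμS m =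
      Coh.placeEmb (galLevelsS S) (locφ S) hμS m :=
  Coh.PlaceMod.ext fun q x => by
    rw [Coh.PlaceMod.val_smul, Coh.val_placeEmb, Coh.val_placeEmb, mul_smul,
      show (h : GalQ) • m = m from hμ h m]

/-- Multiplication by scalars in the module of places is equivariant. -/
lemma smul_diagMul (h : H) (m : Mu p Qbar) (X : PlaceJ p S) :
    (h : GalQ) • diagMul hH hμ hz hμS m X = diagMul hH hμ hz hμS m ((h : GalQ) • X) := by
  show _ = placeMul hH hμ hz _ _
  conv_rhs => rw [← smul_placeEmb hμ hμS h m]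
  rw [placeMul_smul]
  rfl

/-- The sequence of the diagonal, for the levels of `H`. -/
def seqH [Nonempty ↥S] (H : Subgroup GalQ) :
    Coh.ShortSeq ((galLevelsS S).restrict H) (Mu p Qbar) (PlaceJ p S) (PlaceC p S) where
  i := Coh.placeEmb (galLevelsS S) (locφ S) hμS
  π := Coh.placeProj (galLevelsS S) (locφ S) (Mu p Qbar)
  i_equiv := fun h m => (Coh.placeSeq (galLevelsS S) (locφ S) hμS).i_equiv (h : GalQ) m
  π_equiv := isEquivariant_placeProjH H
  i_inj := (Coh.placeSeq (galLevelsS S) (locφ S) hμS).i_inj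
  π_surj := Coh.placeProj_surjective _ _ _
  exact := (Coh.placeSeq (galLevelsS S) (locφ S) hμS).exact
  π_i := (Coh.placeSeq (galLevelsS S) (locφ S) hμS).π_i
  smooth := Coh.PlaceMod.isSmooth.restrictSubgroup H

end Fermat.Agent.Duality

end
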