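import Fermat.Agent.Duality.Base.UnramifiedTwo
import Fermat.Agent.Duality.Base.PlaceChange
import Fermat.Agent.Duality.Places.Invariant

/-!
# The everywhere locally trivial classes in degree two are no more than those in degree one

A locally trivial two-class for `S`-levels is a coboundary without the condition on ramification.
The local components of a primitive at the finitely many primes where it ramifies live in a
quotient of the local classes whose dual embeds into the locally trivial one-classes.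
-/

set_option autoImplicit false

noncomputable section

namespace Fermat.Agent.Duality

variable {p : ℕ} [Fact p.Prime] {S : Finset Nat.Primes} {H : Subgroup GalQ}

attribute [local instance] placePrime

/-- Forgetting that a two-class is unramified outside `S`. -/
def inflμ₂ (S : Finset Nat.Primes) (H : Subgroup GalQ) :
    Coh.H2 ((galLevelsS S).restrict H) (Mu p Qbar) →+ H2μ p H :=
  Coh.H2.map (f := MonoidHom.id H)
    (fun _ ⟨V, hV, hVU⟩ => ⟨V, galLevels_ok_of_galLevelsS hV, hVU⟩)
    (φ := AddMonoidHom.id _) (fun _ _ => rfl)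

variable (hH : (galLevelsS S).ok H) (hμ : ∀ (h : H) (z : Mu p Qbar), h • z = z)

variable (p) in
/-- The one-classes vanishing at all places over `S`. -/
def shaS₁ : AddSubgroup (Coh.H1 ((galLevelsS S).restrict H) (Mu p Qbar)) :=
  ⨅ i : PlaceIdx S H (okAll hH), (locS₁ p (okAll hH) i).ker

variable (p) in
/-- The two-classes vanishing at all places over `S`. -/
def shaS₂ : AddSubgroup (Coh.H2 ((galLevelsS S).restrict H) (Mu p Qbar)) :=
  ⨅ i : PlaceIdx S H (okAll hH), (locS₂ p (okAll hH) i).ker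

omit [Fact (Nat.Prime p)] in
lemma mem_shaS₁ {a : Coh.H1 ((galLevelsS S).restrict H) (Mu p Qbar)} :
    a ∈ shaS₁ p hH ↔ ∀ i, locS₁ p (okAll hH) i a = 0 := by
  simp only [shaS₁, AddSubgroup.mem_iInf, AddMonoidHom.mem_ker]

omit [Fact (Nat.Prime p)] in
lemma mem_shaS₂ {x : Coh.H2 ((galLevelsS S).restrict H) (Mu p Qbar)} :
    x ∈ shaS₂ p hH ↔ ∀ i, locS₂ p (okAll hH) i x = 0 := by
  simp only [shaS₂, AddSubgroup.mem_iInf, AddMonoidHom.mem_ker]

include hH hμ in
/-- A class trivial at the places over `S` has a primitive, without a condition on ramification. -/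
theorem exists_primitive (hpS : (⟨p, Fact.out⟩ : Nat.Primes) ∈ S) (hHN : Places.HasseNorm p)
    (f : Coh.Z2 ((galLevelsS S).restrict H) (Mu p Qbar)) (hf : Coh.H2.mk f ∈ shaS₂ p hH) :
    ∃ β : H → Mu p Qbar, Coh.IsConst₁ ((galLevels ℚ Qbar).restrict H) β ∧
      Coh.d₁ H (Mu p Qbar) β = (f : H → H → Mu p Qbar) := by
  have h : inflμ₂ S H (Coh.H2.mk f) = 0 := by
    refine Places.eq_zero_of_locallyZero hHN H (okAll hH) _ fun r hr g => ?_
    by_cases hrS : (⟨r, hr.out⟩ : Nat.Primes) ∈ S
    · obtain ⟨i, d, h, hh, hiq, -, rfl⟩ :=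
        exists_placeOfElt_eq (S := S) (okAll hH) ⟨⟨r, hr.out⟩, hrS⟩ g
      obtain ⟨q', j⟩ := i
      cases hiq
      exact locμ₂_eq_zero_of_rep r hμ _ d hh _
        ((mem_shaS₂ hH).mp hf ⟨⟨⟨r, hr.out⟩, hrS⟩, j⟩)
    · exact Places.locTwist₂_eq_zero_of_notMem hpS hH r hrS g (Coh.H2.mk f)
  exact Coh.H2.mk_eq_zero.mp h

variable {z₀ : Mu p Qbar} (hz : z₀ ≠ 0)

/-- The local classes that are arbitrary over `S` and unramified elsewhere. -/
def unrAway (S₁ : Finset Nat.Primes) : AddSubgroup (LocV p (okAll hH) (S := S₁)) where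
  carrier := {v | ∀ i : PlaceIdx S₁ H (okAll hH), i.1.1 ∉ S →
    v i ∈ unrClass (placeP (okAll hH) i) (placeGroup (okAll hH) i)}
  zero_mem' := fun _ _ => zero_mem _
  add_mem' := fun hx hy i hi => add_mem (hx i hi) (hy i hi)
  neg_mem' := fun hx i hi => neg_mem (hx i hi)

include hμ hz in
/-- The functionals vanishing on the global classes and on the classes unramified away from `S`
come from the locally trivial classes. -/
theorem exists_shaS₁_of_functional (hpS : (⟨p, Fact.out⟩ : Nat.Primes) ∈ S) {I : InvFam p}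
    (hd : IsLocalDual I) {S₁ : Finset Nat.Primes} (hSS : S ⊆ S₁)
    (hlag : IsLagrangianAt S₁ (okAll hH) hμ hz I)
    (φ : LocV p (okAll hH) (S := S₁) ⧸ (globalImage p S₁ (okAll hH) ⊔ unrAway hH S₁) →+ ZMod p) :
    ∃ b : shaS₁ p hH, ∀ v : LocV p (okAll hH) (S := S₁),
      φ (QuotientAddGroup.mk v) = sumPair (okAll hH) hμ hz I v
        (locV (okAll hH) (inflS₁ S H (b : Coh.H1 ((galLevelsS S).restrict H) (Mu p Qbar)))) := by
  classical
  have := finite_locV (S := S₁) hμ hz (okAll hH)
  obtain ⟨y, hy⟩ := exists_eq_right (p := p)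
    (fun v : LocV p (okAll hH) (S := S₁) => funext fun i => Coh.H1.torsion torsion_Mu (v i))
    (sumPair (okAll hH) hμ hz I) (fun y hy => by
      obtain ⟨i, hi⟩ := Function.ne_iff.mp hy
      obtain ⟨u, hu⟩ := hd.nondegenerate _ _ (ok_placeGroup (okAll hH) i)
        (smul_muLoc (okAll hH) hμ i) (placeZeta_ne_zero (okAll hH) hz i) (y i) hi
      refine ⟨Pi.single i u, ?_⟩
      rw [sumPair_apply, Finset.sum_eq_single i (fun j _ hj => by
        rw [Pi.single_eq_of_ne hj, AddMonoidHom.map_zero]; rfl)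
        (fun h => absurd (Finset.mem_univ i) h), Pi.single_eq_same, placePair_apply]
      exact hu)
    (φ.comp (QuotientAddGroup.mk' _))
  have hker : ∀ x ∈ globalImage p S₁ (okAll hH) ⊔ unrAway hH S₁,
      sumPair (okAll hH) hμ hz I x y = 0 := fun x hx => by
    exact (hy x).trans ((congrArg φ ((QuotientAddGroup.eq_zero_iff x).mpr hx)).trans
      (AddMonoidHom.map_zero φ))
  have hy0 : y ∈ globalImage p S₁ (okAll hH) :=
    (hlag y).mpr fun x hx => hker x (AddSubgroup.mem_sup_left hx)
  have hsingle : ∀ (i : PlaceIdx S₁ H (okAll hH)) (u : H1μ p (placeGroup (okAll hH) i)),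
      (i.1.1 ∉ S → u ∈ unrClass (placeP (okAll hH) i) (placeGroup (okAll hH) i)) →
      placePair (okAll hH) hμ hz I i u (y i) = 0 := fun i u hu => by
    have h1 := hker (Pi.single i u) (AddSubgroup.mem_sup_right fun j hj => by
      rcases eq_or_ne j i with rfl | hji
      · rw [Pi.single_eq_same]; exact hu hj
      · rw [Pi.single_eq_of_ne hji]; exact zero_mem _)
    rw [sumPair_apply, Finset.sum_eq_single i (fun j _ hj => by
      rw [Pi.single_eq_of_ne hj, map_zero]; rfl)
      (fun h => absurd (Finset.mem_univ i) h), Pi.single_eq_same] at h1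
    exact h1
  obtain ⟨a, ha⟩ := (mem_globalImage_iff (okAll hH) y).mp hy0
  obtain ⟨b, hb⟩ := exists_inflS₁_eq hH hSS hμ a fun i hi => by
    rw [← ha i]
    refine (hd.unr _ (fun h => hi ?_) _ (ok_placeGroup (okAll hH) i) (smul_muLoc (okAll hH) hμ i)
      (placeZeta_ne_zero (okAll hH) hz i) (y i)).mpr fun u hu => hsingle i u fun _ => hu
    rw [show i.1.1 = (⟨p, Fact.out⟩ : Nat.Primes) from Subtype.ext h]
    exact hpS
  have hyb : y = locV (okAll hH) (inflS₁ S H b) := funext fun i => by
    rw [ha, hb]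
    exact (locμ₁_inflS₁ p (okAll hH) i a).symm
  refine ⟨⟨b, (mem_shaS₁ hH).mpr fun j => ?_⟩, fun v => ?_⟩
  · have h1 : y (inclPlace hH hSS j) = locS₁ p (okAll hH) j b := by
      rw [hyb]
      exact locμ₁_inflS₁ p (okAll hH) j b
    rw [← h1]
    by_contra hne
    obtain ⟨u, hu⟩ := hd.nondegenerate _ _ (ok_placeGroup (okAll hH) (inclPlace hH hSS j))
      (smul_muLoc (okAll hH) hμ _) (placeZeta_ne_zero (okAll hH) hz _) _ hne
    exact hu (hsingle (inclPlace hH hSS j) u fun h => absurd j.1.2 h)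
  · exact ((congrArg (sumPair (okAll hH) hμ hz I v) hyb.symm).trans (hy v)).symm

include hμ hz in
/-- **The bound.** -/
theorem card_le_shaS₁ (hpS : (⟨p, Fact.out⟩ : Nat.Primes) ∈ S) {I : InvFam p}
    (hd : IsLocalDual I) (hL : HasLagrangians I) (hHN : Places.HasseNorm p)
    (X : Finset (shaS₂ p hH)) : X.card ≤ Nat.card (shaS₁ p hH) := by
  classical
  have : NeZero p := ⟨(Fact.out : p.Prime).ne_zero⟩
  choose f hf using fun x : shaS₂ p hH =>
    Coh.H2.mk_surjective (x : Coh.H2 ((galLevelsS S).restrict H) (Mu p Qbar))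
  choose β hβ hdβ using fun x : shaS₂ p hH =>
    exists_primitive hH hμ hpS hHN (f x) (by rw [hf x]; exact x.2)
  choose T hT using fun x : shaS₂ p hH => exists_ramification (hβ x)
  obtain ⟨S₁, hS₁, hlag⟩ := hL H (okAll hH) hμ z₀ hz (S ∪ X.biUnion T)
  have hlag1 := hlag S₁ subset_rfl
  have hSS : S ⊆ S₁ := Finset.subset_union_left.trans hS₁
  have hβS₁ : ∀ x ∈ X, Coh.IsConst₁ ((galLevelsS S₁).restrict H) (β x) := fun x hx => by
    obtain ⟨U, ⟨V, hV, hVU⟩, hU⟩ := hT x
    obtain ⟨E, hE, hle⟩ := hV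
    exact ⟨U, ⟨V, ⟨E, hE.mono ((Finset.subset_biUnion_of_mem T hx).trans
      (Finset.subset_union_right.trans hS₁)), hle⟩, hVU⟩, hU⟩
  choose z hzI using fun (x : shaS₂ p hH) (i : PlaceIdx S₁ H (okAll hH)) (hi : i.1.1 ∉ S) =>
    exists_local_class hH hμ (f x) (β x) (hβ x) (hdβ x) i hi
  let lc : shaS₂ p hH → LocV p (okAll hH) (S := S₁) := fun x i =>
    if hi : i.1.1 ∈ S then 0 else Coh.H1.mk (z x i hi)
  have := finite_locV (S := S₁) hμ hz (okAll hH)
  set N := globalImage p S₁ (okAll hH) ⊔ unrAway hH S₁ with hN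
  have hinj : ∀ x ∈ X, ∀ x' ∈ X, (QuotientAddGroup.mk (lc x) :
      LocV p (okAll hH) (S := S₁) ⧸ N) = QuotientAddGroup.mk (lc x') → x = x' := by
    intro x hx x' hx' heq
    obtain ⟨v, hv, u, hu, huv⟩ :=
      AddSubgroup.mem_sup.mp (QuotientAddGroup.eq_iff_sub_mem.mp heq)
    obtain ⟨a, ha⟩ := (mem_globalImage_iff (okAll hH) v).mp hv
    obtain ⟨w, rfl⟩ := Coh.H1.mk_surjective a
    have hw : ∀ a b : H, (w : H → Mu p Qbar) b - (w : H → Mu p Qbar) (a * b) +
        (w : H → Mu p Qbar) a = 0 := fun a b => by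
      rw [(Coh.mem_Z1.mp w.2).2 a b, hμ]
      abel
    have hδ : Coh.H2.mk (f x - f x') = 0 := by
      refine mk_eq_zero_of_primitive hH hμ (f x - f x')
        (fun d => β x d - β x' d - (w : H → Mu p Qbar) d)
        (funext fun a => funext fun b => ?_) hSS
        (((hβS₁ x hx).comp₂ (hβS₁ x' hx') (· - ·)).comp₂ w.2.1 (· - ·)) fun i hi d hd => ?_
      · show _ = (f x : H → H → Mu p Qbar) a b - (f x' : H → H → Mu p Qbar) a b
        rw [← hdβ x, ← hdβ x']
        simp only [Coh.d₁_apply, hμ]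
        linear_combination (norm := abel) -(hw a b)
      · set t := Coh.twistHom (localGaloisToGlobal (placeP (okAll hH) i)) (placeG (okAll hH) i) H
        let wl : Coh.Z1 ((galLevels ℚ_[placeP (okAll hH) i]
            (PadicAlgCl (placeP (okAll hH) i))).restrict (placeGroup (okAll hH) i))
            (Mu p (PadicAlgCl (placeP (okAll hH) i))) :=
          Coh.Z1.map (Coh.compat_twistHom
              (compat_localGaloisToGlobal_S (placeP (okAll hH) i) S₁) (placeG (okAll hH) i) H)
            (Coh.isEquivariant_twistMap (isEquivariant_muEmb (placeP (okAll hH) i))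
              (placeG (okAll hH) i) H) w
        have h1 : u i = lc x i - lc x' i - v i := by
          rw [← Pi.sub_apply, ← huv, Pi.add_apply, add_sub_cancel_left]
        have h2 : u i = Coh.H1.mk (z x i hi - z x' i hi - wl) := by
          rw [h1, ha, AddMonoidHom.map_sub, AddMonoidHom.map_sub]
          simp only [lc, dif_neg hi]
          rfl
        obtain ⟨y, hy, hyu⟩ := hu i hi
        obtain ⟨c, hc⟩ := Coh.H1.mk_eq_mk.mp (hyu.trans h2)
        have h3 := hc d
        rw [smul_muLoc (okAll hH) hμ i d c, sub_self, add_zero, hy d hd] at h3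
        have h4 : muEmb (placeP (okAll hH) i) (placeG (okAll hH) i •
            ((β x (t d) - β x' (t d) - (w : H → Mu p Qbar) (t d)) -
              ((f x : H → H → Mu p Qbar) 1 1 - (f x' : H → H → Mu p Qbar) 1 1))) = 0 := by
          have e1 := hzI x i hi d hd
          have e2 := hzI x' i hi d hd
          have e3 : (z x i hi : placeGroup (okAll hH) i → _) d -
              (z x' i hi : placeGroup (okAll hH) i → _) d -
              muEmb (placeP (okAll hH) i) (placeG (okAll hH) i • (w : H → Mu p Qbar) (t d)) = 0 :=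
            h3.symm
          rw [e1, e2] at e3
          simp only [smul_sub, map_sub]
          linear_combination (norm := abel) e3
        rw [← map_zero (muEmb (p := p) (placeP (okAll hH) i))] at h4
        exact sub_eq_zero.mp ((smul_eq_zero_iff_eq _).mp ((muEmb_bijective _).1 h4))
    refine Subtype.ext (sub_eq_zero.mp ?_)
    rw [← hf x, ← hf x', ← map_sub]
    exact hδ
  have : Finite (LocV p (okAll hH) (S := S₁) ⧸ N) := inferInstance
  have := finite_H1_restrict hH hμ
  have hQ : ∀ q : LocV p (okAll hH) (S := S₁) ⧸ N, p • q = 0 := fun q => by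
    obtain ⟨v, rfl⟩ := QuotientAddGroup.mk'_surjective N q
    exact congrArg (QuotientAddGroup.mk (s := N))
      (show p • v = 0 from funext fun i => Coh.H1.torsion torsion_Mu (v i))
  choose Φ hΦ using fun φ : LocV p (okAll hH) (S := S₁) ⧸ N →+ ZMod p =>
    exists_shaS₁_of_functional hH hμ hz hpS hd hSS hlag1 φ
  have hΦinj : Function.Injective Φ := fun φ ψ h => AddMonoidHom.ext fun q => by
    obtain ⟨v, rfl⟩ := QuotientAddGroup.mk_surjective q
    rw [hΦ φ v, hΦ ψ v, h]
  calc X.card = Nat.card X := (Nat.card_eq_finsetCard X).symm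
    _ ≤ Nat.card (LocV p (okAll hH) (S := S₁) ⧸ N) :=
      Nat.card_le_card_of_injective (fun x : X => QuotientAddGroup.mk (lc x))
        fun x x' h => Subtype.ext (hinj x x.2 x' x'.2 h)
    _ = Nat.card (LocV p (okAll hH) (S := S₁) ⧸ N →+ ZMod p) :=
      (card_dual (V := LocV p (okAll hH) (S := S₁) ⧸ N) hQ).symm
    _ ≤ Nat.card (shaS₁ p hH) := Nat.card_le_card_of_injective Φ hΦinj

include hμ hz in
/-- The locally trivial two-classes form a finite group, no larger than that in degree one. -/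
theorem finite_shaS₂ (hpS : (⟨p, Fact.out⟩ : Nat.Primes) ∈ S) {I : InvFam p}
    (hd : IsLocalDual I) (hL : HasLagrangians I) (hHN : Places.HasseNorm p) :
    Finite (shaS₂ p hH) ∧ Nat.card (shaS₂ p hH) ≤ Nat.card (shaS₁ p hH) := by
  have hle := card_le_shaS₁ hH hμ hz hpS hd hL hHN
  rcases finite_or_infinite (shaS₂ p hH) with hfin | hinf
  · refine ⟨hfin, ?_⟩
    let := Fintype.ofFinite (shaS₂ p hH)
    rw [Nat.card_eq_fintype_card, ← Finset.card_univ]
    exact hle _
  · obtain ⟨X, hX⟩ := Infinite.exists_subset_card_eq (shaS₂ p hH) (Nat.card (shaS₁ p hH) + 1)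
    exact absurd (hle X) (by rw [hX]; exact Nat.not_succ_le_self _)

end Fermat.Agent.Duality

end
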