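import Fermat.Agent.Duality.Base.ScalarHom
import Fermat.Agent.Duality.Base.ShaBound

/-!
# The pairing of the locally trivial classes of roots of unity

A locally trivial one-class is the coboundary of an element of the module of places; its image in
the quotient gives an invariant homomorphism, and hence a functional on classes in degree two.
-/

set_option autoImplicit false

noncomputable section

namespace Fermat.Agent.Duality

variable {p : ℕ} [Fact p.Prime] {S : Finset Nat.Primes} {H : Subgroup GalQ}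
  (hH : (galLevelsS S).ok H) (hμ : ∀ (h : H) (z : Mu p Qbar), h • z = z)
  {z₀ : Mu p Qbar} (hz : z₀ ≠ 0) (hμS : Coh.IsSmooth (galLevelsS S) (Mu p Qbar))

attribute [local instance] placePrime

omit [Fact (Nat.Prime p)] in
/-- The torsion of the module of places. -/
lemma torsion_placeJ (X : PlaceJ p S) : p • X = 0 := Coh.PlaceMod.torsion torsion_Mu X

omit [Fact (Nat.Prime p)] in
/-- The torsion of the quotient by the diagonal. -/
lemma torsion_placeC (X : PlaceC p S) : p • X = 0 := Coh.PlaceQuot.torsion _ _ _ torsion_Mu X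

lemma scalHom_proj (X : PlaceJ p S) (m : Mu p Qbar) :
    scalHom hz torsion_placeC (Coh.placeProj (galLevelsS S) (locφ S) (Mu p Qbar) X) m =
      Coh.placeProj (galLevelsS S) (locφ S) (Mu p Qbar) (diagMul hH hμ hz hμS m X) := by
  obtain ⟨k, rfl⟩ := exists_nsmul_mu hz m
  rw [map_nsmul, scalHom_self, map_nsmul (diagMul hH hμ hz hμS), AddMonoidHom.nsmul_apply,
    diagMul_self, map_nsmul]

lemma placeProj_diagMul_emb (m m' : Mu p Qbar) :
    Coh.placeProj (galLevelsS S) (locφ S) (Mu p Qbar)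
      (diagMul hH hμ hz hμS m (Coh.placeEmb (galLevelsS S) (locφ S) hμS m')) = 0 := by
  rw [diagMul_emb]
  exact (Coh.placeProj_eq_zero _ _ _).mpr ⟨muPair hz m m', fun q x => rfl⟩

variable (p H) in
/-- Cocycles with a primitive in the module of places. -/
def shaLifts : AddSubgroup (Coh.Z1 ((galLevelsS S).restrict H) (Mu p Qbar) × PlaceJ p S) where
  carrier := {l | ∀ g : H, (g : GalQ) • l.2 - l.2 =
    Coh.placeEmb (galLevelsS S) (locφ S) hμS ((l.1 : H → Mu p Qbar) g)}
  zero_mem' g := by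
    show (g : GalQ) • (0 : PlaceJ p S) - 0 = Coh.placeEmb _ _ hμS 0
    rw [smul_zero, sub_zero, map_zero]
  add_mem' {l l'} hl hl' g := by
    show (g : GalQ) • (l.2 + l'.2) - (l.2 + l'.2) = Coh.placeEmb _ _ hμS
      ((l.1 : H → Mu p Qbar) g + (l'.1 : H → Mu p Qbar) g)
    rw [smul_add, map_add, ← hl g, ← hl' g]
    abel
  neg_mem' {l} hl g := by
    show (g : GalQ) • (-l.2) - -l.2 = Coh.placeEmb _ _ hμS (-(l.1 : H → Mu p Qbar) g)
    rw [smul_neg, map_neg, ← hl g]
    abel

include hμ in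
lemma mk_fst_mem_shaS₁ (l : shaLifts p H hμS) : Coh.H1.mk l.1.1 ∈ shaS₁ p hH := by
  refine (mem_shaS₁ hH).mpr fun i => Coh.H1.mk_eq_zero.mpr ⟨0, fun d => ?_⟩
  set t := Coh.twistHom (localGaloisToGlobal (placeP (okAll hH) i)) (placeG (okAll hH) i) H
  have h1 := congrArg (placeEval hH i) (l.2 (t d))
  have h2 : placeEval hH i ((t d : GalQ) • l.1.2) =
      d • placeEval hH i l.1.2 := isEquivariant_placeEval hH i d l.1.2
  rw [map_sub, h2, smul_muLoc (okAll hH) hμ i d, sub_self] at h1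
  rw [smul_zero, sub_zero]
  exact h1.symm

/-- The class of a lift. -/
def shaLiftClass : shaLifts p H hμS →+ shaS₁ p hH :=
  AddMonoidHom.mk' (fun l => ⟨Coh.H1.mk l.1.1, mk_fst_mem_shaS₁ hH hμ hμS l⟩)
    fun l l' => Subtype.ext (map_add Coh.H1.mk l.1.1 l'.1.1)

include hz in
lemma shaLiftClass_surjective [Nonempty ↥S] :
    Function.Surjective (shaLiftClass (p := p) hH hμ hμS) := by
  intro a
  obtain ⟨z, hza⟩ := Coh.H1.mk_surjective (a : Coh.H1 ((galLevelsS S).restrict H) (Mu p Qbar))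
  set e := Coh.H1.map (Coh.Levels.compat_id ((galLevelsS S).restrict H))
    (isEquivariant_scalHom hμ hz (torsion_placeJ (p := p) (S := S)))
    ((seqH hμS H).mapI₁ (Coh.H1.mk z)) with he
  have h0 : e = 0 := eq_zero_of_locJ hH hμ hz e fun i => by
    rw [← (mem_shaS₁ hH).mp a.2 i, ← hza]
    refine congrArg Coh.H1.mk (Subtype.ext (funext fun d => ?_))
    show placeEval hH i (scalHom hz torsion_placeJ (Coh.placeEmb _ _ hμS
      ((z : H → Mu p Qbar) (Coh.twistHom _ (placeG (okAll hH) i) H d))) z₀) = _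
    rw [scalHom_self]
    rfl
  obtain ⟨F, hF⟩ := Coh.H1.mk_eq_zero.mp h0
  refine ⟨⟨(z, F z₀), fun g => ?_⟩, Subtype.ext hza⟩
  have h1 : scalHom hz torsion_placeJ (Coh.placeEmb _ _ hμS ((z : H → Mu p Qbar) g)) z₀ =
      (g • F - F) z₀ := congrArg (fun G : Coh.HomMod (Mu p Qbar) (PlaceJ p S) => G z₀) (hF g)
  rw [scalHom_self, Coh.HomMod.sub_apply,
    show (g • F) z₀ = (g : GalQ) • F z₀ from isEquivariant_evalMu hμ (PlaceJ p S) g F] at h1
  exact h1.symm

/-- The invariant homomorphism into the quotient attached to a lift. -/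
def cLift : shaLifts p H hμS →+ Coh.inv H (Coh.HomMod (Mu p Qbar) (PlaceC p S)) :=
  AddMonoidHom.mk' (fun l => ⟨Coh.HomMod.of
      ((Coh.placeProj (galLevelsS S) (locφ S) (Mu p Qbar)).comp
        ((diagMul hH hμ hz hμS).flip l.1.2)), fun h => Coh.HomMod.ext fun m => by
      show (h : GalQ) • Coh.placeProj (galLevelsS S) (locφ S) (Mu p Qbar)
          (diagMul hH hμ hz hμS (h⁻¹ • m) l.1.2) =
        Coh.placeProj (galLevelsS S) (locφ S) (Mu p Qbar) (diagMul hH hμ hz hμS m l.1.2)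
      rw [hμ, ← Coh.isEquivariant_placeProj (galLevelsS S) (locφ S) (Mu p Qbar) (h : GalQ)]
      show Coh.placeProj (galLevelsS S) (locφ S) (Mu p Qbar)
        ((h : GalQ) • diagMul hH hμ hz hμS m l.1.2) = _
      rw [smul_diagMul, show (h : GalQ) • l.1.2 = l.1.2 +
          Coh.placeEmb (galLevelsS S) (locφ S) hμS ((l.1.1 : H → Mu p Qbar) h) by
        rw [← l.2 h]; abel, map_add, map_add, placeProj_diagMul_emb, add_zero]⟩)
    fun l l' => Subtype.ext (Coh.HomMod.ext fun m => by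
      show Coh.placeProj (galLevelsS S) (locφ S) (Mu p Qbar)
          (diagMul hH hμ hz hμS m (l.1.2 + l'.1.2)) =
        Coh.placeProj (galLevelsS S) (locφ S) (Mu p Qbar) (diagMul hH hμ hz hμS m l.1.2) +
          Coh.placeProj (galLevelsS S) (locφ S) (Mu p Qbar) (diagMul hH hμ hz hμS m l'.1.2)
      rw [map_add, map_add])

/-- The cup product with a locally trivial class and the connecting map. -/
theorem cup_scalHom_eq [Nonempty ↥S] (hs : Coh.IsSmooth ((galLevelsS S).restrict H) (Mu p Qbar))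
    (l : shaLifts p H hμS) (b : Coh.H1 ((galLevelsS S).restrict H) (PlaceC p S)) :
    Coh.cup₁₁ (P := Coh.HomMod.eval) Coh.isPairing_eval hs
        (Coh.H1.map (Coh.Levels.compat_id ((galLevelsS S).restrict H))
          (isEquivariant_scalHom hμ hz (torsion_placeC (p := p) (S := S))) b)
        (Coh.H1.mk l.1.1) =
      Coh.applyInv ((seqH hμS H).δ₁ b) (cLift hH hμ hz hμS l) := by
  obtain ⟨w, rfl⟩ := Coh.H1.mk_surjective b
  rw [(seqH hμS H).δ₁_mk]
  set π := Coh.placeProj (galLevelsS S) (locφ S) (Mu p Qbar)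
  set ε := Coh.placeEmb (galLevelsS S) (locφ S) hμS
  set T := diagMul hH hμ hz hμS
  set P := placeMul hH hμ hz (p := p) (S := S)
  set e₁ : H → PlaceJ p S := fun g => (seqH hμS H).sec ((w : H → PlaceC p S) g) with he₁
  set f₀ := l.1.2
  set z : H → Mu p Qbar := fun g => (l.1.1 : H → Mu p Qbar) g with hzdef
  set x : H → H → Mu p Qbar := fun g h => ((seqH hμS H).δ₁fun w : H → H → Mu p Qbar) g h with hx
  have hadd : ∀ g h : H, z (g * h) = z h + z g := fun g h => by
    simp only [hzdef]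
    rw [(Coh.mem_Z1.mp l.1.1.2).2 g h, hμ]
  have hf : ∀ g : H, (g : GalQ) • f₀ = f₀ + ε (z g) := fun g => by
    simp only [hzdef]
    rw [← l.2 g]
    abel
  have hde : ∀ g h : H, ε (x g h) = (g : GalQ) • e₁ h - e₁ (g * h) + e₁ g := fun g h =>
    (seqH hμS H).i_δ₁fun w g h
  have hPε : ∀ (A : PlaceJ p S) (m : Mu p Qbar), P A (ε m) = T m A := fun A m =>
    placeMul_comm hH hμ hz A (ε m)
  have hu : Coh.IsConst₁ ((galLevelsS S).restrict H)
      (fun g => -(π (P (e₁ g) f₀) + π (T (z g) (e₁ g)))) :=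
    (w.2.1.comp (seqH hμS H).sec).comp₂ l.1.1.2.1
      fun A m => -(π (P A f₀) + π (T m A))
  refine Coh.H2.mk_eq_mk.mpr ⟨_, hu, funext fun g => funext fun h => ?_⟩
  show scalHom hz torsion_placeC ((w : H → PlaceC p S) g) (g • z h) =
    π (T (x g h) f₀) + Coh.d₁ H (PlaceC p S) (fun g => -(π (P (e₁ g) f₀) + π (T (z g) (e₁ g)))) g h
  have key : T (x g h) f₀ - T (z h) (e₁ g) + T (z g + z h) (ε (x g h)) =
      (g : GalQ) • (P (e₁ h) f₀ + T (z h) (e₁ h)) -
        (P (e₁ (g * h)) f₀ + T (z (g * h)) (e₁ (g * h))) + (P (e₁ g) f₀ + T (z g) (e₁ g)) := by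
    simp only [P, T, ε] at hPε hde hf ⊢
    rw [smul_add, ← placeMul_smul hH hμ hz g, smul_diagMul hH hμ hz hμS g, hf, hadd]
    simp only [map_add, AddMonoidHom.add_apply, hPε]
    rw [show diagMul hH hμ hz hμS (x g h) f₀ =
        placeMul hH hμ hz (Coh.placeEmb (galLevelsS S) (locφ S) hμS (x g h)) f₀ from rfl, hde]
    simp only [map_add, map_sub, AddMonoidHom.add_apply, AddMonoidHom.sub_apply]
    abel
  have h1 := congrArg π key
  simp only [map_add, AddMonoidHom.add_apply, map_sub, π, T, ε, placeProj_diagMul_emb,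
    add_zero] at h1
  rw [show (w : H → PlaceC p S) g = π (e₁ g) from ((seqH hμS H).π_sec _).symm, hμ,
    scalHom_proj hH hμ hz hμS, Coh.d₁_apply]
  have h2 : ∀ A : PlaceJ p S, g • π A = π ((g : GalQ) • A) := fun A => rfl
  simp only [π] at h2
  simp only [smul_neg, smul_add, h2, π, T]
  simp only [smul_add, map_add] at h1
  linear_combination (norm := abel) -h1

section Pairing

variable [Nonempty ↥S] {I : InvFam p} {ι : Coh.H2 (galLevelsS S) (PlaceC p S) →+ ZMod p}
  (hι : IsIota hμS (fun q : ↥S => I (q.1 : ℕ)) ι)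

include hι hμ hz in
/-- Homomorphisms from the module of places are orthogonal to locally trivial classes. -/
lemma theta₂_cLift_eq_zero (l : shaLifts p H hμS) (hl : shaLiftClass hH hμ hμS l = 0)
    {x : Coh.H2 ((galLevelsS S).restrict H) (Mu p Qbar)} (hx : x ∈ shaS₂ p hH) :
    Coh.theta₂ (Coh.iotaSub ι H hH) x (cLift hH hμ hz hμS l) = 0 := by
  obtain ⟨a, ha⟩ := Coh.H1.mk_eq_zero.mp (congrArg Subtype.val hl)
  have hfix : ∀ g : H, (g : GalQ) • l.1.2 = l.1.2 := fun g => by
    have h1 := l.2 g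
    rw [ha g, hμ, sub_self, map_zero, sub_eq_zero] at h1
    exact h1
  have hF : Coh.HomMod.of ((diagMul hH hμ hz hμS).flip l.1.2) ∈
      Coh.inv H (Coh.HomMod (Mu p Qbar) (PlaceJ p S)) := fun h => Coh.HomMod.ext fun m => by
    show (h : GalQ) • diagMul hH hμ hz hμS (h⁻¹ • m) l.1.2 = diagMul hH hμ hz hμS m l.1.2
    rw [hμ, smul_diagMul, hfix]
  have h := theta₂_placeFn hH hι hμ x (placeCoord hH hz (Coh.HomMod.of
    ((diagMul hH hμ hz hμS).flip l.1.2)))
  rw [Finset.sum_eq_zero fun i _ => by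
    rw [(mem_shaS₂ hH).mp hx i, map_zero, mul_zero]] at h
  rw [← h]
  refine congrArg (Coh.theta₂ (Coh.iotaSub ι H hH) x) (Subtype.ext ?_)
  exact (congrArg (fun F : Coh.inv H (Coh.HomMod (Mu p Qbar) (PlaceJ p S)) =>
    Coh.HomMod.post (Coh.placeProj (galLevelsS S) (locφ S) (Mu p Qbar))
      (F : Coh.HomMod (Mu p Qbar) (PlaceJ p S))) (placeFn_placeCoord hH hμ hz ⟨_, hF⟩)).symm

include hι hμ hz in
/-- The pairing of the locally trivial classes. -/
theorem exists_shaPair : ∃ P : shaS₁ p hH →+ shaS₂ p hH →+ ZMod p,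
    ∀ (l : shaLifts p H hμS) (x : shaS₂ p hH),
      P (shaLiftClass hH hμ hμS l) x =
        Coh.theta₂ (Coh.iotaSub ι H hH) (x : Coh.H2 ((galLevelsS S).restrict H) (Mu p Qbar))
          (cLift hH hμ hz hμS l) := by
  let Q : shaLifts p H hμS →+ shaS₂ p hH →+ ZMod p :=
    AddMonoidHom.mk'
      (fun l => ((Coh.theta₂ (Coh.iotaSub ι H hH)).flip (cLift hH hμ hz hμS l)).comp
        (shaS₂ p hH).subtype)
      fun l l' => AddMonoidHom.ext fun x => by
        show Coh.theta₂ (Coh.iotaSub ι H hH) (x : Coh.H2 ((galLevelsS S).restrict H) (Mu p Qbar))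
          (cLift hH hμ hz hμS (l + l')) = _
        rw [map_add]
        exact map_add _ _ _
  obtain ⟨P, hP⟩ := Coh.exists_hom_factor (p := p)
    (fun a : shaS₁ p hH => Subtype.ext (Coh.H1.torsion torsion_Mu _))
    (fun t : shaS₂ p hH →+ ZMod p => AddMonoidHom.ext fun x => ZModModule.char_nsmul_eq_zero p _)
    (shaLiftClass hH hμ hμS) Q fun l hl => AddMonoidHom.ext fun x =>
      theta₂_cLift_eq_zero hH hμ hz hμS hι l hl x.2
  exact ⟨P, fun l x => DFunLike.congr_fun (hP l) x⟩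

end Pairing

end Fermat.Agent.Duality

end
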