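import Fermat.Agent.Duality.Base.PlaceHom
import Fermat.Agent.Duality.Local.H2

/-!
# Classes unramified at the additional primes come from the smaller set of primes
-/

set_option autoImplicit false

noncomputable section

namespace Fermat.Agent.Duality

open scoped Pointwise

variable {p : ℕ} [Fact p.Prime]

/-- The classes of an open subgroup of a local group fixing `μ_p` form a finite group. -/
theorem finite_H1μ_loc (q : ℕ) [Fact q.Prime] {U : Subgroup (GalLoc q)}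
    (hU : (galLevels ℚ_[q] (PadicAlgCl q)).ok U)
    (hμ : ∀ (d : U) (z : Mu p (PadicAlgCl q)), d • z = z) {z₁ : Mu p (PadicAlgCl q)} (hz : z₁ ≠ 0) :
    Finite (H1μ p U) := by
  obtain ⟨L, hL, rfl⟩ := Local.exists_field_of_ok hU
  obtain ⟨ζ, hζ⟩ := Local.exists_isPrimitiveRoot (L := L) hz hμ
  refine Nat.finite_of_card_ne_zero ?_
  rw [Local.card_H1μ hζ]
  exact pow_ne_zero _ (Fact.out : p.Prime).ne_zero

/-- Inertia above a prime is the conjugate of the local inertia. -/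
lemma exists_inertiaLoc_eq (q : ℕ) [Fact q.Prime] {A : ValuationSubring Qbar}
    (hA : A.LiesOverPrime q) {g : GalQ} (hg : g ∈ A.inertiaSubgroupIn ℚ) :
    ∃ σ : GalQ, σ • padicPlace q = A ∧
      ∃ t ∈ inertiaLoc q, g = σ * localGaloisToGlobal q t * σ⁻¹ := by
  obtain ⟨σ, hσ⟩ := Places.exists_smul_padicPlace_eq q hA
  have h1 : σ⁻¹ * g * σ ∈ (padicPlace q).inertiaSubgroupIn ℚ := by
    rw [← Gal.mem_inertia_smul_iff σ, hσ]
    simpa [mul_assoc] using hg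
  have h2 : σ⁻¹ * g * σ ∈ (localGaloisToGlobal q).range := by
    rw [Places.range_localGaloisToGlobal]
    exact ((Gal.mem_inertia_iff (padicPlace q) (σ⁻¹ * g * σ)).mp h1).1
  obtain ⟨t, ht⟩ := h2
  refine ⟨σ, hσ, t, ?_, ?_⟩
  · show localGaloisToGlobal q t ∈ (padicPlace q).inertiaSubgroupIn ℚ
    rw [ht]
    exact h1
  · rw [ht]
    group

/-- The local inertia group is normal. -/
lemma conj_mem_inertiaLoc (q : ℕ) [Fact q.Prime] (d : GalLoc q) {t : GalLoc q}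
    (ht : t ∈ inertiaLoc q) : d * t * d⁻¹ ∈ inertiaLoc q := by
  have hd : localGaloisToGlobal q d • padicPlace q = padicPlace q :=
    localGaloisToGlobal_mem_decompositionSubgroup q d
  show localGaloisToGlobal q (d * t * d⁻¹) ∈ (padicPlace q).inertiaSubgroupIn ℚ
  rw [map_mul, map_mul, map_inv]
  rw [← hd]
  exact (Gal.mem_inertia_smul_iff _ _ _).mpr ht

/-- Levels contain the inertia outside the primes. -/
lemma inertia_le_of_ok {S : Finset Nat.Primes} {H : Subgroup GalQ} (hH : (galLevelsS S).ok H)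
    {q : Nat.Primes} (hq : q ∉ S) {A : ValuationSubring Qbar} (hA : A.LiesOverPrime (q : ℕ)) :
    A.inertiaSubgroupIn ℚ ≤ H := by
  obtain ⟨E, hE, hle⟩ := hH
  exact (hE.2 q hq A hA).trans hle

section Descent

variable {S S' : Finset Nat.Primes} {H : Subgroup GalQ} (hH : (galLevelsS S).ok H)
  (hSS : S ⊆ S') (hμ : ∀ (h : H) (z : Mu p Qbar), h • z = z)

attribute [local instance] placePrime

/-- The conjugate of the local inertia lies in an `S`-level. -/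
lemma conj_inertiaLoc_mem {q : ℕ} [Fact q.Prime] (hq : (⟨q, Fact.out⟩ : Nat.Primes) ∉ S)
    (hH : (galLevelsS S).ok H) (g : GalQ) {t : GalLoc q} (ht : t ∈ inertiaLoc q) :
    g⁻¹ * localGaloisToGlobal q t * g ∈ H := by
  obtain ⟨N, hN, hNn, hNH⟩ := (galLevelsS S).exists_normal hH
  refine hNH ?_
  have h := inertia_le_of_ok hN (q := ⟨q, Fact.out⟩) hq (Places.liesOverPrime_padicPlace q) ht
  simpa using hNn.conj_mem _ h g⁻¹

include hμ hSS in
/-- A class for `S'`-levels unramified at the places of `S' ∖ S` is a class for `S`-levels. -/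
theorem exists_inflS₁_eq (a : Coh.H1 ((galLevelsS S').restrict H) (Mu p Qbar))
    (ha : ∀ i : PlaceIdx S' H (okAll hH), i.1.1 ∉ S →
      locS₁ p (okAll hH) i a ∈ unrClass (placeP (okAll hH) i) (placeGroup (okAll hH) i)) :
    ∃ b : Coh.H1 ((galLevelsS S).restrict H) (Mu p Qbar), inflS₁ S H b = inflS₁ S' H a := by
  obtain ⟨z, rfl⟩ := Coh.H1.mk_surjective a
  have hH' : (galLevelsS S').ok H := by
    obtain ⟨E, hE, hle⟩ := hH
    exact ⟨E, hE.mono hSS, hle⟩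
  have hadd : ∀ u v : H,
      (z : H → Mu p Qbar) (u * v) = (z : H → Mu p Qbar) v + (z : H → Mu p Qbar) u :=
    fun u v => by rw [(Coh.mem_Z1.mp z.2).2 u v, hμ]
  have h1 : (z : H → Mu p Qbar) 1 = 0 := by simpa using hadd 1 1
  let K : Subgroup GalQ :=
    { carrier := {g | ∃ hg : g ∈ H, (z : H → Mu p Qbar) ⟨g, hg⟩ = 0}
      one_mem' := ⟨one_mem H, h1⟩
      mul_mem' := fun {g g'} ⟨hg, hzg⟩ ⟨hg', hzg'⟩ => ⟨mul_mem hg hg', by
        rw [show (⟨g * g', mul_mem hg hg'⟩ : H) = ⟨g, hg⟩ * ⟨g', hg'⟩ from rfl, hadd, hzg, hzg',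
          add_zero]⟩
      inv_mem' := fun {g} ⟨hg, hzg⟩ => ⟨inv_mem hg, by
        have h2 := hadd ⟨g, hg⟩⁻¹ ⟨g, hg⟩
        rw [inv_mul_cancel, h1, hzg, zero_add] at h2
        exact h2.symm⟩ }
  have hloc : ∀ (i : PlaceIdx S' H (okAll hH)) (_ : i.1.1 ∉ S) (d : placeGroup (okAll hH) i),
      (d : GalLoc (placeP (okAll hH) i)) ∈ inertiaLoc (placeP (okAll hH) i) →
      (z : H → Mu p Qbar) (Coh.twistHom _ (placeG (okAll hH) i) H d) = 0 := by
    intro i hi d hd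
    obtain ⟨y, hy, hyz⟩ := ha i hi
    obtain ⟨c, hc⟩ := Coh.H1.mk_eq_mk.mp hyz
    have h2 := hc d
    rw [smul_muLoc (okAll hH) hμ i d c, sub_self, add_zero, hy d hd] at h2
    have h3 : muEmb (placeP (okAll hH) i) (placeG (okAll hH) i •
        (z : H → Mu p Qbar) (Coh.twistHom _ (placeG (okAll hH) i) H d)) = 0 := h2.symm
    rw [← map_zero (muEmb (p := p) (placeP (okAll hH) i))] at h3
    exact (smul_eq_zero_iff_eq _).mp ((muEmb_bijective _).1 h3)
  obtain ⟨U, hU, hzU⟩ := z.2.1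
  obtain ⟨N, hN, hNn, hNH, hNU⟩ := Coh.exists_normal_level hH' hU
  have hNK : N ≤ K := fun s hs => ⟨hNH hs, by
    have h2 := hzU 1 ⟨s, hNH hs⟩ (hNU _ hs)
    rwa [one_mul, h1] at h2⟩
  have hK : (galLevelsS S).ok K := by
    refine galLevelsS_ok_of_inertia ((galLevels ℚ Qbar).mono (galLevels_ok_of_galLevelsS hN) hNK)
      fun q hq A hA g hg => ?_
    by_cases hq' : q ∈ S'
    · have : Fact (q : ℕ).Prime := ⟨q.2⟩
      obtain ⟨σ, -, t, ht, rfl⟩ := exists_inertiaLoc_eq (q : ℕ) hA hg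
      obtain ⟨i, d, h, hh, hiq, -, he⟩ :=
        exists_placeOfElt_eq (S := S') (okAll hH) ⟨q, hq'⟩ σ⁻¹
      obtain ⟨q', j⟩ := i
      cases hiq
      have hσ : σ = h⁻¹ * (placeG (okAll hH) ⟨⟨q, hq'⟩, j⟩)⁻¹ *
          (localGaloisToGlobal (q : ℕ) d)⁻¹ := by
        rw [← inv_inv σ, he, mul_inv_rev, mul_inv_rev, mul_assoc]
      have ht' : d⁻¹ * t * d ∈ inertiaLoc (q : ℕ) := by
        simpa using conj_mem_inertiaLoc (q : ℕ) d⁻¹ ht
      have hmem := conj_inertiaLoc_mem (q := (q : ℕ)) hq hH (placeG (okAll hH) ⟨⟨q, hq'⟩, j⟩) ht'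
      have h2 := hloc ⟨⟨q, hq'⟩, j⟩ hq ⟨d⁻¹ * t * d, Coh.mem_twisted.mpr hmem⟩ ht'
      set u : H := Coh.twistHom _ (placeG (okAll hH) ⟨⟨q, hq'⟩, j⟩) H
        ⟨d⁻¹ * t * d, Coh.mem_twisted.mpr hmem⟩ with hu
      have hg' : σ * localGaloisToGlobal (q : ℕ) t * σ⁻¹ = h⁻¹ * (u : GalQ) * h := by
        rw [hu, Coh.coe_twistHom, hσ, map_mul, map_mul, map_inv]
        simp only [mul_inv_rev, inv_inv, mul_assoc]
      rw [hg']
      refine ⟨mul_mem (mul_mem (inv_mem hh) u.2) hh, ?_⟩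
      show (z : H → Mu p Qbar) ((⟨h, hh⟩ : H)⁻¹ * u * ⟨h, hh⟩) = 0
      have h4 : (z : H → Mu p Qbar) (⟨h, hh⟩ : H)⁻¹ + (z : H → Mu p Qbar) ⟨h, hh⟩ = 0 := by
        rw [← hadd, mul_inv_cancel, h1]
      rw [hadd, hadd, h2, zero_add, add_comm, h4]
    · exact hNK (inertia_le_of_ok hN hq' hA hg)
  have hconst : Coh.IsConst₁ ((galLevelsS S).restrict H) (z : H → Mu p Qbar) :=
    ⟨K.subgroupOf H, ⟨K, hK, le_rfl⟩, fun g s hs => by
      obtain ⟨_, hs⟩ := (hs : (s : GalQ) ∈ K)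
      rw [hadd, show (z : H → Mu p Qbar) s = 0 from hs, zero_add]⟩
  exact ⟨Coh.H1.mk ⟨(z : H → Mu p Qbar), Coh.mem_Z1.mpr ⟨hconst, (Coh.mem_Z1.mp z.2).2⟩⟩, rfl⟩

end Descent

end Fermat.Agent.Duality

end
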