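import Fermat.Agent.Duality.Base.Witness
import Fermat.Agent.Duality.Places.FiniteSupport

/-!
# Primitives of two-cocycles for `S`-levels

If a cocycle for `S`-levels is the coboundary of a cochain which is trivial on the inertia groups
outside `S`, then it is a coboundary for `S`-levels.
-/

set_option autoImplicit false

noncomputable section

namespace Fermat.Agent.Duality

variable {p : ℕ} [Fact p.Prime] {S : Finset Nat.Primes} {H : Subgroup GalQ}
  (hH : (galLevelsS S).ok H) (hμ : ∀ (h : H) (z : Mu p Qbar), h • z = z)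

attribute [local instance] placePrime

omit [Fact (Nat.Prime p)] in
/-- A locally constant cochain is constant on a level unramified outside a finite set. -/
theorem exists_ramification {β : H → Mu p Qbar}
    (hβ : Coh.IsConst₁ ((galLevels ℚ Qbar).restrict H) β) :
    ∃ T : Finset Nat.Primes, Coh.IsConst₁ ((galLevelsS T).restrict H) β := by
  obtain ⟨U, ⟨V, hV, hVU⟩, hβU⟩ := hβ
  obtain ⟨E, hE, hle⟩ := hV
  have := hE
  obtain ⟨T, hT⟩ := Places.exists_isUnramifiedOutside E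
  exact ⟨T, U, ⟨V, ⟨E, hT, hle⟩, hVU⟩, hβU⟩

include hH hμ in
/-- The local class attached to a primitive at a place outside `S`. -/
theorem exists_local_class (f : Coh.Z2 ((galLevelsS S).restrict H) (Mu p Qbar))
    (β : H → Mu p Qbar) (hβ : Coh.IsConst₁ ((galLevels ℚ Qbar).restrict H) β)
    (hdβ : Coh.d₁ H (Mu p Qbar) β = (f : H → H → Mu p Qbar)) {S' : Finset Nat.Primes}
    (i : PlaceIdx S' H (okAll hH)) (hi : i.1.1 ∉ S) :
    ∃ z : Coh.Z1 ((galLevels ℚ_[placeP (okAll hH) i] (PadicAlgCl (placeP (okAll hH) i))).restrict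
        (placeGroup (okAll hH) i)) (Mu p (PadicAlgCl (placeP (okAll hH) i))),
      ∀ d : placeGroup (okAll hH) i,
        (d : GalLoc (placeP (okAll hH) i)) ∈ inertiaLoc (placeP (okAll hH) i) →
        (z : placeGroup (okAll hH) i → Mu p (PadicAlgCl (placeP (okAll hH) i))) d =
          muEmb (placeP (okAll hH) i) (placeG (okAll hH) i •
              β (Coh.twistHom _ (placeG (okAll hH) i) H d)) -
            muEmb (placeP (okAll hH) i) (placeG (okAll hH) i • (f : H → H → Mu p Qbar) 1 1) := by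
  set q := placeP (okAll hH) i
  set g := placeG (okAll hH) i
  set t := Coh.twistHom (localGaloisToGlobal q) g H
  obtain ⟨U, hU, hfU⟩ := f.2.1
  obtain ⟨N, hN, hNn, hNH, hNU⟩ := Coh.exists_normal_level hH hU
  obtain ⟨E, hE, hEN⟩ := exists_eq_fixingSubgroup (galLevels_ok_of_galLevelsS hN)
  have := hE
  have hEur : E.IsUnramifiedOutside S :=
    ⟨hE, fun r hr V hV => hEN ▸ inertia_le_of_ok hN hr hV⟩
  have hconjN : ∀ s : GalQ, s ∈ N → g⁻¹ * s * g ∈ N := fun s hs => by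
    simpa using hNn.conj_mem s hs g⁻¹
  obtain ⟨y, hy, hdy, hyI⟩ := Places.exists_unramified_primitive q hEur hi
    (fun d hd => Coh.mem_twisted.mpr (hNH (hconjN _ (hEN.le hd))))
    torsion_Mu (fun s _ a => smul_muLoc (okAll hH) hμ i s a)
    (Coh.Z2.map (Coh.compat_twistHom (compat_localGaloisToGlobal_S q S) g H)
      (Coh.isEquivariant_twistMap (isEquivariant_muEmb q) g H) f)
    fun a b s r hs hr => by
      rw [Coh.Z2.map_apply, Coh.Z2.map_apply, map_mul, map_mul,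
        hfU _ _ _ (hNU _ (hconjN _ (hEN.le hs))) _ (hNU _ (hconjN _ (hEN.le hr)))]
  refine ⟨⟨fun d => muEmb q (g • β (t d)) - y d, Coh.mem_Z1.mpr ⟨?_, fun a b => ?_⟩⟩,
    fun d hd => ?_⟩
  · exact ((hβ.precomp (Coh.compat_twistHom (compat_localGaloisToGlobal q) g H)).comp
      fun z => muEmb q (g • z)).comp₂ hy (· - ·)
  · have h1 := congrArg (fun z => muEmb q (g • z)) (congrFun (congrFun hdβ (t a)) (t b))
    have h2 := congrFun (congrFun hdy a) b
    rw [Coh.Z2.map_apply, Coh.d₁_apply, smul_muLoc (okAll hH) hμ i] at h2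
    simp only [Coh.d₁_apply, hμ, smul_add, smul_sub, map_add, map_sub, ← map_mul] at h1
    rw [smul_muLoc (okAll hH) hμ i a]
    have h3 : muEmb q (g • (f : H → H → Mu p Qbar) (t a) (t b)) = y b - y (a * b) + y a := by
      rw [h2]
      rfl
    rw [h3] at h1
    linear_combination (norm := abel) -h1
  · show muEmb q (g • β (t d)) - y d = _
    have h1 := hyI 1 d hd
    rw [one_mul] at h1
    have h2 := congrFun (congrFun hdy 1) 1
    rw [Coh.Z2.map_apply, Coh.d₁_apply, one_smul, one_mul, sub_self, zero_add, map_one] at h2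
    rw [h1, h2]
    rfl

omit [Fact (Nat.Prime p)] in
include hH hμ in
/-- A primitive trivial on inertia outside `S` makes the class vanish. -/
theorem mk_eq_zero_of_primitive (δ : Coh.Z2 ((galLevelsS S).restrict H) (Mu p Qbar))
    (β : H → Mu p Qbar) (hdβ : Coh.d₁ H (Mu p Qbar) β = (δ : H → H → Mu p Qbar))
    {S' : Finset Nat.Primes} (hSS : S ⊆ S') (hβ : Coh.IsConst₁ ((galLevelsS S').restrict H) β)
    (hT : ∀ i : PlaceIdx S' H (okAll hH), i.1.1 ∉ S → ∀ d : placeGroup (okAll hH) i,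
      (d : GalLoc (placeP (okAll hH) i)) ∈ inertiaLoc (placeP (okAll hH) i) →
      β (Coh.twistHom _ (placeG (okAll hH) i) H d) = (δ : H → H → Mu p Qbar) 1 1) :
    Coh.H2.mk δ = 0 := by
  set c : H → H → Mu p Qbar := δ.1 with hcdef
  have hc : ∀ x y z : H, c y z - c (x * y) z + c x (y * z) - c x y = 0 := fun x y z => by
    have h1 := δ.2.2 x y z
    rwa [hμ] at h1
  have hd : ∀ x y : H, β y - β (x * y) + β x = c x y := fun x y => by
    have h := congrFun (congrFun hdβ x) y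
    rw [Coh.d₁_apply, hμ] at h
    exact h
  have hx1 : ∀ x : H, c x 1 = c 1 1 := fun x => by
    have h := hc x 1 1
    rw [mul_one, mul_one, sub_add_cancel, sub_eq_zero] at h
    exact h.symm
  have h1x : ∀ x : H, c 1 x = c 1 1 := fun x => by
    have h := hc 1 1 x
    rw [one_mul, one_mul, sub_self, zero_add, sub_eq_zero] at h
    exact h
  obtain ⟨U, hU, hcU⟩ := δ.2.1
  obtain ⟨N, hN, hNn, hNH, hNU⟩ := Coh.exists_normal_level hH hU
  have hright : ∀ (x u : H), (u : GalQ) ∈ N → c x u = c 1 1 := fun x u hu => by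
    have h := hcU x 1 1 (one_mem U) u (hNU u hu)
    rw [mul_one, one_mul] at h
    exact h.trans (hx1 x)
  have hleft : ∀ (x u : H), (u : GalQ) ∈ N → c u x = c 1 1 := fun x u hu => by
    have h := hcU 1 x u (hNU u hu) 1 (one_mem U)
    rw [mul_one, one_mul] at h
    exact h.trans (h1x x)
  have hmul : ∀ (x u : H), (u : GalQ) ∈ N → β (x * u) = β x + β u - c 1 1 := fun x u hu => by
    rw [← hright x u hu, ← hd]
    abel
  have hmul' : ∀ (x u : H), (u : GalQ) ∈ N → β (u * x) = β x + β u - c 1 1 := fun x u hu => by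
    rw [← hleft x u hu, ← hd]
    abel
  have hβ1 : β 1 = c 1 1 := by
    rw [← hd, one_mul, sub_self, zero_add]
  let K : Subgroup GalQ :=
    { carrier := {u | ∃ hu : u ∈ H, u ∈ N ∧ β ⟨u, hu⟩ = c 1 1}
      one_mem' := ⟨one_mem H, one_mem N, hβ1⟩
      mul_mem' := fun {u v} ⟨hu, huN, hβu⟩ ⟨hv, hvN, hβv⟩ => ⟨mul_mem hu hv, mul_mem huN hvN, by
        rw [show (⟨u * v, mul_mem hu hv⟩ : H) = ⟨u, hu⟩ * ⟨v, hv⟩ from rfl, hmul _ _ hvN, hβu, hβv,
          add_sub_cancel_right]⟩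
      inv_mem' := fun {u} ⟨hu, huN, hβu⟩ => ⟨inv_mem hu, inv_mem huN, by
        have h := hmul (⟨u, hu⟩ : H)⁻¹ ⟨u, hu⟩ huN
        rw [inv_mul_cancel, hβ1, hβu, add_sub_cancel_right] at h
        exact h.symm⟩ }
  obtain ⟨W, hW, hβW⟩ := hβ
  have hH' : (galLevelsS S').ok H := by
    obtain ⟨E, hE, hle⟩ := hH
    exact ⟨E, hE.mono hSS, hle⟩
  obtain ⟨M, hM, hMn, hMH, hMW⟩ := Coh.exists_normal_level hH' hW
  have hK : (galLevelsS S).ok K := by
    refine galLevelsS_ok_of_inertia ((galLevels ℚ Qbar).mono ((galLevels ℚ Qbar).inf_ok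
      (galLevels_ok_of_galLevelsS hN) (galLevels_ok_of_galLevelsS hM))
      fun u hu => ⟨hMH hu.2, hu.1, ?_⟩) fun r hr A hA s hs => ?_
    · have h := hβW 1 ⟨u, hMH hu.2⟩ (hMW _ hu.2)
      rwa [one_mul, hβ1] at h
    have hsN : s ∈ N := inertia_le_of_ok hN hr hA hs
    by_cases hr' : r ∈ S'
    · have : Fact (r : ℕ).Prime := ⟨r.2⟩
      obtain ⟨σ, -, t, ht, rfl⟩ := exists_inertiaLoc_eq (r : ℕ) hA hs
      obtain ⟨i, d, h, hh, hiq, -, he⟩ :=
        exists_placeOfElt_eq (S := S') (okAll hH) ⟨r, hr'⟩ σ⁻¹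
      obtain ⟨q', j⟩ := i
      cases hiq
      have hσ : σ = h⁻¹ * (placeG (okAll hH) ⟨⟨r, hr'⟩, j⟩)⁻¹ *
          (localGaloisToGlobal (r : ℕ) d)⁻¹ := by
        rw [← inv_inv σ, he, mul_inv_rev, mul_inv_rev, mul_assoc]
      have ht' : d⁻¹ * t * d ∈ inertiaLoc (r : ℕ) := by
        simpa using conj_mem_inertiaLoc (r : ℕ) d⁻¹ ht
      have hmem := conj_inertiaLoc_mem (q := (r : ℕ)) hr hH (placeG (okAll hH) ⟨⟨r, hr'⟩, j⟩) ht'
      have hmemN := conj_inertiaLoc_mem (q := (r : ℕ)) hr hN (placeG (okAll hH) ⟨⟨r, hr'⟩, j⟩) ht'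
      have h2 := hT ⟨⟨r, hr'⟩, j⟩ hr ⟨d⁻¹ * t * d, Coh.mem_twisted.mpr hmem⟩ ht'
      set u : H := Coh.twistHom _ (placeG (okAll hH) ⟨⟨r, hr'⟩, j⟩) H
        ⟨d⁻¹ * t * d, Coh.mem_twisted.mpr hmem⟩ with hu
      have huN : (u : GalQ) ∈ N := hmemN
      have hg' : σ * localGaloisToGlobal (r : ℕ) t * σ⁻¹ = h⁻¹ * (u : GalQ) * h := by
        rw [hu, Coh.coe_twistHom, hσ, map_mul, map_mul, map_inv]
        simp only [mul_inv_rev, inv_inv, mul_assoc]
      rw [hg'] at hsN ⊢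
      refine ⟨mul_mem (mul_mem (inv_mem hh) u.2) hh, hsN, ?_⟩
      show β ((⟨h, hh⟩ : H)⁻¹ * u * ⟨h, hh⟩) = c 1 1
      have hvN : (((⟨h, hh⟩ : H)⁻¹ * u * ⟨h, hh⟩ : H) : GalQ) ∈ N := hsN
      have h3 := hmul (⟨h, hh⟩ : H) _ hvN
      rw [show (⟨h, hh⟩ : H) * ((⟨h, hh⟩ : H)⁻¹ * u * ⟨h, hh⟩) = u * ⟨h, hh⟩ by group,
        hmul' _ _ huN, h2, add_sub_cancel_right, eq_sub_iff_add_eq, add_comm] at h3
      exact add_left_cancel (h3.symm.trans (add_comm _ _))
    · obtain ⟨hu, hsM⟩ : ∃ hu : s ∈ H, s ∈ M :=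
        ⟨hMH (inertia_le_of_ok hM hr' hA hs), inertia_le_of_ok hM hr' hA hs⟩
      refine ⟨hu, hsN, ?_⟩
      have h := hβW 1 ⟨s, hu⟩ (hMW _ hsM)
      rwa [one_mul, hβ1] at h
  refine Coh.H2.mk_eq_zero.mpr ⟨β, ⟨K.subgroupOf H, ⟨K, hK, le_rfl⟩, fun x s hs => ?_⟩, hdβ⟩
  obtain ⟨_, hsN, hs⟩ := (hs : (s : GalQ) ∈ K)
  rw [hmul x s hsN, show β s = c 1 1 from hs, add_sub_cancel_right]

end Fermat.Agent.Duality

end
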