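import Fermat.Agent.Duality.Base.SmallS
import Fermat.Agent.Density.Places
import Fermat.Agent.Gal.Hermite

/-!
# Finiteness of classes for `S`-levels, and primes separating two of them
-/

set_option autoImplicit false

noncomputable section

namespace Fermat.Agent.Duality

open IntermediateField

variable {p : ℕ} [Fact p.Prime] {S : Finset Nat.Primes} {H : Subgroup GalQ}
  (hH : (galLevelsS S).ok H) (hμ : ∀ (h : H) (z : Mu p Qbar), h • z = z)

section Kernel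

variable (z : Coh.Z1 ((galLevelsS S).restrict H) (Mu p Qbar))

omit [Fact (Nat.Prime p)] in
include hμ in
lemma z1_add (u v : H) :
    (z : H → Mu p Qbar) (u * v) = (z : H → Mu p Qbar) v + (z : H → Mu p Qbar) u := by
  rw [(Coh.mem_Z1.mp z.2).2 u v, hμ]

omit [Fact (Nat.Prime p)] in
include hμ in
lemma z1_one : (z : H → Mu p Qbar) 1 = 0 := by simpa using z1_add hμ z 1 1

omit [Fact (Nat.Prime p)] in
include hμ in
lemma z1_inv (u : H) : (z : H → Mu p Qbar) u⁻¹ = -(z : H → Mu p Qbar) u :=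
  eq_neg_of_add_eq_zero_right (by rw [← z1_add hμ z, inv_mul_cancel, z1_one hμ z])

/-- The kernel of a class with trivial action, as a subgroup of `GalQ`. -/
def z1Ker : Subgroup GalQ where
  carrier := {g | ∃ hg : g ∈ H, (z : H → Mu p Qbar) ⟨g, hg⟩ = 0}
  one_mem' := ⟨one_mem H, z1_one hμ z⟩
  mul_mem' := fun {g g'} ⟨hg, hzg⟩ ⟨hg', hzg'⟩ => ⟨mul_mem hg hg', by
    rw [show (⟨g * g', mul_mem hg hg'⟩ : H) = ⟨g, hg⟩ * ⟨g', hg'⟩ from rfl, z1_add hμ, hzg, hzg',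
      add_zero]⟩
  inv_mem' := fun {g} ⟨hg, hzg⟩ => ⟨inv_mem hg, by
    rw [show (⟨g⁻¹, inv_mem hg⟩ : H) = ⟨g, hg⟩⁻¹ from rfl, z1_inv hμ, hzg, neg_zero]⟩

omit [Fact (Nat.Prime p)] in
include hH in
lemma ok_z1Ker : (galLevelsS S).ok (z1Ker hμ z) := by
  obtain ⟨U, hU, hzU⟩ := z.2.1
  obtain ⟨N, hN, -, hNH, hNU⟩ := Coh.exists_normal_level hH hU
  refine (galLevelsS S).mono hN fun s hs => ⟨hNH hs, ?_⟩
  have h2 := hzU 1 ⟨s, hNH hs⟩ (hNU _ hs)
  rwa [one_mul, z1_one hμ] at h2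

end Kernel

include hH hμ in
/-- **Finiteness** of the classes for `S`-levels over an open subgroup fixing `μ_p`. -/
theorem finite_H1_restrict : Finite (Coh.H1 ((galLevelsS S).restrict H) (Mu p Qbar)) := by
  have := (galLevelsS S).finiteIndex hH
  have : NeZero p := ⟨(Fact.out : p.Prime).ne_zero⟩
  obtain ⟨E, hE, hmax⟩ := Gal.exists_isUnramifiedOutside_forall_le S (H.index * p)
  have := hE.1
  have : E.fixingSubgroup.FiniteIndex := finiteIndex_fixingSubgroup ℚ Qbar E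
  have : (E.fixingSubgroup.subgroupOf H).FiniteIndex := inferInstance
  suffices key : ∀ (z : Coh.Z1 ((galLevelsS S).restrict H) (Mu p Qbar)) (g s : H),
      (s : GalQ) ∈ E.fixingSubgroup → (z : H → Mu p Qbar) (g * s) = (z : H → Mu p Qbar) g by
    have : Finite (Coh.Z1 ((galLevelsS S).restrict H) (Mu p Qbar)) := by
      refine Finite.of_injective (fun z (x : H ⧸ E.fixingSubgroup.subgroupOf H) =>
        (z : H → Mu p Qbar) x.out) fun z z' h => Subtype.ext (funext fun g => ?_)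
      obtain ⟨s, hs⟩ := QuotientGroup.mk_out_eq_mul (E.fixingSubgroup.subgroupOf H) g
      have h1 : (z : H → Mu p Qbar) (g : H ⧸ E.fixingSubgroup.subgroupOf H).out =
          (z' : H → Mu p Qbar) (g : H ⧸ E.fixingSubgroup.subgroupOf H).out := congrFun h _
      rwa [hs, key z g _ s.2, key z' g _ s.2] at h1
    exact Finite.of_surjective _ Coh.H1.mk_surjective
  intro z g s hs
  have hUok := ok_z1Ker hH hμ z
  obtain ⟨F, hF, hFU⟩ := exists_eq_fixingSubgroup (galLevels_ok_of_galLevelsS hUok)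
  have := hF
  have := (galLevelsS S).finiteIndex hUok
  have hFur : F.IsUnramifiedOutside S :=
    ⟨hF, fun q hq V hV => hFU ▸ inertia_le_of_ok hUok hq hV⟩
  have hcard : (z1Ker hμ z).index ≤ H.index * p := by
    have hle : z1Ker hμ z ≤ H := fun x ⟨hx, _⟩ => hx
    rw [← Subgroup.relIndex_mul_index hle, mul_comm]
    refine Nat.mul_le_mul_left _ ?_
    rw [Subgroup.relIndex, Subgroup.index_eq_card]
    refine le_trans (Nat.card_le_card_of_injective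
      (fun x => (z : H → Mu p Qbar) x.out) fun x y h => ?_) (card_Mu (p := p) (L := Qbar)).le
    dsimp only at h
    rw [← QuotientGroup.out_eq' x, ← QuotientGroup.out_eq' y, QuotientGroup.eq,
      Subgroup.mem_subgroupOf]
    exact ⟨(x.out⁻¹ * y.out).2, by
      rw [Subtype.coe_eta, z1_add hμ, z1_inv hμ, h, add_neg_cancel]⟩
  have hdeg : Module.finrank ℚ F ≤ H.index * p := by
    have := finiteIndex_fixingSubgroup ℚ Qbar F
    refine le_trans ?_ hcard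
    rw [← hFU, Subgroup.index_eq_card, ← AlgHom.card ℚ F Qbar, ← Nat.card_eq_fintype_card]
    refine Nat.card_le_card_of_surjective
      (fun x : GalQ ⧸ F.fixingSubgroup => (x.out : Qbar →ₐ[ℚ] Qbar).comp F.val) fun f => ?_
    let ρ : GalQ := AlgEquiv.ofBijective (f.liftNormal Qbar)
      (Algebra.IsAlgebraic.algHom_bijective _)
    refine ⟨(ρ : GalQ ⧸ F.fixingSubgroup), AlgHom.ext fun e => ?_⟩
    obtain ⟨s, hs⟩ := QuotientGroup.mk_out_eq_mul F.fixingSubgroup ρ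
    show (ρ : GalQ ⧸ F.fixingSubgroup).out (e : Qbar) = f e
    rw [hs, AlgEquiv.mul_apply, (IntermediateField.mem_fixingSubgroup_iff F _).mp s.2 _ e.2]
    show f.liftNormal Qbar (algebraMap F Qbar e) = _
    rw [AlgHom.liftNormal_commutes]
    rfl
  have hsK : (s : GalQ) ∈ z1Ker hμ z :=
    hFU ▸ IntermediateField.fixingSubgroup_antitone (hmax F hFur hdeg) hs
  obtain ⟨hs', hzs⟩ := hsK
  rw [z1_add hμ, show (z : H → Mu p Qbar) s = 0 from hzs, zero_add]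

attribute [local instance] placePrime

include hH hμ in
/-- A prime outside `S` at which `b` is not locally a multiple of `χ`. -/
theorem exists_separating_prime (χ b : Coh.H1 ((galLevelsS S).restrict H) (Mu p Qbar))
    (hb : ∀ k : ℕ, b ≠ k • χ) :
    ∃ q : Nat.Primes, q ∉ S ∧ ∀ (S' : Finset Nat.Primes) (_ : q ∈ S'),
      ∃ i : PlaceIdx S' H (okAll hH), i.1.1 = q ∧ ∀ k : ℕ,
        locμ₁ p (placeP (okAll hH) i) H (placeG (okAll hH) i) (inflS₁ S H b) ≠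
          k • locμ₁ p (placeP (okAll hH) i) H (placeG (okAll hH) i) (inflS₁ S H χ) := by
  obtain ⟨x, rfl⟩ := Coh.H1.mk_surjective χ
  obtain ⟨y, rfl⟩ := Coh.H1.mk_surjective b
  -- an element killed by `χ` but not by `b`
  obtain ⟨h₀, hx₀, hy₀⟩ : ∃ h₀ : H, (x : H → Mu p Qbar) h₀ = 0 ∧ (y : H → Mu p Qbar) h₀ ≠ 0 := by
    by_contra hcon
    push Not at hcon
    by_cases hx : ∀ h : H, (x : H → Mu p Qbar) h = 0
    · refine hb 0 ?_
      rw [zero_nsmul, ← map_zero Coh.H1.mk]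
      exact congrArg Coh.H1.mk (Subtype.ext (funext fun h => hcon h (hx h)))
    push Not at hx
    obtain ⟨u, hu⟩ := hx
    obtain ⟨k, hk⟩ := exists_nsmul_mu hu ((y : H → Mu p Qbar) u)
    refine hb k ?_
    rw [← map_nsmul]
    refine congrArg Coh.H1.mk (Subtype.ext (funext fun h => ?_))
    obtain ⟨j, hj⟩ := exists_nsmul_mu hu ((x : H → Mu p Qbar) h)
    let fx : H →* Multiplicative (Mu p Qbar) :=
      MonoidHom.mk' (fun g => Multiplicative.ofAdd ((x : H → Mu p Qbar) g))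
        fun g g' => by rw [z1_add hμ x, add_comm, ofAdd_add]
    let fy : H →* Multiplicative (Mu p Qbar) :=
      MonoidHom.mk' (fun g => Multiplicative.ofAdd ((y : H → Mu p Qbar) g))
        fun g g' => by rw [z1_add hμ y, add_comm, ofAdd_add]
    have hxj : (x : H → Mu p Qbar) (h * (u ^ j)⁻¹) = 0 := by
      refine Multiplicative.ofAdd.injective ?_
      show fx _ = _
      rw [map_mul, map_inv, map_pow]
      show Multiplicative.ofAdd _ * (Multiplicative.ofAdd _ ^ j)⁻¹ = _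
      rw [← ofAdd_nsmul, ← hj, mul_inv_cancel, ofAdd_zero]
    have hyj := hcon _ hxj
    have h3 : fy (h * (u ^ j)⁻¹) = 1 := congrArg Multiplicative.ofAdd hyj
    rw [map_mul, map_inv, map_pow, mul_inv_eq_one] at h3
    have h4 : (y : H → Mu p Qbar) h = j • (y : H → Mu p Qbar) u := congrArg Multiplicative.toAdd h3
    show (y : H → Mu p Qbar) h = k • (x : H → Mu p Qbar) h
    rw [h4, hj, hk, ← mul_nsmul', ← mul_nsmul', mul_comm]
  set V := z1Ker hμ x ⊓ z1Ker hμ y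
  obtain ⟨N, hN, hNn, hNV⟩ := (galLevelsS S).exists_normal
    ((galLevelsS S).inf_ok (ok_z1Ker hH hμ x) (ok_z1Ker hH hμ y))
  obtain ⟨L, hL, hLN⟩ := exists_eq_fixingSubgroup (galLevels_ok_of_galLevelsS hN)
  have := hL
  obtain ⟨ℓ, hℓ, hℓS, hfrob⟩ := Density.exists_prime_eqOn_conj_frobenius_pow L (h₀ : GalQ)
    (S.image fun r : Nat.Primes => (r : ℕ))
  have : Fact ℓ.Prime := ⟨hℓ⟩
  refine ⟨⟨ℓ, hℓ⟩, fun h => hℓS (Finset.mem_image.mpr ⟨_, h, rfl⟩), fun S' hS' => ?_⟩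
  obtain ⟨τ, hτ⟩ := Gal.exists_isFrobeniusAt hℓ (Places.liesOverPrime_padicPlace ℓ)
  have hτr : τ ∈ (localGaloisToGlobal ℓ).range := by
    rw [Places.range_localGaloisToGlobal]
    exact ((Gal.isFrobeniusAt_iff _ τ ℓ).1 hτ).1
  obtain ⟨d₀, rfl⟩ := hτr
  obtain ⟨g, j, hg⟩ := hfrob _ (Places.liesOverPrime_padicPlace ℓ) _ hτ
  -- the element of the decomposition group in `H`
  set e := g * localGaloisToGlobal ℓ (d₀ ^ j) * g⁻¹ with he
  have heN : (h₀ : GalQ)⁻¹ * e ∈ N := by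
    rw [← hLN, IntermediateField.mem_fixingSubgroup_iff]
    intro w hw
    rw [AlgEquiv.mul_apply, he, map_pow, ← hg w hw, AlgEquiv.aut_inv, AlgEquiv.symm_apply_apply]
  have hval : ∀ z : Coh.Z1 ((galLevelsS S).restrict H) (Mu p Qbar), N ≤ z1Ker hμ z →
      ∃ he : e ∈ H, (z : H → Mu p Qbar) ⟨e, he⟩ = (z : H → Mu p Qbar) h₀ := fun z hNz => by
    obtain ⟨hmem, hz0⟩ := hNz heN
    have heH : e ∈ H := by simpa using mul_mem h₀.2 hmem
    refine ⟨heH, ?_⟩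
    rw [show (⟨e, heH⟩ : H) = h₀ * ⟨_, hmem⟩ from Subtype.ext (mul_inv_cancel_left _ _).symm,
      z1_add hμ, hz0, zero_add]
  obtain ⟨heH, hxe⟩ := hval x (hNV.trans inf_le_left)
  obtain ⟨heH', hye⟩ := hval y (hNV.trans inf_le_right)
  obtain ⟨i, d₁, h₁, hh₁, hiq, -, hg1⟩ :=
    exists_placeOfElt_eq (S := S') (okAll hH) ⟨⟨ℓ, hℓ⟩, hS'⟩ g⁻¹
  obtain ⟨q', jj⟩ := i
  cases hiq
  refine ⟨⟨⟨⟨ℓ, hℓ⟩, hS'⟩, jj⟩, rfl, fun k hk => ?_⟩
  set d : GalLoc ℓ := d₁⁻¹ * d₀ ^ j * d₁ with hd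
  have hgd : (placeG (okAll hH) (⟨⟨⟨ℓ, hℓ⟩, hS'⟩, jj⟩ : PlaceIdx S' H (okAll hH)))⁻¹ *
      localGaloisToGlobal ℓ d *
      placeG (okAll hH) (⟨⟨⟨ℓ, hℓ⟩, hS'⟩, jj⟩ : PlaceIdx S' H (okAll hH)) =
      h₁ * e * h₁⁻¹ := by
    have hg2 : g =
        h₁⁻¹ * (placeG (okAll hH) (⟨⟨⟨ℓ, hℓ⟩, hS'⟩, jj⟩ : PlaceIdx S' H (okAll hH)))⁻¹ *
          (localGaloisToGlobal ℓ d₁)⁻¹ := by
      rw [← inv_inv g, hg1, mul_inv_rev, mul_inv_rev, mul_assoc]
    rw [he, hd, hg2, map_mul, map_mul, map_inv]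
    simp only [mul_inv_rev, inv_inv, mul_assoc, mul_inv_cancel_left, mul_inv_cancel, mul_one]
  have hmem : d ∈ placeGroup (okAll hH) (⟨⟨⟨ℓ, hℓ⟩, hS'⟩, jj⟩ : PlaceIdx S' H (okAll hH)) :=
    Coh.mem_twisted.mpr (by
    rw [hgd]; exact mul_mem (mul_mem hh₁ heH) (inv_mem hh₁))
  rw [← map_nsmul, ← map_nsmul] at hk
  obtain ⟨c, hc⟩ := Coh.H1.mk_eq_mk.mp hk
  have h1 := hc ⟨d, hmem⟩
  rw [smul_muLoc (okAll hH) hμ (⟨⟨⟨ℓ, hℓ⟩, hS'⟩, jj⟩ : PlaceIdx S' H (okAll hH)), sub_self,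
    add_zero] at h1
  have h2 : muEmb ℓ (placeG (okAll hH) (⟨⟨⟨ℓ, hℓ⟩, hS'⟩, jj⟩ : PlaceIdx S' H (okAll hH)) •
      (y : H → Mu p Qbar) (Coh.twistHom _
        (placeG (okAll hH) (⟨⟨⟨ℓ, hℓ⟩, hS'⟩, jj⟩ : PlaceIdx S' H (okAll hH))) H ⟨d, hmem⟩)) =
        muEmb ℓ (placeG (okAll hH) (⟨⟨⟨ℓ, hℓ⟩, hS'⟩, jj⟩ : PlaceIdx S' H (okAll hH)) •
          (k • (x : H → Mu p Qbar)) (Coh.twistHom _ (placeG (okAll hH)
            (⟨⟨⟨ℓ, hℓ⟩, hS'⟩, jj⟩ : PlaceIdx S' H (okAll hH))) H ⟨d, hmem⟩)) := h1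
  have hu : Coh.twistHom _
      (placeG (okAll hH) (⟨⟨⟨ℓ, hℓ⟩, hS'⟩, jj⟩ : PlaceIdx S' H (okAll hH))) H ⟨d, hmem⟩ =
      (⟨h₁, hh₁⟩ : H) * ⟨e, heH⟩ * (⟨h₁, hh₁⟩ : H)⁻¹ := Subtype.ext hgd
  have h3 := MulAction.injective _ ((muEmb_bijective (p := p) ℓ).1 h2)
  rw [Pi.smul_apply, hu, z1_add hμ, z1_add hμ, z1_inv hμ, z1_add hμ, z1_add hμ, z1_inv hμ, hxe,
    hye, hx₀, zero_add, neg_add_cancel, smul_zero] at h3
  exact hy₀ (by rwa [add_comm ((y : H → Mu p Qbar) h₀), neg_add_cancel_left] at h3)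

end Fermat.Agent.Duality

end
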